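import Fermat.Agent.PT.Delta

/-!
Parcel E: 3-cochains, Leibniz rules, dual sequences.
-/

set_option autoImplicit false
set_option linter.style.haveILetI false

noncomputable section

open CategoryTheory groupCohomology

namespace FLTAgent.PT

variable {p : ℕ} [Fact p.Prime]

section General

variable {G : Type} [Group G] {r : G →* GQ}

/-- level-constant 3-cochains -/
def IsLevelConstant3 (r : G →* GQ) {X : Type*} (f : G × G × G → X) : Prop :=
  ∃ F : IntermediateField ℚ (AlgebraicClosure ℚ), FiniteDimensional ℚ F ∧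
    ∀ g h k s t u : G, r s ∈ F.fixingSubgroup → r t ∈ F.fixingSubgroup → r u ∈ F.fixingSubgroup →
      f (g * s, h * t, k * u) = f (g, h, k)

/-- 3-cocycles -/
def IsCocycle3 (M : Rep.{0} (ZMod p) G) (e : G × G × G → M) : Prop :=
  ∀ g h k l : G, M.ρ g (e (h, k, l)) - e (g * h, k, l) + e (g, h * k, l) - e (g, h, k * l)
    + e (g, h, k) = 0

theorem isLevel1_neg {X : Type*} [Neg X] {f : G → X} (hf : IsLevelConstant₁ r f) :
    IsLevelConstant₁ r (-f) := hf.comp (fun x => -x)

theorem isLevel2_neg {X : Type*} [Neg X] {f : G × G → X} (hf : IsLevelConstant₂ r f) :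
    IsLevelConstant₂ r (-f) := hf.comp (fun x => -x)

theorem isLevel1_sub {X : Type*} [AddGroup X] {f f' : G → X} (hf : IsLevelConstant₁ r f)
    (hf' : IsLevelConstant₁ r f') : IsLevelConstant₁ r (f - f') := by
  rw [sub_eq_add_neg]; exact hf.add (isLevel1_neg hf')

theorem isLevel2_sub {X : Type*} [AddGroup X] {f f' : G × G → X} (hf : IsLevelConstant₂ r f)
    (hf' : IsLevelConstant₂ r f') : IsLevelConstant₂ r (f - f') := by
  rw [sub_eq_add_neg]; exact hf.add (isLevel2_neg hf')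

variable {A B C M : Rep.{0} (ZMod p) G}

theorem IsAdm.level_d0 (hM : IsAdm r M) (m : M) : IsLevelConstant₁ r ((d₀₁ M).hom m) := by
  obtain ⟨F, hF, -, hρ, -⟩ := hM.exists_level r (isLevelConstant₁_const r m)
  refine ⟨F, hF, fun g s hs => ?_⟩
  rw [d₀₁_hom_apply, d₀₁_hom_apply, map_mul, hρ s hs, mul_one]

theorem IsAdm.level_d1 (hM : IsAdm r M) {f : G → M} (hf : IsLevelConstant₁ r f) :
    IsLevelConstant₂ r ((d₁₂ M).hom f) := by
  obtain ⟨F, hF, hn, hρ, hf'⟩ := hM.exists_level r hf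
  refine ⟨F, hF, fun g g' s s' hs hs' => ?_⟩
  have hconj : r ((g'⁻¹ * s * g') * s') ∈ F.fixingSubgroup := by
    simp only [map_mul, map_inv]
    refine mul_mem ?_ hs'
    simpa using hn.conj_mem (r s) hs (r g')⁻¹
  simp only [d₁₂_hom_apply]
  rw [map_mul M.ρ, hρ s hs, mul_one, hf' g s hs, hf' g' s' hs',
    show g * s * (g' * s') = g * g' * ((g'⁻¹ * s * g') * s') by group, hf' _ _ hconj]

variable {φ : A →ₗ[ZMod p] B →ₗ[ZMod p] C}

theorem IsEqv.rho (hφ : IsEqv φ) (g : G) (a : A) (b : B) :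
    C.ρ g (φ a b) = φ (A.ρ g a) (B.ρ g b) := (hφ g a b).symm

theorem cup10_level (hB : IsAdm r B) {a : G → A} (ha : IsLevelConstant₁ r a) (n : B) :
    IsLevelConstant₁ r (cup10 φ a n) := by
  obtain ⟨F, hF, -, hρ, ha'⟩ := hB.exists_level r ha
  exact ⟨F, hF, fun g s hs => by
    show φ (a (g * s)) (B.ρ (g * s) n) = φ (a g) (B.ρ g n)
    rw [ha' g s hs, map_mul, hρ s hs, mul_one]⟩

theorem cup01_level (m : A) {b : G → B} (hb : IsLevelConstant₁ r b) :
    IsLevelConstant₁ r (cup01 φ m b) := hb.comp (φ m)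

theorem cup02_level (m : A) {c : G × G → B} (hc : IsLevelConstant₂ r c) :
    IsLevelConstant₂ r (cup02 φ m c) := hc.comp (φ m)

theorem cup20_level (hB : IsAdm r B) {c : G × G → A} (hc : IsLevelConstant₂ r c) (n : B) :
    IsLevelConstant₂ r (cup20 φ c n) := by
  obtain ⟨Fc, hFc, hc'⟩ := hc
  obtain ⟨F, hF, hn, hρ, -⟩ := hB.exists_level r (isLevelConstant₁_const r (0 : B))
  haveI := hF; haveI := hFc
  refine ⟨Fc ⊔ F, inferInstance, fun g h s t hs ht => ?_⟩
  have hs' := IntermediateField.fixingSubgroup_antitone (le_sup_right : F ≤ Fc ⊔ F) hs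
  have ht' := IntermediateField.fixingSubgroup_antitone (le_sup_right : F ≤ Fc ⊔ F) ht
  have hconj : r ((h⁻¹ * s * h) * t) ∈ F.fixingSubgroup := by
    simp only [map_mul, map_inv]
    exact mul_mem (by simpa using hn.conj_mem (r s) hs' (r h)⁻¹) ht'
  show φ (c (g * s, h * t)) (B.ρ (g * s * (h * t)) n) = φ (c (g, h)) (B.ρ (g * h) n)
  rw [hc' g h s t (IntermediateField.fixingSubgroup_antitone le_sup_left hs)
      (IntermediateField.fixingSubgroup_antitone le_sup_left ht),
    show g * s * (h * t) = g * h * ((h⁻¹ * s * h) * t) by group, map_mul, hρ _ hconj, mul_one]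

theorem cup12_level (hB : IsAdm r B) {a : G → A} {c : G × G → B} (ha : IsLevelConstant₁ r a)
    (hc : IsLevelConstant₂ r c) : IsLevelConstant3 r (cup12 φ a c) := by
  obtain ⟨F₁, hF₁, -, hρ, ha'⟩ := hB.exists_level r ha
  obtain ⟨F₂, hF₂, hc'⟩ := hc
  haveI := hF₁; haveI := hF₂
  refine ⟨F₁ ⊔ F₂, inferInstance, fun g h k s t u hs ht hu => ?_⟩
  show φ (a (g * s)) (B.ρ (g * s) (c (h * t, k * u))) = φ (a g) (B.ρ g (c (h, k)))
  rw [ha' g s (IntermediateField.fixingSubgroup_antitone le_sup_left hs),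
    hc' h k t u (IntermediateField.fixingSubgroup_antitone le_sup_right ht)
      (IntermediateField.fixingSubgroup_antitone le_sup_right hu), map_mul,
    hρ s (IntermediateField.fixingSubgroup_antitone le_sup_left hs), mul_one]

theorem cup21_level (hB : IsAdm r B) {c : G × G → A} {b : G → B} (hc : IsLevelConstant₂ r c)
    (hb : IsLevelConstant₁ r b) : IsLevelConstant3 r (cup21 φ c b) := by
  obtain ⟨F₁, hF₁, hn, hρ, hb'⟩ := hB.exists_level r hb
  obtain ⟨F₂, hF₂, hc'⟩ := hc
  haveI := hF₁; haveI := hF₂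
  refine ⟨F₁ ⊔ F₂, inferInstance, fun g h k s t u hs ht hu => ?_⟩
  have hs' := IntermediateField.fixingSubgroup_antitone (le_sup_left : F₁ ≤ F₁ ⊔ F₂) hs
  have ht' := IntermediateField.fixingSubgroup_antitone (le_sup_left : F₁ ≤ F₁ ⊔ F₂) ht
  have hconj : r ((h⁻¹ * s * h) * t) ∈ F₁.fixingSubgroup := by
    simp only [map_mul, map_inv]
    exact mul_mem (by simpa using hn.conj_mem (r s) hs' (r h)⁻¹) ht'
  show φ (c (g * s, h * t)) (B.ρ (g * s * (h * t)) (b (k * u))) =
    φ (c (g, h)) (B.ρ (g * h) (b k))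
  rw [hc' g h s t (IntermediateField.fixingSubgroup_antitone le_sup_right hs)
      (IntermediateField.fixingSubgroup_antitone le_sup_right ht),
    show g * s * (h * t) = g * h * ((h⁻¹ * s * h) * t) by group, map_mul, hρ _ hconj, mul_one,
    hb' k u (IntermediateField.fixingSubgroup_antitone le_sup_left hu)]

theorem d_cup01 (hφ : IsEqv φ) (m : A) (b : G → B) :
    (d₁₂ C).hom (cup01 φ m b) =
      cup11 φ ((d₀₁ A).hom m) b + cup02 φ m ((d₁₂ B).hom b) := by
  funext ⟨g, h⟩
  simp only [d₁₂_hom_apply, Pi.add_apply, cup01, cup11, cup02, d₀₁_hom_apply, hφ.rho, map_add,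
    map_sub, LinearMap.sub_apply]
  abel

theorem d_cup10 (hφ : IsEqv φ) (a : G → A) (n : B) :
    (d₁₂ C).hom (cup10 φ a n) =
      cup20 φ ((d₁₂ A).hom a) n - cup11 φ a ((d₀₁ B).hom n) := by
  funext ⟨g, h⟩
  simp only [d₁₂_hom_apply, Pi.sub_apply, cup10, cup11, cup20, d₀₁_hom_apply, hφ.rho, map_add,
    map_sub, map_mul, Module.End.mul_apply, LinearMap.add_apply, LinearMap.sub_apply]
  abel

theorem d_cup11 (hφ : IsEqv φ) (a : G → A) (b : G → B) :
    (d₂₃ C).hom (cup11 φ a b) =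
      cup21 φ ((d₁₂ A).hom a) b - cup12 φ a ((d₁₂ B).hom b) := by
  funext ⟨g, h, k⟩
  simp only [d₁₂_hom_apply, d₂₃_hom_apply, Pi.sub_apply, cup11, cup12, cup21, hφ.rho, map_add,
    map_sub, map_mul, Module.End.mul_apply, LinearMap.add_apply, LinearMap.sub_apply]
  abel

theorem d_cup02 (hφ : IsEqv φ) (m : A) {c : G × G → B} (hc : c ∈ cocycles₂ B) :
    (d₂₃ C).hom (cup02 φ m c) = cup12 φ ((d₀₁ A).hom m) c := by
  funext ⟨g, h, k⟩
  have h' := congrArg (φ m) ((mem_cocycles₂_def c).1 hc g h k)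
  simp only [map_add, map_sub, map_zero] at h'
  simp only [d₀₁_hom_apply, d₂₃_hom_apply, cup02, cup12, hφ.rho, map_sub, LinearMap.sub_apply]
  linear_combination (norm := abel) h'

theorem d_cup20 (hφ : IsEqv φ) {c : G × G → A} (hc : c ∈ cocycles₂ A) (n : B) :
    (d₂₃ C).hom (cup20 φ c n) = cup21 φ c ((d₀₁ B).hom n) := by
  funext ⟨g, h, k⟩
  have h' := congrArg (fun x => φ x (B.ρ g (B.ρ h (B.ρ k n)))) ((mem_cocycles₂_def c).1 hc g h k)
  simp only [map_add, map_sub, map_zero, LinearMap.add_apply, LinearMap.sub_apply,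
    LinearMap.zero_apply] at h'
  simp only [d₀₁_hom_apply, d₂₃_hom_apply, cup20, cup21, hφ.rho, map_sub, map_mul,
    Module.End.mul_apply]
  linear_combination (norm := abel) h'

theorem cup12_cocycle (hφ : IsEqv φ) {a : G → A} (ha : a ∈ cocycles₁ A) {c : G × G → B}
    (hc : c ∈ cocycles₂ B) : IsCocycle3 C (cup12 φ a c) := by
  intro g h k l
  have e1 : a (g * h) = A.ρ g (a h) + a g := by
    linear_combination (norm := module) -((mem_cocycles₁_def a).1 ha g h)
  have h' := congrArg (fun x => φ (a g) (B.ρ g x)) ((mem_cocycles₂_def c).1 hc h k l)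
  simp only [map_add, map_sub, map_zero] at h'
  simp only [cup12, hφ.rho, e1, map_mul, Module.End.mul_apply, map_add, LinearMap.add_apply]
  linear_combination (norm := abel) -h'

theorem cup21_cocycle (hφ : IsEqv φ) {c : G × G → A} (hc : c ∈ cocycles₂ A) {b : G → B}
    (hb : b ∈ cocycles₁ B) : IsCocycle3 C (cup21 φ c b) := by
  intro g h k l
  have e2 : b (k * l) = B.ρ k (b l) + b k := by
    linear_combination (norm := module) -((mem_cocycles₁_def b).1 hb k l)
  have h' := congrArg (fun x => φ x (B.ρ g (B.ρ h (B.ρ k (b l)))))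
    ((mem_cocycles₂_def c).1 hc g h k)
  simp only [map_add, map_sub, map_zero, LinearMap.add_apply, LinearMap.sub_apply,
    LinearMap.zero_apply] at h'
  simp only [cup21, hφ.rho, e2, map_mul, Module.End.mul_apply, map_add, mul_assoc]
  linear_combination (norm := abel) h'

variable {A' B' : Rep.{0} (ZMod p) G} {φ' : A' →ₗ[ZMod p] B' →ₗ[ZMod p] C}
  (f : A →ₗ[ZMod p] A') (f' : B' →ₗ[ZMod p] B) (hf' : ∀ g x, f' (B'.ρ g x) = B.ρ g (f' x))

include hf'

theorem cup11_adjoint (h : ∀ x y, φ' (f x) y = φ x (f' y)) (a : G → A) (b : G → B') :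
    cup11 φ' (f ∘ a) b = cup11 φ a (f' ∘ b) := by
  funext g; simp only [cup11, Function.comp_apply, h, hf']

theorem cup02_adjoint (h : ∀ x y, φ' (f x) y = φ x (f' y)) (a : A) (b : G × G → B') :
    cup02 φ' (f a) b = cup02 φ a (f' ∘ b) := by
  funext g; simp only [cup02, Function.comp_apply, h]

theorem cup12_adjoint (h : ∀ x y, φ' (f x) y = φ x (f' y)) (a : G → A) (b : G × G → B') :
    cup12 φ' (f ∘ a) b = cup12 φ a (f' ∘ b) := by
  funext g; simp only [cup12, Function.comp_apply, h, hf']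

theorem cup21_adjoint (h : ∀ x y, φ' (f x) y = φ x (f' y)) (a : G × G → A) (b : G → B') :
    cup21 φ' (f ∘ a) b = cup21 φ a (f' ∘ b) := by
  funext g; simp only [cup21, Function.comp_apply, h, hf']

omit hf'

/-- submodules of adm modules are adm -/
theorem IsAdm.of_injective (hB : IsAdm r B) (i : A →ₗ[ZMod p] B) (hi : Function.Injective i)
    (heqv : ∀ g a, i (A.ρ g a) = B.ρ g (i a)) : IsAdm r A := by
  haveI := hB.finite
  obtain ⟨F, hF, hρ⟩ := hB.level
  exact ⟨Module.Finite.of_injective i hi, F, hF, fun g hg => LinearMap.ext fun a => hi (by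
    rw [heqv, hρ g hg]; rfl)⟩

/-- quotients of adm modules are adm -/
theorem IsAdm.of_surjective (hA : IsAdm r A) (s : A →ₗ[ZMod p] B) (hs : Function.Surjective s)
    (heqv : ∀ g a, s (A.ρ g a) = B.ρ g (s a)) : IsAdm r B := by
  haveI := hA.finite
  obtain ⟨F, hF, hρ⟩ := hA.level
  exact ⟨Module.Finite.of_surjective s hs, F, hF, fun g hg => LinearMap.ext fun b => by
    obtain ⟨a, rfl⟩ := hs b
    rw [← heqv, hρ g hg]; rfl⟩

theorem SES.adm_left (E : SES r A B C) : IsAdm r A := E.adm.of_injective E.i E.inj E.i_eqv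

theorem SES.adm_right (E : SES r A B C) : IsAdm r C := E.adm.of_surjective E.pr E.surj E.pr_eqv

end General

section Dual

variable {M N A B C : Rep.{0} (ZMod p) GQ}

/-- the transpose of a map -/
def dmap (φ : M →ₗ[ZMod p] N) : dual' N →ₗ[ZMod p] dual' M := φ.dualMap

theorem dmap_apply (φ : M →ₗ[ZMod p] N) (f : dual' N) (m : M) :
    evM M m (dmap φ f) = evM N (φ m) f := rfl

theorem dmap_eqv (φ : M →ₗ[ZMod p] N) (hφ : ∀ g m, φ (M.ρ g m) = N.ρ g (φ m)) (g : GQ)
    (f : dual' N) : dmap φ ((dual' N).ρ g f) = (dual' M).ρ g (dmap φ f) := by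
  refine LinearMap.ext fun m => ?_
  show (ExtCitation.cycloChar p g : ZMod p) • f (N.ρ g⁻¹ (φ m)) =
    (ExtCitation.cycloChar p g : ZMod p) • f (φ (M.ρ g⁻¹ m))
  rw [hφ]

/-- the dual sequence -/
def SES.dual (E : SES (MonoidHom.id GQ) A B C) :
    SES (MonoidHom.id GQ) (dual' C) (dual' B) (dual' A) where
  i := dmap E.pr
  pr := dmap E.i
  i_eqv := dmap_eqv E.pr E.pr_eqv
  pr_eqv := dmap_eqv E.i E.i_eqv
  inj := LinearMap.dualMap_injective_of_surjective E.surj
  surj := LinearMap.dualMap_surjective_of_injective E.inj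
  exact := by
    rw [LinearMap.exact_iff]
    show LinearMap.ker E.i.dualMap = LinearMap.range E.pr.dualMap
    rw [LinearMap.ker_dualMap_eq_dualAnnihilator_range,
      LinearMap.range_dualMap_eq_dualAnnihilator_ker, ← LinearMap.exact_iff.1 E.exact]
  adm := isAdm_dual E.adm

/-- `M → M''` -/
def ddual (M : Rep.{0} (ZMod p) GQ) : M →ₗ[ZMod p] dual' (dual' M) :=
  Module.Dual.eval (ZMod p) M

theorem ddual_eqv (g : GQ) (m : M) : ddual M (M.ρ g m) = (dual' (dual' M)).ρ g (ddual M m) := by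
  refine LinearMap.ext fun f => ?_
  show f (M.ρ g m) = (ExtCitation.cycloChar p g : ZMod p) •
    ((ExtCitation.cycloChar p g⁻¹ : ZMod p) • f (M.ρ g⁻¹⁻¹ m))
  rw [inv_inv, smul_smul, ← Units.val_mul, ← map_mul, mul_inv_cancel, map_one, Units.val_one,
    one_smul]

theorem ddual_bijective (hM : IsAdm (MonoidHom.id GQ) M) : Function.Bijective (ddual M) := by
  haveI := hM.finite
  exact (Module.evalEquiv (ZMod p) M).bijective

end Dual

end FLTAgent.PT
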