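import Fermat.Agent.PT.Dual.Ram

/-!
Parcel E: prescribed ramification outside `S` after an extension unramified outside `S`
(the ideal classes capitulate in a field generated by roots of supported elements).
-/

set_option autoImplicit false
set_option linter.style.haveILetI false
set_option linter.unusedSectionVars false

noncomputable section

open CategoryTheory groupCohomology IntermediateField

namespace FLTAgent.PT

/-- the algebraic closure of `ℚ` -/
local notation "Qb" => AlgebraicClosure ℚ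

variable {p : ℕ} [Fact p.Prime] {U : Subgroup GQ}

theorem exists_pow_mul_not_dvd {m : ℤ} (hm : m ≠ 0) :
    ∃ (k : ℕ) (h : ℤ), m = (p : ℤ) ^ k * h ∧ ¬(p : ℤ) ∣ h := by
  obtain ⟨c, hc⟩ : ∃ n : ℕ, n = m.natAbs := ⟨_, rfl⟩
  induction c using Nat.strong_induction_on generalizing m with
  | _ c ih =>
    by_cases h : (p : ℤ) ∣ m
    · obtain ⟨m', rfl⟩ := h
      have hp := (Fact.out : p.Prime)
      have hm' : m' ≠ 0 := fun e => hm (by rw [e, mul_zero])
      obtain ⟨k, h', he, hd⟩ := ih m'.natAbs (by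
        rw [hc, Int.natAbs_mul, Int.natAbs_natCast]
        exact lt_mul_left (Int.natAbs_pos.2 hm') hp.one_lt) hm' rfl
      exact ⟨k + 1, h', by rw [he, pow_succ]; ring, hd⟩
    · exact ⟨0, m, by rw [pow_zero, one_mul], h⟩

variable [NumberField ↥(Fld U)]

theorem exists_supported_place (hG : OpenMu p U) (v : Pl U) :
    ∃ a : (Fld U)ˣ, (∀ w, w ≠ v → ord w (Additive.ofMul a) = 0) ∧
      ord v (Additive.ofMul a) ≠ 0 := by
  obtain ⟨a, h1, h2⟩ := exists_supported (pr v)
  exact ⟨a, fun w hw => (ordv_eq_zero_iff _ _).2 (h1 _ ((pr_injective hG).ne hw)),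
    fun h => h2 ((ordv_eq_zero_iff _ _).1 h)⟩

/-- every ramification supported outside `S` is global after an extension unramified outside `S` -/
theorem exists_capitulation [U.Normal] (hG : OpenMu p U) (S : Finset Nat.Primes) (hpS : pP p ∈ S)
    (hu : ∀ q ∉ S, UnrFld q U) (Q : Finset Nat.Primes) :
    ∃ (U' : Subgroup GQ) (hle : U' ≤ U), U'.Normal ∧ OpenMu p U' ∧ (∀ q ∉ S, UnrFld q U') ∧
      ∀ n : ∀ q, Orb q U → ZMod p, (∀ q ∉ Q, n q = 0) →
        ∃ z : Z1 (MonoidHom.id GQ) (ind U' (mu p)), ∀ q ∉ S, ∀ s ∈ inert q, ∀ x : GQ ⧸ U',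
          (z.1 (loc q s) x : ZMod p) =
            n q (orb q (Subgroup.quotientMapOfLE hle x)) * tauRam p q (loc q s) := by
  classical
  haveI := fun q => @Fintype.ofFinite (Orb q U) (hG.finite_orb q)
  choose a ha0 ha using exists_supported_place hG
  choose k h' hm hd using fun v => exists_pow_mul_not_dvd (p := p) (ha v)
  choose r hr using fun v => IsAlgClosed.exists_pow_nat_eq (((a v : Fld U) : Qb))
    (pow_pos (Fact.out : p.Prime).pos (k v))
  have hr0 : ∀ v, r v ≠ 0 := fun v e => (a v).ne_zero (Subtype.ext (by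
    rw [← hr v, e, zero_pow (pow_ne_zero _ (Fact.out : p.Prime).ne_zero)]; rfl))
  have hqp : ∀ q ∉ S, (q : ℕ) ≠ p := fun q hq e => hq (by
    have : q = pP p := Subtype.ext e
    exact this ▸ hpS)
  set V := plT hG Q with hV
  let U' : Subgroup GQ :=
    { carrier := {g | g ∈ U ∧ ∀ v ∈ V, ∀ h : GQ, g (h (r v)) = h (r v)}
      one_mem' := ⟨one_mem _, fun _ _ _ => rfl⟩
      mul_mem' := fun hg hg' => ⟨mul_mem hg.1 hg'.1, fun v hv h => by
        rw [AlgEquiv.mul_apply, hg'.2 v hv h, hg.2 v hv h]⟩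
      inv_mem' := fun {g} hg => ⟨inv_mem hg.1, fun v hv h => by
        conv_lhs => rw [← hg.2 v hv h]
        rw [← AlgEquiv.mul_apply, inv_mul_cancel, AlgEquiv.one_apply]⟩ }
  have hle : U' ≤ U := fun g hg => hg.1
  have hn : U'.Normal := ⟨fun g hg c => ⟨Subgroup.Normal.conj_mem ‹U.Normal› g hg.1 c,
    fun v hv h => by
      have e := hg.2 v hv (c⁻¹ * h)
      simp only [AlgEquiv.mul_apply] at e ⊢
      rw [e, ← AlgEquiv.mul_apply, mul_inv_cancel, AlgEquiv.one_apply]⟩⟩
  have hG' : OpenMu p U' := by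
    refine ⟨?_, fun g hg => hG.triv g (hle hg)⟩
    obtain ⟨F, hF, hFU⟩ := hG.opn
    haveI := hF
    haveI : Algebra.IsIntegral ℚ Qb := ⟨fun x =>
      (FLTAgent.Common.isAlgebraic_qbar.isAlgebraic x).isIntegral⟩
    haveI : FiniteDimensional ℚ (IntermediateField.adjoin ℚ (↑(V.image r) : Set Qb)) :=
      IntermediateField.finiteDimensional_adjoin fun x _ => Algebra.IsIntegral.isIntegral x
    obtain ⟨E, hE, hEle, hEn⟩ :=
      exists_normal_level (F ⊔ IntermediateField.adjoin ℚ (↑(V.image r) : Set Qb))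
    refine ⟨E, hE, fun g hg => ?_⟩
    refine ⟨hFU (IntermediateField.fixingSubgroup_antitone le_sup_left (hEle hg)),
      fun v hv h => ?_⟩
    have e := (IntermediateField.mem_fixingSubgroup_iff _ _).1
      (IntermediateField.fixingSubgroup_antitone le_sup_right (hEle (hEn.conj_mem g hg h⁻¹)))
      (r v) (IntermediateField.subset_adjoin ℚ _ (Finset.mem_coe.2 (Finset.mem_image_of_mem r hv)))
    rw [inv_inv] at e
    simp only [AlgEquiv.mul_apply] at e
    conv_rhs => rw [← e]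
    rw [← AlgEquiv.mul_apply h h⁻¹, mul_inv_cancel, AlgEquiv.one_apply]
  have hordv : ∀ q (x : GQ ⧸ U) v, ordAt q x (a v) =
      if v = ⟨q, orb q x⟩ then (p : ℤ) ^ k v * h' v else 0 := fun q x v => by
    rw [ordAt_eq_ord]
    by_cases e : v = (⟨q, orb q x⟩ : Pl U)
    · rw [if_pos e, ← hm v, e]
    · rw [if_neg e, ha0 v _ (Ne.symm e)]
  have hu' : ∀ q ∉ S, UnrFld q U' := fun q hq s hs => by
    haveI := hn
    refine smul_coset_eq hn le_rfl ⟨mem_of_fix_one (hu q hq s hs _), fun v _ h => ?_⟩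
    set x : GQ ⧸ U := (h : GQ ⧸ U)
    set w : Qb := h (r v)
    have hw0 : w ≠ 0 := (map_ne_zero h).mpr (hr0 v)
    have hw : w ^ p ^ k v = emb x (a v : Fld U) := by rw [← map_pow, hr, emb_mk]
    set j : ℤ := if v = ⟨q, orb q x⟩ then h' v else 0
    have hj : ordAt q x (a v) = (p : ℤ) ^ k v * j := by
      rw [hordv]; simp only [j]; split_ifs <;> simp
    have hval : (plc q).valuation (w / ((q : ℕ) : Qb) ^ j) = 1 := by
      refine (pow_eq_one_iff_left (pow_ne_zero (k v) (Fact.out : p.Prime).ne_zero)).mp ?_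
      rw [← map_pow, div_pow, hw, map_div₀, (hu q hq).valuation_emb hG.opn x (a v), hj,
        ← zpow_natCast (((q : ℕ) : Qb) ^ j), ← zpow_mul, map_zpow₀, Nat.cast_pow, mul_comm j,
        div_self]
      exact zpow_ne_zero _ (valuation_natCast_ne_zero q)
    have hfix := inert_fix_root (p := p) (hqp q hq) hs (u := w / ((q : ℕ) : Qb) ^ j)
      (ξ := loc q s w / w) (k := k v) hval
      (by
        rw [div_pow, ← map_pow, hw, ← emb_smul, hu q hq s hs, div_self]
        exact (map_ne_zero _).mpr (a v).ne_zero)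
      (by rw [map_div₀, map_zpow₀, map_natCast]; field_simp)
    exact (div_eq_one_iff_eq hw0).1 hfix
  refine ⟨U', hle, hn, hG', hu', fun n hnQ => ?_⟩
  haveI := hG'.opn.numberField
  have hmem : ∀ v ∈ V, r v ∈ Fld U' := fun v hv => mem_fld.mpr fun g hg => hg.2 v hv 1
  let y : V → (Fld U')ˣ := fun v => Units.mk0 ⟨r v.1, hmem v.1 v.2⟩ fun e =>
    hr0 v.1 (congrArg Subtype.val e)
  have hord : ∀ q ∉ S, ∀ (x : GQ ⧸ U') (v : V), ordAt q x (y v) =
      if v.1 = ⟨q, orb q (Subgroup.quotientMapOfLE hle x)⟩ then h' v.1 else 0 := by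
    intro q hq x v
    have hemb : (emb x (y v : Fld U')) ^ p ^ k v.1 =
        emb (Subgroup.quotientMapOfLE hle x) (a v.1 : Fld U) := by
      induction x using QuotientGroup.induction_on with
      | H g =>
        show (g (r v.1)) ^ p ^ k v.1 = g ((a v.1 : Fld U) : Qb)
        rw [← map_pow, hr]
    have e := congrArg (plc q).valuation hemb
    rw [map_pow, (hu' q hq).valuation_emb hG'.opn, (hu q hq).valuation_emb hG.opn,
      ← zpow_natCast, ← zpow_mul, Nat.cast_pow, hordv] at e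
    have e' := zpow_right_injective₀ (zero_lt_iff.mpr (valuation_natCast_ne_zero q))
      (valuation_natCast_lt_one q).ne e
    have hp0 : ((p : ℤ) ^ k v.1) ≠ 0 :=
      pow_ne_zero _ (Int.natCast_ne_zero.2 (Fact.out : p.Prime).ne_zero)
    refine mul_right_cancel₀ hp0 (e'.trans ?_)
    split_ifs <;> ring
  obtain ⟨z, hz⟩ := Submodule.mkQ_surjective _
    (∑ v : V, (n v.1.1 v.1.2 * (h' v.1 : ZMod p)⁻¹) • kappa hG' (Additive.ofMul (y v)))
  refine ⟨z, fun q hq s hs x => ?_⟩
  have e : (z.1 (loc q s) x : ZMod p) = ev1 hG' q x (res1 q _ (Submodule.mkQ _ z))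
      ⟨s, (hu' q hq).stq_mem hs x⟩ := rfl
  rw [e, hz, map_sum, map_sum, Finset.sum_apply]
  simp only [map_smul, Pi.smul_apply, smul_eq_mul, ev1_kappa_inert hG' (hu' q hq) (hqp q hq) _ _ hs,
    hord q hq x]
  set v₀ : Pl U := ⟨q, orb q (Subgroup.quotientMapOfLE hle x)⟩
  by_cases hv₀ : v₀ ∈ V
  · rw [Finset.sum_eq_single (⟨v₀, hv₀⟩ : V)
      (fun v _ hv => by
        rw [if_neg fun e => hv (Subtype.ext e), Int.cast_zero, zero_mul, mul_zero])
      (fun h => absurd (Finset.mem_univ _) h), if_pos rfl]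
    have hne : ((h' v₀ : ℤ) : ZMod p) ≠ 0 := fun e =>
      hd v₀ ((ZMod.intCast_zmod_eq_zero_iff_dvd _ _).1 e)
    show n q _ * (h' v₀ : ZMod p)⁻¹ * ((h' v₀ : ZMod p) * tauRam p q (loc q s)) = _
    rw [mul_assoc, inv_mul_cancel_left₀ hne]
  · refine (Finset.sum_eq_zero fun v _ => ?_).trans ?_
    · rw [if_neg fun e => hv₀ (by rw [← e]; exact v.2), Int.cast_zero, zero_mul, mul_zero]
    · rw [hnQ q fun h => hv₀ (mem_plT.2 h)]
      exact (zero_mul _).symm

end FLTAgent.PT
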