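import Fermat.Agent.PT.Dual.LinAlg

/-!
Parcel E: families of local classes and their sums of pairings with global classes.
-/

set_option autoImplicit false
set_option linter.style.haveILetI false

noncomputable section

open CategoryTheory groupCohomology

namespace FLTAgent.PT

variable {p : ℕ} [Fact p.Prime] (R : Recip p) {M N : Rep.{0} (ZMod p) GQ}

/-- the invariant of the local pairing in degree `(1,1)` -/
def ev11 (q : Nat.Primes) (hM : IsAdm (MonoidHom.id GQ) M) :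
    lH1 q M →ₗ[ZMod p] lH1 q (dual' M) →ₗ[ZMod p] ZMod p :=
  (pair11 q hM).compr₂ (R.inv q).toLinearMap

/-- the invariant of the local pairing in degree `(0,2)` -/
def ev02 (q : Nat.Primes) (M : Rep.{0} (ZMod p) GQ) :
    lH0 q M →ₗ[ZMod p] lH2 q (dual' M) →ₗ[ZMod p] ZMod p :=
  (cupH02 (loc q) (A := Rep.res (loc q) M) (B := Rep.res (loc q) (dual' M))
    (C := Rep.res (loc q) (mu p)) (evM M) (fun g => evM_eqv M (loc q g))).compr₂
    (R.inv q).toLinearMap

theorem ev11_apply {q : Nat.Primes} (hM : IsAdm (MonoidHom.id GQ) M) (z : lH1 q M)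
    (b : lH1 q (dual' M)) : ev11 R q hM z b = R.inv q (pair11 q hM z b) := rfl

theorem ev11_surjective (q : Nat.Primes) (hM : IsAdm (MonoidHom.id GQ) M) :
    Function.Surjective (ev11 R q hM) := fun l => by
  obtain ⟨z, hz⟩ := (pair11_bijective q hM).1.2 ((R.inv q).symm.toLinearMap ∘ₗ l)
  refine ⟨z, LinearMap.ext fun b => ?_⟩
  rw [ev11_apply, hz]
  exact (R.inv q).apply_symm_apply _

theorem ev11_injective (q : Nat.Primes) (hM : IsAdm (MonoidHom.id GQ) M) :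
    Function.Injective (ev11 R q hM) := fun z z' h => (pair11_bijective q hM).1.1
  (LinearMap.ext fun b => (R.inv q).injective (LinearMap.congr_fun h b))

theorem ev02_ddual (q : Nat.Primes) (n : lH0 q M) (n' : lH0 q (dual' (dual' M)))
    (h : n'.1 = ddual M n.1) (c : lH2 q (dual' M)) :
    ev02 R q M n c = R.inv q (pair02 q (dual' M) n' c) := by
  obtain ⟨z, rfl⟩ := Submodule.mkQ_surjective _ c
  refine congrArg (R.inv q) (congrArg (Submodule.mkQ _) (Subtype.ext (funext fun g => ?_)))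
  show evM M n.1 (z.1 g) = evD (dual' M) n'.1 (z.1 g)
  rw [h]
  rfl

theorem ev02_surjective (q : Nat.Primes) (hM : IsAdm (MonoidHom.id GQ) M) :
    Function.Surjective (ev02 R q M) := fun l => by
  obtain ⟨n', hn'⟩ := (pair02_bijective q (isAdm_dual hM)).1.2 ((R.inv q).symm.toLinearMap ∘ₗ l)
  obtain ⟨n, hn⟩ := (ddual_bijective hM).2 n'.1
  refine ⟨⟨n, fun g => (ddual_bijective hM).1 ?_⟩, LinearMap.ext fun c => ?_⟩
  · show ddual M (M.ρ (loc q g) n) = ddual M n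
    rw [ddual_eqv, hn]
    exact n'.2 g
  · rw [ev02_ddual R q _ n' hn.symm, hn']
    exact (R.inv q).apply_symm_apply _

theorem ev02_injective (q : Nat.Primes) (hM : IsAdm (MonoidHom.id GQ) M) :
    Function.Injective (ev02 R q M) := fun n n' h => by
  have hd : ∀ m : lH0 q M, ddual M m.1 ∈ lH0 q (dual' (dual' M)) := fun m g => by
    show (dual' (dual' M)).ρ (loc q g) (ddual M m.1) = ddual M m.1
    rw [← ddual_eqv]
    exact congrArg _ (m.2 g)
  have h1 : (⟨_, hd n⟩ : lH0 q (dual' (dual' M))) = ⟨_, hd n'⟩ :=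
    (pair02_bijective q (isAdm_dual hM)).1.1 (LinearMap.ext fun c => (R.inv q).injective (by
      rw [← ev02_ddual R q n ⟨_, hd n⟩ rfl, ← ev02_ddual R q n' ⟨_, hd n'⟩ rfl, h]))
  exact Subtype.ext ((ddual_bijective hM).1 (congrArg Subtype.val h1))

/-- the unramified classes pair to zero -/
theorem ev11_unr {q : Nat.Primes} (hq : (q : ℕ) ≠ p) (hM : IsAdm (MonoidHom.id GQ) M)
    (hu : IsUnrAt q M) {z : lH1 q M} (hz : z ∈ unr1 q M) {b : lH1 q (dual' M)}
    (hb : b ∈ unr1 q (dual' M)) : ev11 R q hM z b = 0 := by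
  rw [ev11_apply, (unr1_orthogonal q hq hM hu z).1 hz b hb, map_zero]

/-- a family of local classes, almost all unramified -/
def IsFam (z : ∀ q, lH1 q M) : Prop := {q | z q ∉ unr1 q M}.Finite

theorem finite_ev11 (hM : IsAdm (MonoidHom.id GQ) M) {z : ∀ q, lH1 q M} (hz : IsFam z)
    (b : cH1 (MonoidHom.id GQ) (dual' M)) :
    {q | ev11 R q hM (z q) (res1 q (dual' M) b) ≠ 0}.Finite := by
  refine ((hz.union (finite_above_p (p := p))).union ((finite_not_unr hM).union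
    (finite_ram1 (isAdm_dual hM) b))).subset fun q hq => ?_
  by_contra hcon
  simp only [Set.mem_union, Set.mem_ofPred_eq, not_or, not_not] at hcon
  exact hq (ev11_unr R hcon.1.2 hM hcon.2.1 hcon.1.1 hcon.2.2)

/-- the family pairs to zero with every global class -/
def IsOrth (hM : IsAdm (MonoidHom.id GQ) M) (z : ∀ q, lH1 q M) : Prop :=
  ∀ b : cH1 (MonoidHom.id GQ) (dual' M), ∑ᶠ q, ev11 R q hM (z q) (res1 q (dual' M) b) = 0

/-- isotropy: global classes are orthogonal to global classes -/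
theorem isOrth_res (hM : IsAdm (MonoidHom.id GQ) M) (x : cH1 (MonoidHom.id GQ) M) :
    IsOrth R hM fun q => res1 q M x := fun b => by
  have h : ∀ q, ev11 R q hM (res1 q M x) (res1 q (dual' M) b) =
      R.inv q (res2 q (mu p) (cupH (MonoidHom.id GQ) (evM M) (evM_eqv M) (isAdm_dual hM) x b)) :=
    fun q => by
      obtain ⟨u, rfl⟩ := Submodule.mkQ_surjective _ x
      obtain ⟨v, rfl⟩ := Submodule.mkQ_surjective _ b
      rfl
  rw [finsum_congr h, R.sum_zero]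

theorem isFam_res (hM : IsAdm (MonoidHom.id GQ) M) (x : cH1 (MonoidHom.id GQ) M) :
    IsFam fun q => res1 q M x := finite_ram1 hM x

/-- a class from a pair `(0, n)` -/
def zeroK1 (n : ∀ q, lH0 q M) : K1 M :=
  ⟨(0, fun q => (n q).1), zero_mem _, fun q g => sub_eq_zero.2 ((n q).2 g)⟩

theorem Phi1_zeroK1 (hp2 : p ≠ 2) (hM : IsAdm (MonoidHom.id GQ) M) (n : ∀ q, lH0 q M)
    (c : cH2 (MonoidHom.id GQ) (dual' M)) :
    Phi1 R hp2 hM (zeroK1 n) c = ∑ᶠ q, ev02 R q M (n q) (res2 q (dual' M) c) :=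
  Phi1_zero_left R hp2 hM (zeroK1 n) rfl c

theorem finite_ev02 (hM : IsAdm (MonoidHom.id GQ) M) (n : ∀ q, lH0 q M)
    (c : cH2 (MonoidHom.id GQ) (dual' M)) :
    {q | ev02 R q M (n q) (res2 q (dual' M) c) ≠ 0}.Finite :=
  (finite_res2 (isAdm_dual hM) c).subset fun q hq h => hq (by rw [h, map_zero])

theorem exists_factor_res2 {D : Rep.{0} (ZMod p) GQ} (hD : IsAdm (MonoidHom.id GQ) D)
    (l : Module.Dual (ZMod p) (cH2 (MonoidHom.id GQ) D)) (hl : ∀ c ∈ sha2g D, l c = 0) :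
    ∃ m : ∀ q, lH2 q D →ₗ[ZMod p] ZMod p, ∀ c, ∑ᶠ q, m q (res2 q D c) = l c :=
  exists_factor (X := fun q => lH2 q D) (fun q => res2 q D) (finite_res2 hD) l
    fun c hc => hl c (mem_sha2g_iff.2 hc)

/-- every functional killing the locally trivial classes comes from a pair `(0, n)` -/
theorem exists_zeroK1 (hp2 : p ≠ 2) (hM : IsAdm (MonoidHom.id GQ) M)
    (l : Module.Dual (ZMod p) (cH2 (MonoidHom.id GQ) (dual' M)))
    (hl : ∀ c ∈ sha2g (dual' M), l c = 0) :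
    ∃ n : ∀ q, lH0 q M, Phi1 R hp2 hM (zeroK1 n) = l := by
  obtain ⟨m, hm⟩ := exists_factor_res2 (isAdm_dual hM) l hl
  choose n hn using fun q => ev02_surjective R q hM (m q)
  refine ⟨n, LinearMap.ext fun c => ?_⟩
  rw [Phi1_zeroK1, ← hm c]
  exact finsum_congr fun q => by rw [hn q]

/-- the trivial classes `(dv, v + dm)` -/
def trivK2 (hM : IsAdm (MonoidHom.id GQ) M) (v : GQ → M)
    (hv : IsLevelConstant₁ (MonoidHom.id GQ) v) (m : Nat.Primes → M) : K2 M :=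
  ⟨((d₁₂ M).hom v, fun q => v ∘ loc q + (d₀₁ (Rep.res (loc q) M)).hom (m q)), by
    refine ⟨⟨levelCoboundaries₂_le_cocycles₂ _ _ ((mem_levelCoboundaries₂_iff _ _ _).2
      ⟨v, hv, rfl⟩), hM.level_d1 hv⟩, fun q => ⟨(level1_loc hv q).add ((hM.res _).level_d0 _), ?_⟩,
      ((finite_not_unrCst hv).union (finite_not_unr hM)).subset fun q hq => ?_⟩
    · funext ⟨g, h⟩
      rw [d₁₂_hom_apply]
      simp only [Pi.add_apply, Function.comp_apply, Prod.map_apply, d₀₁_hom_apply, d₁₂_hom_apply,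
        map_mul, map_add, map_sub, Module.End.mul_apply]
      show M.ρ (loc q g) (v (loc q h)) + (M.ρ (loc q g) (M.ρ (loc q h) (m q)) -
        M.ρ (loc q g) (m q)) - (v (loc q g * loc q h) +
          (M.ρ (loc q g) (M.ρ (loc q h) (m q)) - m q)) +
        (v (loc q g) + (M.ρ (loc q g) (m q) - m q)) =
        M.ρ (loc q g) (v (loc q h)) - v (loc q g * loc q h) + v (loc q g)
      abel
    · by_contra hcon
      simp only [Set.mem_union, Set.mem_ofPred_eq, not_or, not_not] at hcon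
      exact hq (hcon.1.add (unrCst_d0 hcon.2 (m q)))⟩

theorem isTriv2_trivK2 (hM : IsAdm (MonoidHom.id GQ) M) (v : GQ → M)
    (hv : IsLevelConstant₁ (MonoidHom.id GQ) v) (m : Nat.Primes → M) :
    IsTriv2 (trivK2 hM v hv m) :=
  ⟨v, hv, rfl, fun q => ⟨m q, rfl⟩⟩

theorem IsTriv2.add {x y : K2 M} (hx : IsTriv2 x) (hy : IsTriv2 y) : IsTriv2 (x + y) := by
  obtain ⟨v, hv, hd, hm⟩ := hx
  obtain ⟨v', hv', hd', hm'⟩ := hy
  refine ⟨v + v', hv.add hv', by rw [map_add, hd, hd']; rfl, fun q => ?_⟩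
  obtain ⟨m, h⟩ := hm q
  obtain ⟨m', h'⟩ := hm' q
  refine ⟨m + m', ?_⟩
  show x.1.2 q + y.1.2 q = _
  rw [h, h', map_add]
  funext g
  simp only [Pi.add_apply, Function.comp_apply]
  abel

theorem IsTriv2.map {x : K2 M} (hx : IsTriv2 x) (φ : M →ₗ[ZMod p] N)
    (hφ : ∀ g m, φ (M.ρ g m) = N.ρ g (φ m)) : IsTriv2 (K2map φ hφ x) := by
  obtain ⟨v, hv, hd, hm⟩ := hx
  refine ⟨φ ∘ v, hv.comp φ, funext fun g => ?_, fun q => ?_⟩
  · show _ = φ (x.1.1 g)
    rw [← hd, d₁₂_hom_apply, d₁₂_hom_apply]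
    simp only [Function.comp_apply, map_add, map_sub, hφ]
  · obtain ⟨m, h⟩ := hm q
    refine ⟨φ m, funext fun g => ?_⟩
    show φ (x.1.2 q g) = φ (v (loc q g)) + (d₀₁ (Rep.res (loc q) N)).hom (φ m) g
    rw [h, d₀₁_hom_apply, Pi.add_apply, map_add, d₀₁_hom_apply, map_sub]
    exact congrArg₂ (· + ·) rfl (congrArg (· - φ m) (hφ (loc q g) m))

/-- the local classes of a pair `(0, z)` -/
def cls2 (x : K2 M) (hx : x.1.1 = 0) (q : Nat.Primes) : lH1 q M :=
  h1mk (loc q) (Rep.res (loc q) M)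
    ⟨x.1.2 q, LinearMap.mem_ker.2 (((x.2.2.1 q).2).trans (by rw [hx]; rfl)), (x.2.2.1 q).1⟩

theorem isFam_cls2 (x : K2 M) (hx : x.1.1 = 0) : IsFam (cls2 x hx) :=
  x.2.2.2.subset fun q hq hu => hq ⟨_, fun s hs => by
    show x.1.2 q s = 0
    have h := hu 1 s hs
    rw [one_mul] at h
    rw [h]
    exact cocycles₁_map_one (A := Rep.res (loc q) M)
      (⟨x.1.2 q, LinearMap.mem_ker.2 (((x.2.2.1 q).2).trans (by rw [hx]; rfl))⟩ :
        cocycles₁ (Rep.res (loc q) M)), rfl⟩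

theorem Phi2_cls2 (hp2 : p ≠ 2) (hM : IsAdm (MonoidHom.id GQ) M) (x : K2 M) (hx : x.1.1 = 0)
    (b : cH1 (MonoidHom.id GQ) (dual' M)) :
    Phi2 R hp2 hM x b = ∑ᶠ q, ev11 R q hM (cls2 x hx q) (res1 q (dual' M) b) :=
  Phi2_zero_left R hp2 hM x hx b

theorem isTriv2_of_global (x : K2 M) (hx : x.1.1 = 0) (g : cH1 (MonoidHom.id GQ) M)
    (hg : ∀ q, res1 q M g = cls2 x hx q) : IsTriv2 x := by
  obtain ⟨z, rfl⟩ := Submodule.mkQ_surjective _ g
  refine ⟨z.1, z.2.2, by rw [hx]; exact z.2.1, fun q => ?_⟩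
  have h : h1mk (loc q) (Rep.res (loc q) M) (⟨x.1.2 q, LinearMap.mem_ker.2
      (((x.2.2.1 q).2).trans (by rw [hx]; rfl)), (x.2.2.1 q).1⟩ -
      ⟨_, pullPush_mem_Z1 (MonoidHom.id GQ) (r' := loc q) (loc q) (fun _ => rfl)
        (B := Rep.res (loc q) M) (LinearMap.id : M →ₗ[ZMod p] M) (fun _ _ => rfl) z.2⟩) = 0 := by
    rw [map_sub, sub_eq_zero]
    exact (hg q).symm
  obtain ⟨m, hm⟩ := (h1mk_eq_zero_iff _ _).1 h
  refine ⟨m, funext fun g => ?_⟩
  rw [Pi.add_apply, d₀₁_hom_apply, hm g]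
  show x.1.2 q g = z.1 (loc q g) + (x.1.2 q g - z.1 (loc q g))
  abel

/-- a pair `(0, z)` realising a family -/
theorem exists_K2_of_fam (hM : IsAdm (MonoidHom.id GQ) M) {z : ∀ q, lH1 q M} (hz : IsFam z) :
    ∃ (x : K2 M) (hx : x.1.1 = 0), ∀ q, cls2 x hx q = z q := by
  classical
  have hrep : ∀ q, ∃ y : Z1 (loc q) (Rep.res (loc q) M), h1mk _ _ y = z q ∧
      (z q ∈ unr1 q M → ∀ s ∈ inert q, y.1 s = 0) := fun q => by
    by_cases h : z q ∈ unr1 q M
    · obtain ⟨y, hy, hyz⟩ := h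
      exact ⟨y, hyz, fun _ => hy⟩
    · obtain ⟨y, hy⟩ := Submodule.mkQ_surjective _ (z q)
      exact ⟨y, hy, fun h' => absurd h' h⟩
  choose y hy hu using hrep
  refine ⟨⟨(0, fun q => (y q).1), zero_mem _, fun q => ⟨(y q).2.2, ?_⟩, ?_⟩, rfl, hy⟩
  · exact (LinearMap.mem_ker.1 (y q).2.1).trans rfl
  · refine hz.subset fun q hq h => hq fun g s hs => ?_
    have hc := (mem_cocycles₁_iff _).1 (y q).2.1 g s
    show (y q).1 (g * s) = (y q).1 g
    rw [hc, hu q h s hs, map_zero, zero_add]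

end FLTAgent.PT
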