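import Fermat.Agent.PT.Dual.Fam

/-!
Parcel E: the two duality statements, by induction from the permutation modules.
-/

set_option autoImplicit false
set_option linter.style.haveILetI false

noncomputable section

open CategoryTheory groupCohomology

namespace FLTAgent.PT

variable {p : ℕ} [Fact p.Prime] {M N : Rep.{0} (ZMod p) GQ}

section Equiv

variable (e : M ≃ₗ[ZMod p] N) (he : ∀ g m, e (M.ρ g m) = N.ρ g (e m))

include he in
theorem finrank_H1T_equiv (T : Finset Nat.Primes) (hfin : Module.Finite (ZMod p) (H1T T N)) :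
    Module.Finite (ZMod p) (H1T T M) ∧
      Module.finrank (ZMod p) (H1T T M) = Module.finrank (ZMod p) (H1T T N) := by
  let E : H1T T M ≃ₗ[ZMod p] H1T T N :=
    LinearEquiv.ofLinearMap
      ((h1push (MonoidHom.id GQ) e.toLinearMap he).restrict fun _ hx => H1T_push e.toLinearMap he T hx)
      ((h1push (MonoidHom.id GQ) e.symm.toLinearMap (eqv_symm e he)).restrict
        fun _ hx => H1T_push e.symm.toLinearMap (eqv_symm e he) T hx)
      (LinearMap.ext fun x => Subtype.ext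
        (h1push_retract _ _ (eqv_symm e he) he e.apply_symm_apply x.1))
      (LinearMap.ext fun x => Subtype.ext
        (h1push_retract _ _ he (eqv_symm e he) e.symm_apply_apply x.1))
  exact ⟨Module.Finite.equiv E.symm, E.finrank_eq⟩

include he in
theorem sha1g_eq_bot_of_equiv (h : sha1g N = ⊥) : sha1g M = ⊥ := by
  refine (Submodule.eq_bot_iff _).2 fun x hx => ?_
  have h1 : h1push (MonoidHom.id GQ) e.toLinearMap he x ∈ sha1g N := mem_sha1g_iff.2 fun q => by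
    rw [res1_push, mem_sha1g_iff.1 hx q, map_zero]
  rw [h, Submodule.mem_bot] at h1
  rw [← h1push_retract _ _ he (eqv_symm e he) e.symm_apply_apply x, h1, map_zero]

include he in
theorem sha2g_eq_bot_of_equiv (h : sha2g N = ⊥) : sha2g M = ⊥ := by
  refine (Submodule.eq_bot_iff _).2 fun x hx => ?_
  have h1 : h2push (MonoidHom.id GQ) e.toLinearMap he x ∈ sha2g N := mem_sha2g_iff.2 fun q => by
    rw [res2_push, mem_sha2g_iff.1 hx q, map_zero]
  rw [h, Submodule.mem_bot] at h1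
  rw [← h2push_retract _ _ he (eqv_symm e he) e.symm_apply_apply x, h1, map_zero]

end Equiv

section Perm

variable {H : Subgroup GQ} (hω : ∀ h ∈ H, ExtCitation.cycloChar p h = 1)

/-- `Map(G/H, 𝔽_p) ≅ Map(G/H, μ_p)` -/
def permEquiv : ind H (one p) ≃ₗ[ZMod p] ind H (mu p) :=
  LinearEquiv.ofLinearMap (twistMu hω) (untwistMu hω) (LinearMap.ext (twist_untwist hω))
    (LinearMap.ext (untwist_twist hω))

theorem permEquiv_eqv (g : GQ) (f : ind H (one p)) :
    permEquiv hω ((ind H (one p)).ρ g f) = (ind H (mu p)).ρ g (permEquiv hω f) :=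
  twistMu_eqv hω g f

/-- `Map(G/H, 𝔽_p)' ≅ Map(G/H, μ_p)` -/
def permDualEquiv (H : Subgroup GQ) [Finite (GQ ⧸ H)] :
    dual' (ind H (one p)) ≃ₗ[ZMod p] ind H (mu p) :=
  LinearEquiv.ofBijective (permDual H) permDual_bijective

theorem permDualEquiv_eqv [Finite (GQ ⧸ H)] (g : GQ) (f : dual' (ind H (one p))) :
    permDualEquiv H ((dual' (ind H (one p))).ρ g f) = (ind H (mu p)).ρ g (permDualEquiv H f) :=
  permDual_eqv g f

theorem isAdm_perm (hH : IsOpenSub (MonoidHom.id GQ) H) :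
    IsAdm (MonoidHom.id GQ) (ind H (one p)) :=
  isAdm_ind hH ⟨inferInstance, ⊥, inferInstance, fun _ _ => rfl⟩

variable (R : Recip p) (hp2 : p ≠ 2) (hH : IsOpenSub (MonoidHom.id GQ) H)

include hp2 hω hH in
theorem exists_injective_loc :
    ∃ T₁ : Finset Nat.Primes, ∀ T : Finset Nat.Primes, T₁ ⊆ T →
      (∀ x ∈ H1T T (ind H (one p)), (∀ q ∈ T, res1 q _ x = 0) → x = 0) ∧
        ∀ x ∈ H1T T (dual' (ind H (one p))), (∀ q ∈ T, res1 q _ x = 0) → x = 0 := by
  classical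
  haveI := hH.finite_quotient
  have h0 := finite_H1T_perm hp2 hH hω ∅
  haveI := (finrank_H1T_equiv (permEquiv hω) (permEquiv_eqv hω) ∅ h0).1
  haveI := (finrank_H1T_equiv (permDualEquiv H) permDualEquiv_eqv ∅ h0).1
  obtain ⟨U, hU⟩ := exists_detect (M := ind H (one p)) ∅
  obtain ⟨U', hU'⟩ := exists_detect (M := dual' (ind H (one p))) ∅
  have key : ∀ (X : Rep.{0} (ZMod p) GQ) (V : Finset Nat.Primes),
      (∀ x ∈ H1T ∅ X, (∀ q ∈ V, res1 q X x = 0) → x ∈ sha1g X) → sha1g X = ⊥ →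
      ∀ T, V ⊆ T → ∀ x ∈ H1T T X, (∀ q ∈ T, res1 q X x = 0) → x = 0 :=
    fun X V hV hbot T hVT x hx h => by
      refine (Submodule.mem_bot (ZMod p)).1 (hbot ▸ hV x (mem_H1T_iff.2 fun q _ => ?_)
        fun q hq => h q (hVT hq))
      by_cases hq : q ∈ T
      · rw [h q hq]; exact zero_mem _
      · exact mem_H1T_iff.1 hx q hq
  refine ⟨U ∪ U', fun T hT => ⟨key _ U hU ?_ T (Finset.union_subset_left hT),
    key _ U' hU' ?_ T (Finset.union_subset_right hT)⟩⟩
  · exact sha1g_eq_bot_of_equiv (permEquiv hω) (permEquiv_eqv hω) (sha1g_perm hH hω)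
  · exact sha1g_eq_bot_of_equiv (permDualEquiv H) permDualEquiv_eqv (sha1g_perm hH hω)

end Perm

section Counts

/-- the linear algebra at a finite set of primes -/
theorem exists_of_isotropic_fin {ι A B : Type} [AddCommGroup A] [Module (ZMod p) A] [AddCommGroup B]
    [Module (ZMod p) B] [Module.Finite (ZMod p) B] {X X' : ι → Type} [∀ i, AddCommGroup (X i)]
    [∀ i, Module (ZMod p) (X i)] [∀ i, AddCommGroup (X' i)] [∀ i, Module (ZMod p) (X' i)]
    (U : Finset ι) (hX : ∀ i, Module.Finite (ZMod p) (X i))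
    (a : ∀ i, A →ₗ[ZMod p] X i) (b : ∀ i, B →ₗ[ZMod p] X' i)
    (e : ∀ i, X i →ₗ[ZMod p] X' i →ₗ[ZMod p] ZMod p) (he : ∀ i, Function.Surjective (e i))
    (ha : ∀ u, (∀ i ∈ U, a i u = 0) → u = 0) (hb : ∀ v, (∀ i ∈ U, b i v = 0) → v = 0)
    (hdim : ∑ i ∈ U, Module.finrank (ZMod p) (X i) =
      Module.finrank (ZMod p) A + Module.finrank (ZMod p) B)
    (hiso : ∀ u v, ∑ i ∈ U, e i (a i u) (b i v) = 0)
    (z : ∀ i, X i) (hz : ∀ v, ∑ i ∈ U, e i (z i) (b i v) = 0) :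
    ∃ u, ∀ i ∈ U, a i u = z i := by
  classical
  haveI : ∀ i : U, Module.Finite (ZMod p) (X i.1) := fun i => hX i.1
  let β : ((i : U) → X i.1) →ₗ[ZMod p] ((i : U) → X' i.1) →ₗ[ZMod p] ZMod p :=
    ∑ i : U, (e i.1).compl₁₂ (LinearMap.proj i) (LinearMap.proj i)
  have hβapp : ∀ u v, β u v = ∑ i : U, e i.1 (u i) (v i) := fun u v => by
    simp only [β, LinearMap.sum_apply, LinearMap.compl₁₂_apply, LinearMap.proj_apply]
  have hβ : Function.Surjective β := fun l => by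
    choose u hu using fun i : U => he i.1 (l ∘ₗ LinearMap.single (ZMod p) (fun i : U => X' i.1) i)
    refine ⟨u, LinearMap.pi_ext fun i v => ?_⟩
    rw [hβapp, Finset.sum_eq_single i]
    · rw [Pi.single_eq_same, hu]; rfl
    · intro r _ hr
      rw [Pi.single_eq_of_ne hr, map_zero]
    · exact fun h => absurd (Finset.mem_univ i) h
  obtain ⟨u, hu⟩ := eq_of_isotropic β hβ (LinearMap.pi fun i : U => a i.1)
    (LinearMap.pi fun i : U => b i.1)
    (LinearMap.ker_eq_bot.1 (LinearMap.ker_eq_bot'.2 fun u hu =>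
      ha u fun i hi => congrFun hu ⟨i, hi⟩))
    (LinearMap.ker_eq_bot.1 (LinearMap.ker_eq_bot'.2 fun u hu =>
      hb u fun i hi => congrFun hu ⟨i, hi⟩))
    (fun u v => ((hβapp _ _).trans
      (Finset.sum_coe_sort U fun i => e i (a i u) (b i v))).trans (hiso u v))
    ((Module.finrank_pi_fintype _).trans
      ((Finset.sum_coe_sort U fun i => Module.finrank (ZMod p) (X i)).trans hdim))
    (fun i => z i.1)
    (fun v => ((hβapp _ _).trans
      (Finset.sum_coe_sort U fun i => e i (z i) (b i v))).trans (hz v))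
  exact ⟨u, fun i hi => congrFun hu ⟨i, hi⟩⟩

theorem exists_of_isotropic_loc {P D : Rep.{0} (ZMod p) GQ} (hP : IsAdm (MonoidHom.id GQ) P)
    (U : Finset Nat.Primes)
    (e : ∀ q, lH1 q P →ₗ[ZMod p] lH1 q D →ₗ[ZMod p] ZMod p)
    (he : ∀ q, Function.Surjective (e q)) [Module.Finite (ZMod p) (H1T U D)]
    (hiP : ∀ x ∈ H1T U P, (∀ q ∈ U, res1 q P x = 0) → x = 0)
    (hiD : ∀ x ∈ H1T U D, (∀ q ∈ U, res1 q D x = 0) → x = 0)
    (hdim : ∑ q ∈ U, Module.finrank (ZMod p) (lH1 q P) =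
      Module.finrank (ZMod p) (H1T U P) + Module.finrank (ZMod p) (H1T U D))
    (hiso : ∀ x ∈ H1T U P, ∀ v ∈ H1T U D, ∑ q ∈ U, e q (res1 q P x) (res1 q D v) = 0)
    (z : ∀ q, lH1 q P) (hz : ∀ v ∈ H1T U D, ∑ q ∈ U, e q (z q) (res1 q D v) = 0) :
    ∃ x ∈ H1T U P, ∀ q ∈ U, res1 q P x = z q := by
  obtain ⟨u, hu⟩ := exists_of_isotropic_fin (X := fun q => lH1 q P) (X' := fun q => lH1 q D) U
    (fun q => finite_lH1 q hP) (fun q => res1 q P ∘ₗ (H1T U P).subtype)
    (fun q => res1 q D ∘ₗ (H1T U D).subtype) e he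
    (fun u h => Subtype.ext (hiP u.1 u.2 h)) (fun v h => Subtype.ext (hiD v.1 v.2 h)) hdim
    (fun u v => hiso u.1 u.2 v.1 v.2) z (fun v => hz v.1 v.2)
  exact ⟨u.1, u.2, hu⟩

/-- an orthogonal family is global when the dimensions are complementary -/
theorem exists_global_of_counts (R : Recip p) {P : Rep.{0} (ZMod p) GQ}
    (hP : IsAdm (MonoidHom.id GQ) P) (z : ∀ q, lH1 q P) (ho : IsOrth R hP z)
    (T : Finset Nat.Primes) (hT : ∀ q ∉ T, IsUnrAt q P ∧ (q : ℕ) ≠ p ∧ z q ∈ unr1 q P)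
    (hU : ∀ U, T ⊆ U →
      (∀ x ∈ H1T U P, (∀ q ∈ U, res1 q P x = 0) → x = 0) ∧
      (∀ x ∈ H1T U (dual' P), (∀ q ∈ U, res1 q (dual' P) x = 0) → x = 0) ∧
      Module.Finite (ZMod p) (H1T U (dual' P)) ∧
      ∑ q ∈ U, Module.finrank (ZMod p) (lH1 q P) =
        Module.finrank (ZMod p) (H1T U P) + Module.finrank (ZMod p) (H1T U (dual' P))) :
    ∃ x : cH1 (MonoidHom.id GQ) P, ∀ q, res1 q P x = z q := by
  classical
  have step : ∀ U : Finset Nat.Primes, T ⊆ U → ∃ x ∈ H1T U P, ∀ q ∈ U, res1 q P x = z q := by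
    intro U hTU
    obtain ⟨hiP, hiD, hfin, hdim⟩ := hU U hTU
    haveI := hfin
    have hsum : ∀ (w : ∀ q, lH1 q P), ∀ v ∈ H1T U (dual' P), (∀ q ∉ U, w q ∈ unr1 q P) →
        ∑ᶠ q, ev11 R q hP (w q) (res1 q (dual' P) v) =
          ∑ q ∈ U, ev11 R q hP (w q) (res1 q (dual' P) v) := fun w v hv hw => by
      refine finsum_eq_sum_of_support_subset _ fun q hq => ?_
      by_contra hqU
      have hqU' : q ∉ U := fun h => hqU (Finset.mem_coe.2 h)
      obtain ⟨hu, hqp, -⟩ := hT q fun h => hqU' (hTU h)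
      exact hq (ev11_unr R hqp hP hu (hw q hqU') (mem_H1T_iff.1 hv q hqU'))
    exact exists_of_isotropic_loc hP U (fun q => ev11 R q hP) (fun q => ev11_surjective R q hP)
      hiP hiD hdim
      (fun x hx v hv => (hsum (fun q => res1 q P x) v hv fun q hq => mem_H1T_iff.1 hx q hq).symm.trans
        (isOrth_res R hP x v)) z
      (fun v hv => (hsum z v hv fun q hq => (hT q fun h => hq (hTU h)).2.2).symm.trans (ho v))
  obtain ⟨x, hx, hxz⟩ := step T subset_rfl
  refine ⟨x, fun q => ?_⟩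
  by_cases hq : q ∈ T
  · exact hxz q hq
  obtain ⟨x', hx', hxz'⟩ := step (insert q T) (Finset.subset_insert q T)
  have h0 : x' - x = 0 := (hU T subset_rfl).1 _
    (mem_H1T_iff.2 fun r hr => by
      rw [map_sub]
      refine sub_mem ?_ (mem_H1T_iff.1 hx r hr)
      rcases eq_or_ne r q with rfl | hne
      · rw [hxz' r (Finset.mem_insert_self _ _)]; exact (hT r hq).2.2
      · exact mem_H1T_iff.1 hx' r (by simp [hne, hr]))
    fun r hr => by rw [map_sub, hxz' r (Finset.mem_insert_of_mem hr), hxz r hr, sub_self]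
  rw [← sub_eq_zero.1 h0]
  exact hxz' q (Finset.mem_insert_self _ _)

end Counts

section PermMain

variable {H : Subgroup GQ} (hω : ∀ h ∈ H, ExtCitation.cycloChar p h = 1) (R : Recip p)
  (hp2 : p ≠ 2) (hH : IsOpenSub (MonoidHom.id GQ) H)

include hp2 hω in
/-- for permutation modules an orthogonal family is global -/
theorem exists_global_perm (z : ∀ q, lH1 q (ind H (one p))) (hz : IsFam z)
    (ho : IsOrth R (isAdm_perm hH) z) :
    ∃ x : cH1 (MonoidHom.id GQ) (ind H (one p)), ∀ q, res1 q _ x = z q := by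
  classical
  haveI := hH.finite_quotient
  have hP : IsAdm (MonoidHom.id GQ) (ind H (one p)) := isAdm_perm hH
  obtain ⟨T₀, hT₀⟩ := finrank_H1T_perm hp2 hH hω
  obtain ⟨T₁, hT₁⟩ := exists_injective_loc hω hp2 hH
  have hz' : {q | z q ∉ unr1 q (ind H (one p))}.Finite := hz
  refine exists_global_of_counts R hP z ho (T₀ ∪ T₁ ∪ (finite_not_unr hP).toFinset ∪
    (finite_above_p (p := p)).toFinset ∪ hz'.toFinset) (fun q hq => ?_) fun U hU => ?_
  · simp only [Finset.mem_union, Set.Finite.mem_toFinset, Set.mem_ofPred_eq, not_or,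
      not_not] at hq
    exact ⟨hq.1.1.2, hq.1.2, hq.2⟩
  have hsub : T₀ ⊆ U ∧ T₁ ⊆ U := by
    constructor <;> exact fun q hq => hU (by simp [hq])
  obtain ⟨hinjP, hinjD⟩ := hT₁ U hsub.2
  have hfin := finite_H1T_perm hp2 hH hω U
  obtain ⟨hfA, hA⟩ := finrank_H1T_equiv (permEquiv hω) (permEquiv_eqv hω) U hfin
  obtain ⟨hfB, hB⟩ := finrank_H1T_equiv (permDualEquiv H) permDualEquiv_eqv U hfin
  refine ⟨hinjP, hinjD, hfB, ?_⟩
  rw [hA, hB, hT₀ U hsub.1]
  simp only [finrank_lH1_perm _ hH hω, Finset.sum_add_distrib, ← Finset.mul_sum]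
  have hp' : (⟨p, Fact.out⟩ : Nat.Primes) ∈ U :=
    hU (Finset.mem_union_left _ (Finset.mem_union_right _
      ((Set.Finite.mem_toFinset _).2 (show ((⟨p, Fact.out⟩ : Nat.Primes) : ℕ) = p from rfl))))
  have hsum : (∑ q ∈ U, if (q : ℕ) = p then H.index else 0) = H.index :=
    (Finset.sum_eq_single_of_mem (⟨p, Fact.out⟩ : Nat.Primes) hp'
      (fun q _ hq => if_neg fun h => hq (Subtype.ext h))).trans (if_pos rfl)
  rw [hsum]
  obtain ⟨k, hk⟩ := even_index hp2 hω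
  omega

include hp2 hω in
theorem perm_main :
    (∀ l : Module.Dual (ZMod p) (cH2 (MonoidHom.id GQ) (dual' (ind H (one p)))),
      ∃ x : K1 (ind H (one p)), Phi1 R hp2 (isAdm_perm hH) x = l) ∧
    ∀ x : K2 (ind H (one p)), Phi2 R hp2 (isAdm_perm hH) x = 0 → IsTriv2 x := by
  haveI := hH.finite_quotient
  set P := ind H (one p)
  have hP : IsAdm (MonoidHom.id GQ) P := isAdm_perm hH
  refine ⟨fun l => ?_, fun x hx => ?_⟩
  · have hb : sha2g (dual' P) = ⊥ :=
      sha2g_eq_bot_of_equiv (permDualEquiv H) permDualEquiv_eqv (sha2g_perm hp2 hH hω)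
    obtain ⟨n, hn⟩ := exists_zeroK1 R hp2 hP l fun c hc => by
      rw [hb, Submodule.mem_bot] at hc
      rw [hc, map_zero]
    exact ⟨_, hn⟩
  · have hb : sha2g P = ⊥ :=
      sha2g_eq_bot_of_equiv (permEquiv hω) (permEquiv_eqv hω) (sha2g_perm hp2 hH hω)
    have hc : h2mk (MonoidHom.id GQ) P ⟨x.1.1, x.2.1⟩ ∈ sha2g P := mem_sha2g_iff.2 fun q =>
      (continuousH2π_eq_zero_iff (loc q) (Rep.res (loc q) P) _).2
        ((mem_levelCoboundaries₂_iff _ _ _).2 ⟨x.1.2 q, (x.2.2.1 q).1, (x.2.2.1 q).2⟩)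
    rw [hb, Submodule.mem_bot] at hc
    obtain ⟨v, hv, hdv⟩ := (mem_levelCoboundaries₂_iff _ _ _).1
      ((continuousH2π_eq_zero_iff _ _ _).1 hc)
    set y := x - trivK2 hP v hv 0 with hy
    have hy0 : y.1.1 = 0 := by
      show x.1.1 - (d₁₂ P).hom v = 0
      rw [hdv, sub_self]
    obtain ⟨g, hg⟩ := exists_global_perm hω R hp2 hH (cls2 y hy0) (isFam_cls2 y hy0) fun b => by
      rw [← Phi2_cls2 R hp2 hP y hy0 b, hy, map_sub, hx, zero_sub, LinearMap.neg_apply,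
        Phi2_triv R hp2 hP (isTriv2_trivK2 hP v hv 0), LinearMap.zero_apply, neg_zero]
    have := (isTriv2_of_global y hy0 g hg).add (isTriv2_trivK2 hP v hv 0)
    rwa [hy, sub_add_cancel] at this

end PermMain

section Ext

variable (R : Recip p) (hp2 : p ≠ 2) {A B C : Rep.{0} (ZMod p) GQ}
  (E : SES (MonoidHom.id GQ) A B C)

/-- the connecting map `K1 C → K2 A` -/
def SES.dK2 (h : K1 C) : K2 A :=
  ⟨(E.back ∘ (d₁₂ B).hom (E.sec ∘ h.1.1), fun q g =>
    E.back (E.sec (h.1.1 (loc q g)) -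
      (d₀₁ (Rep.res (loc q) B)).hom (E.sec (h.1.2 q)) g)), by
    have hl : IsLevelConstant₁ (MonoidHom.id GQ) (E.sec ∘ h.1.1) := h.2.1.2.comp E.sec
    have hpr : E.pr ∘ (E.sec ∘ h.1.1) = h.1.1 := funext fun g => E.pr_sec _
    have hy : ∀ q g, E.pr (E.sec (h.1.1 (loc q g)) -
        (d₀₁ (Rep.res (loc q) B)).hom (E.sec (h.1.2 q)) g) = 0 := fun q g => by
      rw [d₀₁_hom_apply, map_sub E.pr, E.pr_sec]
      show h.1.1 (loc q g) - E.pr (B.ρ (loc q g) _ - _) = 0
      rw [map_sub E.pr, E.pr_eqv, E.pr_sec, h.2.2 q g, sub_self]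
    refine ⟨E.back_cocycle₂ hl (by rw [hpr]; exact h.2.1.1), fun q => ⟨?_, ?_⟩, ?_⟩
    · exact (isLevel1_sub (level1_loc hl q) ((E.adm.res _).level_d0 _)).comp E.back
    · funext ⟨g, k⟩
      refine E.inj ?_
      simp only [d₁₂_hom_apply, Function.comp_apply, Prod.map_apply, map_add, map_sub]
      show E.i (A.ρ (loc q g) _) - _ + _ = _
      rw [E.i_eqv, E.i_back (hy q k), E.i_back (hy q (g * k)), E.i_back (hy q g),
        E.i_back (by
          simp only [map_add, map_sub, E.pr_eqv, Function.comp_apply, E.pr_sec]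
          exact (mem_cocycles₁_def _).1 h.2.1.1 (loc q g) (loc q k))]
      simp only [Function.comp_apply, d₀₁_hom_apply, map_sub, map_mul]
      show _ - (B.ρ (loc q g) (B.ρ (loc q k) _) - B.ρ (loc q g) _) -
        (_ - (B.ρ (loc q g) (B.ρ (loc q k) _) - _)) + (_ - (B.ρ (loc q g) _ - _)) = _
      abel
    · refine ((finite_not_unrCst hl).union (finite_not_unr E.adm)).subset fun q hq => ?_
      by_contra hcon
      simp only [Set.mem_union, Set.mem_ofPred_eq, not_or, not_not] at hcon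
      exact hq fun g s hs => congrArg E.back
        (congrArg₂ (· - ·) (hcon.1 g s hs) (unrCst_d0 hcon.2 _ g s hs))⟩

theorem SES.i_dK2_fst (h : K1 C) (g : GQ × GQ) :
    E.i ((E.dK2 h).1.1 g) = (d₁₂ B).hom (E.sec ∘ h.1.1) g :=
  E.i_back (by
    rw [d₁₂_hom_apply, map_add, map_sub, E.pr_eqv]
    simp only [Function.comp_apply, E.pr_sec]
    exact (mem_cocycles₁_def _).1 h.2.1.1 g.1 g.2)

theorem SES.i_dK2_snd (h : K1 C) (q : Nat.Primes) (g : Gam q) :
    E.i ((E.dK2 h).1.2 q g) = E.sec (h.1.1 (loc q g)) -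
      (B.ρ (loc q g) (E.sec (h.1.2 q)) - E.sec (h.1.2 q)) :=
  (congrArg E.i (congrArg E.back (congrArg (_ - ·) (d₀₁_hom_apply (A := Rep.res (loc q) B) _ _)))).trans
    (E.i_back (by
      show E.pr (E.sec (h.1.1 (loc q g)) -
        (B.ρ (loc q g) (E.sec (h.1.2 q)) - E.sec (h.1.2 q))) = 0
      rw [map_sub, map_sub, E.pr_eqv, E.pr_sec, E.pr_sec, h.2.2 q g, sub_self]))

theorem Phi2_dK2 (hA : IsAdm (MonoidHom.id GQ) A) (hC : IsAdm (MonoidHom.id GQ) C) (h : K1 C)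
    (b : cH1 (MonoidHom.id GQ) (dual' A)) :
    Phi2 R hp2 hA (E.dK2 h) b = Phi1 R hp2 hC h (E.dual.del1 b) := by
  obtain ⟨a, rfl⟩ := Submodule.mkQ_surjective _ b
  show _ = Phi1 R hp2 hC h (h2mk _ _ (E.dual.del1Z a))
  set e := E.dual.del1Z a
  set at' : GQ → dual' B := E.dual.sec ∘ a.1 with hat
  set bt : GQ → B := E.sec ∘ h.1.1 with hbt
  have hal : IsLevelConstant₁ (MonoidHom.id GQ) at' := IsLevelConstant₁.comp a.2.2 _
  have hbl : IsLevelConstant₁ (MonoidHom.id GQ) bt := h.2.1.2.comp E.sec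
  have he : ∀ x, dmap E.pr (e.1 x) = (d₁₂ (dual' B)).hom at' x := E.dual.i_del1Z a
  have ha : ∀ g, dmap E.i (at' g) = a.1 g := fun g => E.dual.pr_sec _
  obtain ⟨θ, hθ⟩ := exists_prim1 hp2 hC h e
  have hθ' : IsPrim (cup21 (evM A) (E.dK2 h).1.1 a.1) (θ + cup11 (evM B) bt at') := by
    refine ⟨hθ.1.add (cup11_level _ (isAdm_dual E.adm) hbl hal), ?_⟩
    rw [map_add, hθ.2, d_cup11 (evM_eqv B)]
    funext ⟨g, k, l⟩
    simp only [Pi.add_apply, Pi.sub_apply, cup12, cup21]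
    rw [← E.i_dK2_fst h (g, k), ← he (k, l), ← dmap_eqv E.pr E.pr_eqv, dmap_apply]
    show _ + (_ - evM C (E.pr (E.sec (h.1.1 g))) _) = _
    rw [E.pr_sec, ← ha l, ← dmap_eqv E.i E.i_eqv, dmap_apply]
    abel
  rw [Phi2_mk R hp2 hA (E.dK2 h) a hθ', Phi1_mk R hp2 hC h e hθ, v1, v2]
  refine finsum_congr fun q => ?_
  have hm1 := u1_mem hC q h e hθ
  have hm2 := u2_mem hA q (E.dK2 h) a hθ'
  have hkey : lclass R q (u1 q h e θ - u2 q (E.dK2 h) a (θ + cup11 (evM B) bt at')) = 0 := by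
    refine lclass_coboundary R (cup01_level (A := Rep.res (loc q) B)
      (B := Rep.res (loc q) (dual' B)) (C := Rep.res (loc q) (mu p)) (φ := evM B) (E.sec (h.1.2 q))
      (level1_loc hal q)) ?_
    rw [d_cup01 (A := Rep.res (loc q) B) (B := Rep.res (loc q) (dual' B))
      (C := Rep.res (loc q) (mu p)) (φ := evM B) (fun g => evM_eqv B (loc q g))]
    funext ⟨g, k⟩
    simp only [u1, u2, Pi.add_apply, Pi.sub_apply, cup11, cup02, Function.comp_apply,
      Prod.map_apply]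
    rw [← ha (loc q k)]
    show _ = evM C (h.1.2 q) (e.1 (loc q g, loc q k)) - θ (loc q g, loc q k) -
      (evM A ((E.dK2 h).1.2 q g) ((dual' A).ρ (loc q g) (dmap E.i (at' (loc q k)))) -
        (θ (loc q g, loc q k) +
          evM B (bt (loc q g)) ((dual' B).ρ (loc q g) (at' (loc q k)))))
    rw [← dmap_eqv E.i E.i_eqv, dmap_apply, E.i_dK2_snd, ← E.pr_sec (h.1.2 q), ← dmap_apply,
      E.pr_sec, he, d₀₁_hom_apply, d₁₂_hom_apply, d₁₂_hom_apply, map_sub (evM B),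
      LinearMap.sub_apply]
    simp only [Function.comp_apply, map_mul, hbt, MonoidHom.comp_apply, map_sub, map_add,
      LinearMap.sub_apply]
    abel
  rw [← add_sub_cancel (u2 q (E.dK2 h) a (θ + cup11 (evM B) bt at')) (u1 q h e θ),
    lclass_add R hm2 (sub_mem hm1 hm2), hkey, add_zero]

theorem isTriv2_push_dK2 (h : K1 C) : IsTriv2 (K2map E.i E.i_eqv (E.dK2 h)) := by
  refine ⟨E.sec ∘ h.1.1, h.2.1.2.comp E.sec, funext fun g => (E.i_dK2_fst h g).symm, fun q => ?_⟩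
  refine ⟨-E.sec (h.1.2 q), funext fun g => ?_⟩
  show E.i _ = _
  rw [E.i_dK2_snd, Pi.add_apply, d₀₁_hom_apply, map_neg]
  show _ = E.sec (h.1.1 (loc q g)) + (-B.ρ (loc q g) (E.sec (h.1.2 q)) - -E.sec (h.1.2 q))
  abel

theorem ext_main1 (hA : IsAdm (MonoidHom.id GQ) A) (hC : IsAdm (MonoidHom.id GQ) C)
    (h1A : ∀ l, ∃ x : K1 A, Phi1 R hp2 hA x = l)
    (h2A : ∀ x : K2 A, Phi2 R hp2 hA x = 0 → IsTriv2 x)
    (h1C : ∀ l, ∃ x : K1 C, Phi1 R hp2 hC x = l)
    (l : Module.Dual (ZMod p) (cH2 (MonoidHom.id GQ) (dual' B))) :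
    ∃ x : K1 B, Phi1 R hp2 E.adm x = l := by
  obtain ⟨h, hh⟩ := h1C (l ∘ₗ h2push (MonoidHom.id GQ) E.dual.i E.dual.i_eqv)
  have hz : Phi2 R hp2 hA (E.dK2 h) = 0 := LinearMap.ext fun b => by
    rw [Phi2_dK2 R hp2 E hA hC, hh, LinearMap.comp_apply, LinearMap.zero_apply]
    have : E.dual.del1 b ∈ LinearMap.ker (h2push (MonoidHom.id GQ) E.dual.i E.dual.i_eqv) := by
      rw [← E.dual.range_del1]; exact ⟨b, rfl⟩
    rw [LinearMap.mem_ker.1 this, map_zero]
  obtain ⟨v, hv, hdv, hm⟩ := h2A _ hz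
  choose m hm using hm
  set g : GQ → B := fun x => E.sec (h.1.1 x) - E.i (v x) with hg
  have hgZ : g ∈ Z1 (MonoidHom.id GQ) B := by
    refine ⟨(mem_cocycles₁_def _).2 fun x y => ?_,
      isLevel1_sub (h.2.1.2.comp E.sec) (hv.comp E.i)⟩
    have := congrArg E.i (congrFun hdv (x, y))
    rw [E.i_dK2_fst, d₁₂_hom_apply, d₁₂_hom_apply, map_add, map_sub, E.i_eqv] at this
    simp only [Function.comp_apply] at this
    simp only [hg, map_sub]
    linear_combination (norm := abel) -this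
  set xB : K1 B := ⟨(g, fun q => E.sec (h.1.2 q) + E.i (m q)), hgZ, fun q k => by
    have := congrArg E.i (congrFun (hm q) k)
    rw [E.i_dK2_snd, Pi.add_apply, map_add, d₀₁_hom_apply, map_sub] at this
    simp only [hg, map_add]
    show _ + B.ρ (loc q k) (E.i (m q)) - _ = _
    rw [← E.i_eqv]
    simp only [Function.comp_apply] at this
    change E.sec (h.1.1 (loc q k)) - (B.ρ (loc q k) (E.sec (h.1.2 q)) - E.sec (h.1.2 q)) =
      E.i (v (loc q k)) + (E.i (A.ρ (loc q k) (m q)) - E.i (m q)) at this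
    linear_combination (norm := abel) -this⟩
  have hmap : K1map E.pr E.pr_eqv xB = h := by
    refine Subtype.ext (Prod.ext (funext fun x => ?_) (funext fun q => ?_))
    · show E.pr (g x) = h.1.1 x
      rw [hg, map_sub, E.pr_sec, (E.exact _).2 ⟨_, rfl⟩, sub_zero]
    · show E.pr (E.sec (h.1.2 q) + E.i (m q)) = h.1.2 q
      rw [map_add, E.pr_sec, (E.exact _).2 ⟨_, rfl⟩, add_zero]
  obtain ⟨μ, hμ⟩ := exists_comp_eq (h2push (MonoidHom.id GQ) E.dual.pr E.dual.pr_eqv)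
    (l - Phi1 R hp2 E.adm xB) fun c hc => by
    have hc' : c ∈ LinearMap.range (h2push (MonoidHom.id GQ) E.dual.i E.dual.i_eqv) := by
      rw [E.dual.exact_h2]; exact hc
    obtain ⟨d, rfl⟩ := hc'
    rw [LinearMap.sub_apply, sub_eq_zero]
    refine ((LinearMap.congr_fun hh d).symm.trans ?_)
    rw [← hmap]
    exact Phi1_map R hp2 E.adm hC E.pr E.pr_eqv xB d
  obtain ⟨a, ha⟩ := h1A μ
  refine ⟨xB + K1map E.i E.i_eqv a, LinearMap.ext fun c => ?_⟩
  rw [map_add, LinearMap.add_apply, Phi1_map R hp2 hA E.adm E.i E.i_eqv a c, ha]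
  exact add_eq_of_eq_sub' (LinearMap.congr_fun hμ c)

theorem ext_main2 (hA : IsAdm (MonoidHom.id GQ) A) (hC : IsAdm (MonoidHom.id GQ) C)
    (h2A : ∀ x : K2 A, Phi2 R hp2 hA x = 0 → IsTriv2 x)
    (h1C : ∀ l, ∃ x : K1 C, Phi1 R hp2 hC x = l)
    (h2C : ∀ x : K2 C, Phi2 R hp2 hC x = 0 → IsTriv2 x)
    (x : K2 B) (hx : Phi2 R hp2 E.adm x = 0) : IsTriv2 x := by
  obtain ⟨v, hv, hdv, hm⟩ := h2C (K2map E.pr E.pr_eqv x) (LinearMap.ext fun b => by
    rw [Phi2_map R hp2 E.adm hC, hx, LinearMap.zero_apply, LinearMap.zero_apply])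
  choose m hm using hm
  set t := trivK2 E.adm (E.sec ∘ v) (hv.comp E.sec) (fun q => E.sec (m q)) with ht
  set y := x - t with hy
  have hy1 : ∀ g, E.pr (y.1.1 g) = 0 := fun g => by
    show E.pr (x.1.1 g - (d₁₂ B).hom (E.sec ∘ v) g) = 0
    have h0 : E.pr (x.1.1 g) = (d₁₂ C).hom v g := (congrFun hdv g).symm
    rw [map_sub, h0, d₁₂_hom_apply, d₁₂_hom_apply, map_add, map_sub, E.pr_eqv]
    simp only [Function.comp_apply, E.pr_sec, sub_self]
  have hy2 : ∀ q g, E.pr (y.1.2 q g) = 0 := fun q g => by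
    show E.pr (x.1.2 q g - ((E.sec ∘ v) (loc q g) +
      (d₀₁ (Rep.res (loc q) B)).hom (E.sec (m q)) g)) = 0
    have h0 : E.pr (x.1.2 q g) = v (loc q g) + (d₀₁ (Rep.res (loc q) C)).hom (m q) g :=
      congrFun (hm q) g
    rw [map_sub, h0, d₀₁_hom_apply, d₀₁_hom_apply, map_add, Function.comp_apply, E.pr_sec,
      map_sub, sub_eq_zero]
    show _ = _ + (E.pr (B.ρ (loc q g) _) - _)
    rw [E.pr_eqv, E.pr_sec]
    rfl
  have ha : (fun g => E.back (y.1.1 g), fun q g => E.back (y.1.2 q g)) ∈ K2 A := by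
    refine ⟨⟨(mem_cocycles₂_def _).2 fun g k l => E.inj ?_, y.2.1.2.comp E.back⟩,
      fun q => ⟨(y.2.2.1 q).1.comp E.back, funext fun g => E.inj ?_⟩,
      y.2.2.2.subset fun q hq hu => hq fun g s hs => congrArg E.back (hu g s hs)⟩
    · simp only [map_add, map_sub, E.i_eqv, E.i_back (hy1 _), map_zero]
      exact (mem_cocycles₂_def _).1 y.2.1.1 g k l
    · simp only [d₁₂_hom_apply, map_add, map_sub, Function.comp_apply, E.i_back (hy1 _)]
      show E.i (A.ρ (loc q g.1) _) - _ + _ = _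
      rw [E.i_eqv, E.i_back (hy2 q _), E.i_back (hy2 q _), E.i_back (hy2 q _)]
      exact (d₁₂_hom_apply (A := Rep.res (loc q) B) _ g).symm.trans
        (congrFun (y.2.2.1 q).2 g)
  set a : K2 A := ⟨_, ha⟩ with hadef
  have hia : K2map E.i E.i_eqv a = y := by
    refine Subtype.ext (Prod.ext (funext fun g => ?_) (funext fun q => funext fun g => ?_))
    · exact E.i_back (hy1 g)
    · exact E.i_back (hy2 q g)
  obtain ⟨μ, hμ⟩ := exists_comp_eq E.dual.del1 (Phi2 R hp2 hA a) fun b hb => by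
    have hb' : b ∈ LinearMap.range (h1push (MonoidHom.id GQ) E.dual.pr E.dual.pr_eqv) := by
      rw [← E.dual.ker_del1]; exact hb
    obtain ⟨c, rfl⟩ := hb'
    refine (Phi2_map R hp2 hA E.adm E.i E.i_eqv a c).symm.trans ?_
    rw [hia, hy, map_sub, hx, ht, Phi2_triv R hp2 E.adm (isTriv2_trivK2 E.adm _ _ _), sub_self,
      LinearMap.zero_apply]
  obtain ⟨h, hh⟩ := h1C μ
  have htriv := ((h2A (a - E.dK2 h) (LinearMap.ext fun b => by
    rw [map_sub, LinearMap.sub_apply, Phi2_dK2 R hp2 E hA hC, hh, ← hμ, LinearMap.comp_apply,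
      sub_self, LinearMap.zero_apply])).map E.i E.i_eqv).add
    ((isTriv2_push_dK2 E h).add (isTriv2_trivK2 E.adm (E.sec ∘ v) (hv.comp E.sec)
      fun q => E.sec (m q)))
  rwa [← ht, map_sub, hia, ← add_assoc, sub_add_cancel, hy, sub_add_cancel] at htriv

end Ext

/-- the duality theorems for every finite smooth module -/
theorem phi_main (R : Recip p) (hp2 : p ≠ 2) (hM : IsAdm (MonoidHom.id GQ) M) :
    (∀ l, ∃ x : K1 M, Phi1 R hp2 hM x = l) ∧
      ∀ x : K2 M, Phi2 R hp2 hM x = 0 → IsTriv2 x := by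
  refine adm_induction (P := fun M => ∀ hM : IsAdm (MonoidHom.id GQ) M,
    (∀ l, ∃ x : K1 M, Phi1 R hp2 hM x = l) ∧
      ∀ x : K2 M, Phi2 R hp2 hM x = 0 → IsTriv2 x) ?_ ?_ ?_ ?_ M hM hM
  · intro M _ hs hM'
    haveI : Subsingleton (dual' M) := ⟨fun f g =>
      LinearMap.ext fun m => by rw [Subsingleton.elim m 0, map_zero f, map_zero g]⟩
    haveI := subsingleton_cH2 (r := MonoidHom.id GQ) (dual' M)
    refine ⟨fun l => ⟨0, LinearMap.ext fun c => ?_⟩, fun x _ =>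
      ⟨0, isLevelConstant₁_const _ 0, funext fun _ => Subsingleton.elim _ _,
        fun q => ⟨0, funext fun _ => Subsingleton.elim _ _⟩⟩⟩
    rw [Subsingleton.elim c 0, map_zero, map_zero]
  · intro H hH hω _
    exact perm_main hω R hp2 hH
  · intro A B C E hA hC hPA hPC _
    exact ⟨ext_main1 R hp2 E hA hC (hPA hA).1 (hPA hA).2 (hPC hC).1,
      ext_main2 R hp2 E hA hC (hPA hA).2 (hPC hC).1 (hPC hC).2⟩
  · intro A B i s _ hB hi hs hsi hPB hA'
    obtain ⟨h1, h2⟩ := hPB hB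
    refine ⟨fun l => ?_, fun x hx => ?_⟩
    · obtain ⟨x, hx⟩ := h1 (l ∘ₗ h2push (MonoidHom.id GQ) (dmap i) (dmap_eqv i hi))
      refine ⟨K1map s hs x, LinearMap.ext fun c => ?_⟩
      rw [Phi1_map R hp2 hB hA' s hs x c, hx, LinearMap.comp_apply,
        h2push_retract _ _ (dmap_eqv s hs) (dmap_eqv i hi)
          fun f => LinearMap.ext fun a => congrArg f (hsi a)]
    · have h := (h2 (K2map i hi x) (LinearMap.ext fun b => by
        rw [Phi2_map R hp2 hA' hB, hx, LinearMap.zero_apply, LinearMap.zero_apply])).map s hs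
      convert h
      exact Subtype.ext (Prod.ext (funext fun g => (hsi _).symm)
        (funext fun q => funext fun g => (hsi _).symm))

end FLTAgent.PT
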