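import Fermat.Agent.PT.Dual.Main
import Fermat.Agent.PT.Dual.Capit

/-!
Parcel E: a compactly supported class comes from the Galois group of the maximal extension
unramified outside `S`.
-/

set_option autoImplicit false
set_option linter.style.haveILetI false
set_option linter.unusedSectionVars false

noncomputable section

open CategoryTheory groupCohomology

namespace FLTAgent.PT

variable {p : ℕ} [Fact p.Prime]

/-- an open normal subgroup containing the inertia outside `S` is the group of a field unramified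
outside `S` -/
theorem exists_unrOutside_field {S : Finset Nat.Primes} {N : Subgroup GQ} (hn : N.Normal)
    (ho : IsOpenSub (MonoidHom.id GQ) N) (hin : ∀ q ∉ S, ∀ s ∈ inert q, loc q s ∈ N) :
    ∃ F : IntermediateField ℚ (AlgebraicClosure ℚ),
      F.IsUnramifiedOutside S ∧ F.fixingSubgroup = N := by
  haveI := hn
  refine ⟨Fld N, ⟨ho.finite_fld, fun q hq A hA => ?_⟩, ho.fixingSubgroup_fld⟩
  rw [ho.fixingSubgroup_fld]
  refine Common.inertia_le_of_inertia_le q.2 (lies_plc q) hA fun σ hσ => ?_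
  obtain ⟨s, hs, rfl⟩ := mem_inertia_range hσ
  exact hin q hq s hs

theorem UnrCst.sub {X : Type} [AddGroup X] {q : Nat.Primes} {y y' : Gam q → X} (h : UnrCst q y)
    (h' : UnrCst q y') : UnrCst q (y - y') :=
  fun g s hs => by rw [Pi.sub_apply, Pi.sub_apply, h g s hs, h' g s hs]

variable {M : Rep.{0} (ZMod p) GQ}

/-- `m ↦ (aH ↦ ω(a) f(a⁻¹ m))` -/
def toPermMu {U : Subgroup GQ}
    (hU : ∀ g ∈ U, M.ρ g = 1 ∧ ExtCitation.cycloChar p g = 1) (f : M →ₗ[ZMod p] ZMod p) :
    M →ₗ[ZMod p] ind U (mu p) :=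
  LinearMap.pi fun x => Quotient.liftOn' x
    (fun a => (ExtCitation.cycloChar p a : ZMod p) • (f ∘ₗ M.ρ a⁻¹)) fun a b hab => by
      rw [QuotientGroup.leftRel_apply] at hab
      obtain ⟨h1, h2⟩ := hU _ hab
      have e1 : ExtCitation.cycloChar p a = ExtCitation.cycloChar p b := by
        rw [map_mul, map_inv, inv_mul_eq_one] at h2
        exact h2
      have e2 : M.ρ a⁻¹ = M.ρ b⁻¹ := by
        rw [show a⁻¹ = (a⁻¹ * b) * b⁻¹ by group, map_mul, h1, one_mul]
      simp only [e1, e2]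

theorem toPermMu_apply {U : Subgroup GQ}
    (hU : ∀ g ∈ U, M.ρ g = 1 ∧ ExtCitation.cycloChar p g = 1) (f : M →ₗ[ZMod p] ZMod p) (m : M)
    (a : GQ) : toPermMu hU f m (a : GQ ⧸ U) =
      (ExtCitation.cycloChar p a : ZMod p) * f (M.ρ a⁻¹ m) := rfl

theorem toPermMu_eqv {U : Subgroup GQ}
    (hU : ∀ g ∈ U, M.ρ g = 1 ∧ ExtCitation.cycloChar p g = 1) (f : M →ₗ[ZMod p] ZMod p) (g : GQ)
    (m : M) : toPermMu hU f (M.ρ g m) = (ind U (mu p)).ρ g (toPermMu hU f m) := by
  funext x
  induction x using QuotientGroup.induction_on with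
  | H a =>
    rw [rho_perm, MulAction.Quotient.smul_mk, toPermMu_apply, smul_eq_mul, toPermMu_apply,
      mul_inv_rev, inv_inv, map_mul M.ρ, Module.End.mul_apply, map_mul (ExtCitation.cycloChar p),
      map_inv (ExtCitation.cycloChar p), Units.val_mul, ← mul_assoc, ← mul_assoc, Units.mul_inv, one_mul]

/-- the pull back along the projection of cosets -/
def pullPerm {U U' : Subgroup GQ} (hle : U' ≤ U) : ind U (mu p) →ₗ[ZMod p] ind U' (mu p) :=
  LinearMap.funLeft (ZMod p) (mu p) (Subgroup.quotientMapOfLE hle)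

theorem pullPerm_eqv {U U' : Subgroup GQ} (hle : U' ≤ U) (g : GQ) (f : ind U (mu p)) :
    pullPerm hle ((ind U (mu p)).ρ g f) = (ind U' (mu p)).ρ g (pullPerm hle f) := by
  funext x
  induction x using QuotientGroup.induction_on with
  | H a => rfl

/-- a finite power of a module -/
abbrev powRep (ι : Type) (N : Rep.{0} (ZMod p) GQ) : Rep.{0} (ZMod p) GQ :=
  Rep.of
    ({ toFun := fun g => LinearMap.pi fun b => N.ρ g ∘ₗ LinearMap.proj b
       map_one' := by rw [map_one]; rfl
       map_mul' := fun g h => by rw [map_mul]; rfl } : Representation (ZMod p) GQ (ι → N))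

/-- every compactly supported class is inflated -/
theorem exists_inflation (hp2 : p ≠ 2) (hM : IsAdm (MonoidHom.id GQ) M) (S : Finset Nat.Primes)
    (hpS : pP p ∈ S) (hMu : ∀ q ∉ S, IsUnrAt q M) (x : K2 M) :
    ∃ v : GQ → M, IsLevelConstant₁ (MonoidHom.id GQ) v ∧
      IsLevelConstantS₂ S (x.1.1 - (d₁₂ M).hom v) ∧
      ∀ q ∉ S, UnrCst q (x.1.2 q - v ∘ loc q) := by
  classical
  haveI := hM.finite
  set U : Subgroup GQ := M.ρ.ker ⊓ (ExtCitation.cycloChar p).ker with hUdef
  have hU : ∀ g ∈ U, M.ρ g = 1 ∧ ExtCitation.cycloChar p g = 1 := fun g hg =>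
    ⟨MonoidHom.mem_ker.1 hg.1, MonoidHom.mem_ker.1 hg.2⟩
  haveI : U.Normal := Subgroup.normal_inf_normal _ _
  have hG : OpenMu p U := by
    refine ⟨?_, fun g hg => (hU g hg).2⟩
    obtain ⟨F₁, hF₁, h₁⟩ := hM.level
    obtain ⟨F₂, hF₂, h₂⟩ := (isAdm_mu p).level
    haveI := hF₁; haveI := hF₂
    refine ⟨F₁ ⊔ F₂, inferInstance, fun g hg => ⟨MonoidHom.mem_ker.2
      (h₁ g (IntermediateField.fixingSubgroup_antitone le_sup_left hg)), MonoidHom.mem_ker.2
      (Units.ext ?_)⟩⟩
    simpa [Representation.twist_apply] using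
      LinearMap.congr_fun (h₂ g (IntermediateField.fixingSubgroup_antitone le_sup_right hg)) 1
  have hqp : ∀ q ∉ S, (q : ℕ) ≠ p := fun q hq e => hq (by
    have : q = pP p := Subtype.ext e
    exact this ▸ hpS)
  have hu : ∀ q ∉ S, UnrFld q U := fun q hq s hs y =>
    smul_coset_eq ‹U.Normal› le_rfl
      ⟨MonoidHom.mem_ker.2 (hMu q hq s hs), MonoidHom.mem_ker.2 (cycloChar_inert (hqp q hq) hs)⟩ y
  haveI := hG.opn.numberField
  set ι := Fin (Module.finrank (ZMod p) M)
  set B := Module.finBasis (ZMod p) M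
  set xb : ι → K2 (ind U (mu p)) := fun b =>
    K2map (toPermMu hU (B.coord b)) (toPermMu_eqv hU (B.coord b)) x with hxb
  have hex : ∀ b, ∃ s : GQ → ind U (mu p), IsLevelConstant₁ (MonoidHom.id GQ) s ∧
      (d₁₂ (ind U (mu p))).hom s = (xb b).1.1 := fun b => by
    have hc : h2mk (MonoidHom.id GQ) (ind U (mu p)) ⟨_, (xb b).2.1⟩ ∈ sha2g (ind U (mu p)) :=
      mem_sha2g_iff.2 fun q => (continuousH2π_eq_zero_iff (loc q) _ _).2
        ((mem_levelCoboundaries₂_iff _ _ _).2
          ⟨(xb b).1.2 q, ((xb b).2.2.1 q).1, ((xb b).2.2.1 q).2⟩)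
    rw [sha2g_perm hp2 hG.opn hG.triv, Submodule.mem_bot] at hc
    exact (mem_levelCoboundaries₂_iff _ _ _).1 ((continuousH2π_eq_zero_iff _ _ _).1 hc)
  choose s hs hds using hex
  have hz : ∀ b q, (xb b).1.2 q - s b ∘ loc q ∈ Z1 (loc q) (Rep.res (loc q) (ind U (mu p))) :=
    fun b q => by
      refine ⟨LinearMap.mem_ker.2 ?_, isLevel1_sub ((xb b).2.2.1 q).1 (level1_loc (hs b) q)⟩
      rw [map_sub, sub_eq_zero]
      funext ⟨g, h⟩
      rw [congrFun ((xb b).2.2.1 q).2 (g, h), Function.comp_apply, ← hds b]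
      simp only [d₁₂_hom_apply, Function.comp_apply, Prod.map_apply, map_mul]
      rfl
  have hex2 : ∀ b q, q ∉ S → ∃ n : Orb q U → ZMod p,
      (UnrCst q ((xb b).1.2 q - s b ∘ loc q) → n = 0) ∧
      ∀ t ∈ inert q, ∀ y : GQ ⧸ U,
        (((xb b).1.2 q - s b ∘ loc q) t y : ZMod p) = n (orb q y) * tauRam p q (loc q t) :=
    fun b q hq => by
      by_cases h : UnrCst q ((xb b).1.2 q - s b ∘ loc q)
      · refine ⟨0, fun _ => rfl, fun t ht y => ?_⟩
        have e : ((xb b).1.2 q - s b ∘ loc q) t = 0 := by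
          rw [← one_mul t, h 1 t ht]
          exact cocycles₁_map_one (A := Rep.res (loc q) (ind U (mu p))) ⟨_, (hz b q).1⟩
        rw [e]
        exact (zero_mul _).symm
      · obtain ⟨n, hn⟩ := exists_ram_coeff hG (hu q hq) (hqp q hq) ⟨_, hz b q⟩
        exact ⟨n, fun h' => absurd h' h, hn⟩
  choose n hn0 hn using hex2
  let n' : ι → ∀ q, Orb q U → ZMod p := fun b q => if hq : q ∈ S then 0 else n b q hq
  have hfin : {q | ∃ b, n' b q ≠ 0}.Finite := by
    refine (Set.finite_iUnion fun b =>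
      ((xb b).2.2.2.union (finite_not_unrCst (hs b)))).subset fun q hq => ?_
    obtain ⟨b, hb⟩ := hq
    refine Set.mem_iUnion.2 ⟨b, ?_⟩
    by_contra hcon
    simp only [Set.mem_union, Set.mem_ofPred_eq, not_or, not_not] at hcon
    refine hb ?_
    simp only [n']
    split_ifs with h
    · rfl
    · exact hn0 b q h (hcon.1.sub hcon.2)
  obtain ⟨U', hle, hN', hG', hu', hcap⟩ := exists_capitulation hG S hpS hu hfin.toFinset
  choose g hg using fun b => hcap (n' b) fun q hq => by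
    by_contra h
    exact hq (hfin.mem_toFinset.2 ⟨b, h⟩)
  haveI := hN'
  haveI := hG'.finite
  let P' : Rep.{0} (ZMod p) GQ := ind U' (mu p)
  have hP' : IsAdm (MonoidHom.id GQ) P' := hG'.adm
  have hfix : ∀ t ∈ U', P'.ρ t = 1 := fun t ht => LinearMap.ext fun f => funext fun y => by
    have e := smul_coset_eq hN' le_rfl ht y
    show (P'.ρ t f y : ZMod p) = f y
    rw [rho_perm, inv_smul_eq_iff.2 e.symm, hG'.triv t ht, Units.val_one, one_mul]
  let J : Rep.{0} (ZMod p) GQ := powRep ι P'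
  have hJ : IsAdm (MonoidHom.id GQ) J := by
    haveI := hP'.finite
    obtain ⟨F, hF, h⟩ := hP'.level
    exact ⟨inferInstanceAs (Module.Finite (ZMod p) (ι → P')), F, hF, fun t ht =>
      LinearMap.ext fun f => funext fun b => LinearMap.congr_fun (h t ht) (f b)⟩
  let i : M →ₗ[ZMod p] J :=
    LinearMap.pi fun b => pullPerm hle ∘ₗ toPermMu hU (B.coord b)
  have hieq : ∀ t m, i (M.ρ t m) = J.ρ t (i m) := fun t m => funext fun b =>
    (congrArg (pullPerm hle) (toPermMu_eqv hU (B.coord b) t m)).trans (pullPerm_eqv hle t _)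
  have hinj : Function.Injective i := fun m m' h => B.ext_elem fun b => by
    have e := congrFun (congrFun h b) ((1 : GQ) : GQ ⧸ U')
    change toPermMu hU (B.coord b) m ((1 : GQ) : GQ ⧸ U) =
      toPermMu hU (B.coord b) m' ((1 : GQ) : GQ ⧸ U) at e
    rw [toPermMu_apply, toPermMu_apply, map_one, Units.val_one, one_mul, one_mul, inv_one,
      map_one] at e
    exact e
  let W : Submodule (ZMod p) J := LinearMap.range i
  have hW : ∀ t, W ≤ W.comap (J.ρ t) := fun t y ⟨m, hm⟩ => ⟨M.ρ t m, by rw [hieq, hm]⟩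
  let C : Rep.{0} (ZMod p) GQ := Rep.of (J.ρ.quotient W hW)
  let E : SES (MonoidHom.id GQ) M J C :=
    { i := i
      pr := W.mkQ
      i_eqv := hieq
      pr_eqv := fun _ _ => rfl
      inj := hinj
      surj := W.mkQ_surjective
      exact := LinearMap.exact_iff.2 W.ker_mkQ
      adm := hJ }
  set s' : GQ → J := fun t b => pullPerm hle (s b t) + (g b).1 t with hs'
  have hs'l : IsLevelConstant₁ (MonoidHom.id GQ) s' := by
    have hb : ∀ b, IsLevelConstant₁ (MonoidHom.id GQ) fun t => s' t b := fun b =>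
      ((hs b).comp (pullPerm hle)).add (g b).2.2
    choose F hF hc using hb
    haveI := hF
    exact ⟨⨆ b, F b, inferInstance, fun t u hu' => funext fun b =>
      hc b t u (IntermediateField.fixingSubgroup_antitone (le_iSup F b) hu')⟩
  have hds' : (d₁₂ J).hom s' = E.i ∘ x.1.1 := funext fun ⟨t, u⟩ => funext fun b => by
    rw [d₁₂_hom_apply]
    show P'.ρ t (pullPerm hle (s b u) + (g b).1 u) - (pullPerm hle (s b (t * u)) + (g b).1 (t * u))
      + (pullPerm hle (s b t) + (g b).1 t) = pullPerm hle ((xb b).1.1 (t, u))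
    rw [← congrFun (hds b) (t, u), d₁₂_hom_apply, map_add (pullPerm hle), map_sub, pullPerm_eqv,
      (mem_cocycles₁_iff _).1 (g b).2.1 t u, map_add]
    abel
  have hloc : ∀ q ∉ S, ∀ t ∈ inert q, E.i (x.1.2 q t) = s' (loc q t) := fun q hq t ht =>
    funext fun b => funext fun y => by
      show (pullPerm hle ((xb b).1.2 q t) y : ZMod p) =
        pullPerm hle (s b (loc q t)) y + (g b).1 (loc q t) y
      have e := hn b q hq t ht (Subgroup.quotientMapOfLE hle y)
      rw [hg b q hq t ht y]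
      simp only [n', dif_neg hq]
      rw [← e]
      show ((xb b).1.2 q t _ : ZMod p) = (s b (loc q t) _ : ZMod p) +
        (((xb b).1.2 q t _ : ZMod p) - (s b (loc q t) _ : ZMod p))
      rw [add_sub_cancel]
  set e : GQ → C := E.pr ∘ s' with he
  have hec : ∀ t u, e (t * u) = C.ρ t (e u) + e t := fun t u => by
    have h1 := congrArg E.pr (congrFun hds' (t, u))
    rw [d₁₂_hom_apply, map_add, map_sub, E.pr_eqv, Function.comp_apply,
      (E.exact _).2 ⟨_, rfl⟩] at h1
    simp only [he, Function.comp_apply]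
    linear_combination (norm := abel) -h1
  have he1 : e 1 = 0 := by
    have h1 := hec 1 1
    rw [one_mul, map_one, Module.End.one_apply] at h1
    linear_combination (norm := abel) -h1
  have hfixJ : ∀ t ∈ U', J.ρ t = 1 := fun t ht =>
    LinearMap.ext fun f => funext fun b => LinearMap.congr_fun (hfix t ht) (f b)
  have hfixC : ∀ t ∈ U', C.ρ t = 1 := fun t ht => LinearMap.ext fun y => by
    obtain ⟨w, rfl⟩ := E.surj y
    rw [← E.pr_eqv, hfixJ t ht]
    rfl
  let N : Subgroup GQ :=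
    { carrier := {t | t ∈ U' ∧ e t = 0}
      one_mem' := ⟨one_mem _, he1⟩
      mul_mem' := fun {a b} ha hb => ⟨mul_mem ha.1 hb.1, by
        rw [hec, hb.2, map_zero, zero_add, ha.2]⟩
      inv_mem' := fun {a} ha => ⟨inv_mem ha.1, by
        have h1 := hec a a⁻¹
        rw [mul_inv_cancel, he1, hfixC a ha.1, Module.End.one_apply, ha.2, add_zero] at h1
        exact h1.symm⟩ }
  have hNn : N.Normal := ⟨fun a ha c => ⟨hN'.conj_mem a ha.1 c, by
    rw [mul_assoc, hec, hec, hfixC a ha.1, Module.End.one_apply, ha.2, add_zero, ← hec,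
      mul_inv_cancel, he1]⟩⟩
  have hNo : IsOpenSub (MonoidHom.id GQ) N := by
    obtain ⟨F₁, hF₁, hc₁⟩ := hs'l
    obtain ⟨F₂, hF₂, h₂⟩ := hG'.opn
    haveI := hF₁; haveI := hF₂
    refine ⟨F₁ ⊔ F₂, inferInstance, fun t ht =>
      ⟨h₂ (IntermediateField.fixingSubgroup_antitone le_sup_right ht), ?_⟩⟩
    have h1 := hc₁ 1 t (IntermediateField.fixingSubgroup_antitone le_sup_left ht)
    rw [one_mul] at h1
    exact (congrArg E.pr h1).trans he1
  have hNin : ∀ q ∉ S, ∀ t ∈ inert q, loc q t ∈ N := fun q hq t ht =>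
    ⟨mem_of_fix_one (hu' q hq t ht _), by
      show E.pr (s' (loc q t)) = 0
      rw [← hloc q hq t ht]
      exact (E.exact _).2 ⟨_, rfl⟩⟩
  obtain ⟨F, hF, hFN⟩ := exists_unrOutside_field hNn hNo hNin
  set f : GQ → J := E.sec ∘ e with hf
  have hfN : ∀ t u, u ∈ N → f (t * u) = f t := fun t u hu => congrArg E.sec (by
    rw [hec, hu.2, map_zero, zero_add])
  have hfl : IsLevelConstant₁ (MonoidHom.id GQ) f :=
    ⟨F, hF.1, fun t u hu => hfN t u (hFN ▸ hu)⟩
  set v : GQ → M := E.back ∘ (s' - f) with hv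
  have hiv : ∀ t, E.i (v t) = s' t - f t := fun t => E.i_back (by
    rw [Pi.sub_apply, map_sub]
    exact sub_eq_zero.2 (E.pr_sec _).symm)
  refine ⟨v, (isLevel1_sub hs'l hfl).comp E.back, ?_, fun q hq t u hu => ?_⟩
  · have hdf : ∀ y, E.i ((x.1.1 - (d₁₂ M).hom v) y) = (d₁₂ J).hom f y := fun ⟨t, u⟩ => by
      rw [Pi.sub_apply, d₁₂_hom_apply, map_sub, map_add, map_sub, E.i_eqv, hiv, hiv, hiv,
        d₁₂_hom_apply]
      have h1 := congrFun hds' (t, u)
      rw [d₁₂_hom_apply, Function.comp_apply] at h1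
      rw [← h1, map_sub]
      abel
    refine ⟨F, hF, fun t t' u u' hu hu' => hinj ?_⟩
    show E.i _ = E.i _
    rw [hdf, hdf, d₁₂_hom_apply, d₁₂_hom_apply]
    rw [hFN] at hu hu'
    have hconj : (t'⁻¹ * u * t') * u' ∈ N := mul_mem (by simpa using hNn.conj_mem u hu t'⁻¹) hu'
    rw [map_mul J.ρ, hfixJ u hu.1, mul_one, hfN t u hu, hfN t' u' hu',
      show t * u * (t' * u') = t * t' * ((t'⁻¹ * u * t') * u') by group, hfN _ _ hconj]
  · refine E.inj ?_
    show E.i (x.1.2 q (t * u) - v (loc q (t * u))) = E.i (x.1.2 q t - v (loc q t))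
    have hyc := congrArg E.i (congrFun (x.2.2.1 q).2 (t, u))
    rw [d₁₂_hom_apply, map_add, map_sub] at hyc
    have hsc := congrFun hds' (loc q t, loc q u)
    rw [d₁₂_hom_apply, Function.comp_apply] at hsc
    rw [map_sub, map_sub, hiv, hiv, map_mul, hfN _ _ (hNin q hq u hu)]
    have hyc' : J.ρ (loc q t) (E.i (x.1.2 q u)) - E.i (x.1.2 q (t * u)) + E.i (x.1.2 q t) =
        E.i (x.1.1 (loc q t, loc q u)) := by
      rw [← E.i_eqv]; exact hyc
    rw [← hsc, hloc q hq u hu] at hyc'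
    linear_combination (norm := abel) -hyc'

end FLTAgent.PT
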