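import Fermat.Agent.PT.Dual.Five

/-!
Parcel E: finiteness of the classes unramified outside a finite set and the kernel of `Φ₁`.
-/

set_option autoImplicit false
set_option linter.style.haveILetI false

noncomputable section

open CategoryTheory groupCohomology

namespace FLTAgent.PT

variable {p : ℕ} [Fact p.Prime] {M N : Rep.{0} (ZMod p) GQ}

theorem isUnrAt_of_injective {q : Nat.Primes} (hN : IsUnrAt q N) (i : M →ₗ[ZMod p] N)
    (hi : Function.Injective i) (heqv : ∀ g m, i (M.ρ g m) = N.ρ g (i m)) : IsUnrAt q M :=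
  fun g hg => LinearMap.ext fun m => hi (by rw [heqv, hN g hg]; rfl)

/-- unramified classes are detected after an injective map -/
theorem unr1_of_injective {q : Nat.Primes} (hN : IsUnrAt q N) (i : M →ₗ[ZMod p] N)
    (hi : Function.Injective i) (heqv : ∀ g m, i (M.ρ g m) = N.ρ g (i m)) {x : lH1 q M}
    (hx : lpush1 i heqv q x ∈ unr1 q N) : x ∈ unr1 q M := by
  obtain ⟨z, rfl⟩ := Submodule.mkQ_surjective _ x
  refine (mem_unr1_iff (isUnrAt_of_injective hN i hi heqv) z).2 fun s hs => hi ?_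
  rw [map_zero]
  exact (mem_unr1_iff hN _).1 hx s hs

theorem subsingleton_cH1 {G : Type} [Group G] {r : G →* GQ} (M : Rep.{0} (ZMod p) G)
    [Subsingleton M] : Subsingleton (cH1 r M) := by
  refine ⟨fun x y => ?_⟩
  obtain ⟨u, rfl⟩ := Submodule.mkQ_surjective _ x
  obtain ⟨v, rfl⟩ := Submodule.mkQ_surjective _ y
  exact congrArg _ (Subtype.ext (funext fun _ => Subsingleton.elim _ _))

theorem finite_of_le {V : Type} [AddCommGroup V] [Module (ZMod p) V] {W W' : Submodule (ZMod p) V}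
    (h : W ≤ W') (_hW' : Module.Finite (ZMod p) W') : Module.Finite (ZMod p) W :=
  Submodule.finiteDimensional_of_le h

/-- finiteness of the classes unramified outside `T` -/
theorem finite_H1T' (hp2 : p ≠ 2) (hM : IsAdm (MonoidHom.id GQ) M) (T : Finset Nat.Primes) :
    Module.Finite (ZMod p) (H1T T M) := by
  classical
  refine adm_induction (P := fun M => IsAdm (MonoidHom.id GQ) M →
    ∀ T, Module.Finite (ZMod p) (H1T T M)) ?_ ?_ ?_ ?_ M hM hM T
  · intro M _ hs _ T
    haveI := subsingleton_cH1 (r := MonoidHom.id GQ) M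
    infer_instance
  · intro H hH hω _ T
    exact (finrank_H1T_equiv (permEquiv hω) (permEquiv_eqv hω) T
      (finite_H1T_perm hp2 hH hω T)).1
  · intro A B C E hA hC hPA hPC _ T
    set T' := T ∪ (finite_not_unr E.adm).toFinset
    have hu : ∀ q ∉ T', IsUnrAt q B := fun q hq => by
      simp only [T', Finset.mem_union, Set.Finite.mem_toFinset, Set.mem_ofPred_eq, not_or,
        not_not] at hq
      exact hq.2
    refine finite_of_le (H1T_mono (T' := T') Finset.subset_union_left)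
      (Module.Finite.iff_fg.2 ?_)
    refine Submodule.fg_of_fg_map_of_fg_inf_ker (h1push (MonoidHom.id GQ) E.pr E.pr_eqv) ?_ ?_
    · haveI := finite_of_le (W := (H1T T' B).map (h1push (MonoidHom.id GQ) E.pr E.pr_eqv))
        (Submodule.map_le_iff_le_comap.2 fun x hx => Submodule.mem_comap.2 (H1T_push E.pr E.pr_eqv T' hx)) (hPC hC T')
      exact Module.Finite.iff_fg.1 this
    · haveI := hPA hA T'
      haveI := finite_of_le (W := H1T T' B ⊓ LinearMap.ker (h1push (MonoidHom.id GQ) E.pr E.pr_eqv))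
        (W' := (H1T T' A).map (h1push (MonoidHom.id GQ) E.i E.i_eqv)) (fun x hx => by
          obtain ⟨a, rfl⟩ := (E.exact_h1.ge hx.2 : x ∈ LinearMap.range _)
          refine ⟨a, mem_H1T_iff.2 fun q hq => ?_, rfl⟩
          have := mem_H1T_iff.1 hx.1 q hq
          rw [res1_push] at this
          exact unr1_of_injective (hu q hq) E.i E.inj E.i_eqv this) inferInstance
      exact Module.Finite.iff_fg.1 this
  · intro A B i s _ hB hi hs hsi hPB _ T
    haveI := hPB hB T
    exact Module.Finite.of_injective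
      ((h1push (MonoidHom.id GQ) i hi).restrict fun _ hx => H1T_push i hi T hx)
      fun x y h => Subtype.ext (by
        rw [← h1push_retract i s hi hs hsi x.1, ← h1push_retract i s hi hs hsi y.1]
        exact congrArg (h1push (MonoidHom.id GQ) s hs) (congrArg Subtype.val h))

variable (R : Recip p)

/-- the pair `(dm, m)` -/
def constK1 (hM : IsAdm (MonoidHom.id GQ) M) (m : M) : K1 M :=
  ⟨((d₀₁ M).hom m, fun _ => m), ⟨LinearMap.mem_ker.2 (by
      funext ⟨g, h⟩
      rw [d₁₂_hom_apply]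
      simp only [d₀₁_hom_apply, map_sub, map_mul, Module.End.mul_apply]
      show _ = (0 : M)
      abel), hM.level_d0 m⟩, fun q g => (d₀₁_hom_apply (A := M) m (loc q g)).symm⟩

theorem Phi1_constK1 (hp2 : p ≠ 2) (hM : IsAdm (MonoidHom.id GQ) M) (m : M) :
    Phi1 R hp2 hM (constK1 hM m) = 0 := by
  refine Submodule.linearMap_qext _ (LinearMap.ext fun c => ?_)
  have hθ : IsPrim (cup12 (evM M) (constK1 hM m).1.1 c.1) (cup02 (evM M) m c.1) :=
    ⟨cup02_level m c.2.2, d_cup02 (evM_eqv M) m c.2.1⟩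
  refine (Phi1_mk R hp2 hM _ c hθ).trans (finsum_eq_zero_of_forall_eq_zero fun q => ?_)
  refine lclass_coboundary R (isLevelConstant₁_const (loc q) (0 : mu p)) ?_
  exact (map_zero (d₁₂ (Rep.res (loc q) (mu p))).hom).trans
    (funext fun g => (sub_self _).symm)

theorem finsum_apply_single {ι : Type} [DecidableEq ι] {X : ι → Type} [∀ i, AddCommGroup (X i)]
    [∀ i, Module (ZMod p) (X i)] (f : ∀ i, X i →ₗ[ZMod p] ZMod p) (i : ι) (x : X i) :
    ∑ᶠ j, f j (Pi.single i x j) = f i x := by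
  rw [finsum_eq_single _ i fun j hj => by rw [Pi.single_eq_of_ne hj, map_zero],
    Pi.single_eq_same]

/-- functionals on a direct sum vanishing on the kernel of the total are its multiples -/
theorem eq_mul_of_total {ι : Type} [DecidableEq ι] {X : ι → Type} [∀ i, AddCommGroup (X i)]
    [∀ i, Module (ZMod p) (X i)] (f S : ∀ i, X i →ₗ[ZMod p] ZMod p) (i₀ : ι) (b₀ : X i₀)
    (hb₀ : S i₀ b₀ = 1)
    (h : ∀ b : ∀ i, X i, {i | b i ≠ 0}.Finite → ∑ᶠ i, S i (b i) = 0 → ∑ᶠ i, f i (b i) = 0)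
    (i : ι) (x : X i) : f i x = f i₀ b₀ * S i x := by
  set b : ∀ j, X j := Pi.single i x - S i x • Pi.single i₀ b₀ with hb
  have hfin : ∀ g : ∀ j, X j →ₗ[ZMod p] ZMod p,
      {j | b j ≠ 0}.Finite ∧ ∑ᶠ j, g j (b j) = g i x - S i x * g i₀ b₀ := fun g => by
    have h1 : {j | b j ≠ 0} ⊆ {i, i₀} := fun j hj => by
      by_contra hcon
      simp only [Set.mem_insert_iff, Set.mem_singleton_iff, not_or] at hcon
      refine hj ?_
      rw [hb, Pi.sub_apply, Pi.smul_apply, Pi.single_eq_of_ne hcon.1,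
        Pi.single_eq_of_ne hcon.2, smul_zero, sub_zero]
    refine ⟨(Set.toFinite _).subset h1, ?_⟩
    have e : ∀ j, g j (b j) = g j (Pi.single i x j) +
        (-(S i x)) * g j (Pi.single i₀ b₀ j) := fun j => by
      rw [hb, Pi.sub_apply, Pi.smul_apply, map_sub, map_smul, smul_eq_mul, neg_mul, sub_eq_add_neg]
    have s1 : ∀ (k : ι) (y : X k), (Function.support fun j => g j (Pi.single k y j)).Finite :=
      fun k y => (Set.finite_singleton k).subset fun j hj => by
        by_contra hne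
        exact hj (show g j (Pi.single k y j) = 0 by rw [Pi.single_eq_of_ne hne, map_zero])
    rw [finsum_congr e, finsum_add_distrib (s1 i x) ((s1 i₀ b₀).subset fun j hj h0 => hj (by
        simp only [h0, mul_zero])), ← mul_finsum' _ _ (s1 i₀ b₀), finsum_apply_single,
      finsum_apply_single]
    ring
  have := h b (hfin S).1 (by rw [(hfin S).2, hb₀, mul_one, sub_self])
  rw [(hfin f).2, sub_eq_zero] at this
  rw [this, mul_comm]

theorem exists_multiple_of_total {D : Rep.{0} (ZMod p) GQ} {H : Subgroup GQ}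
    (hω : ∀ h ∈ H, ExtCitation.cycloChar p h = 1) (hp2 : p ≠ 2)
    (hH : IsOpenSub (MonoidHom.id GQ) H) [Finite (GQ ⧸ H)] (e : D ≃ₗ[ZMod p] ind H (mu p))
    (he : ∀ g d, e (D.ρ g d) = (ind H (mu p)).ρ g (e d))
    (f S : ∀ q, lH2 q D →ₗ[ZMod p] ZMod p)
    (hS : ∀ q b, S q b = R.inv q (h2push (loc q) (A := Rep.res (loc q) (ind H (mu p)))
      (B := Rep.res (loc q) (mu p)) (indSum H (mu p)) (fun g a => indSum_eqv (mu p) (loc q g) a)
      (lpush2 e.toLinearMap he q b)))
    (h : ∀ c, ∑ᶠ q, f q (res2 q D c) = 0) : ∃ α : ZMod p, ∀ q b, f q b = α * S q b := by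
  classical
  obtain ⟨q₀⟩ : Nonempty Nat.Primes := ⟨⟨2, Nat.prime_two⟩⟩
  obtain ⟨w, hw⟩ := indSum_surjective (p := p) q₀ hH
    (fun g a => indSum_eqv (mu p) (loc _ g) a) ((R.inv _).symm 1)
  have hret : ∀ (q : Nat.Primes) (y : lH2 q (ind H (mu p))),
      lpush2 e.toLinearMap he q (lpush2 e.symm.toLinearMap (eqv_symm e he) q y) = y :=
    fun q y => h2push_retract (r := loc q) (A := Rep.res (loc q) (ind H (mu p)))
      (B := Rep.res (loc q) D) e.symm.toLinearMap e.toLinearMap _ _ e.apply_symm_apply y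
  have hret' : ∀ (q : Nat.Primes) (y : lH2 q D),
      lpush2 e.symm.toLinearMap (eqv_symm e he) q (lpush2 e.toLinearMap he q y) = y :=
    fun q y => h2push_retract (r := loc q) (A := Rep.res (loc q) D)
      (B := Rep.res (loc q) (ind H (mu p))) e.toLinearMap e.symm.toLinearMap _ _
      e.symm_apply_apply y
  set b₀ := lpush2 e.symm.toLinearMap (eqv_symm e he) q₀ w with hb₀
  have h1 : S q₀ b₀ = 1 := by
    rw [hS, hb₀, hret]
    exact (congrArg (R.inv _) hw).trans (LinearEquiv.apply_symm_apply _ _)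
  refine ⟨f q₀ b₀, eq_mul_of_total (X := fun q => lH2 q D) f S q₀ b₀ h1 fun b hb hsum => ?_⟩
  obtain ⟨c, hc⟩ := exists_cH2_perm hp2 R hH hω (fun q g a => indSum_eqv (mu p) (loc q g) a)
    (fun q => lpush2 e.toLinearMap he q (b q))
    (hb.subset fun q hq h0 => hq (by rw [h0, map_zero])) (by
      rw [← hsum]
      exact finsum_congr fun q => (hS q (b q)).symm)
  rw [← h (h2push (MonoidHom.id GQ) e.symm.toLinearMap (eqv_symm e he) c)]
  refine finsum_congr fun q => congrArg (f q) ?_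
  rw [res2_push, hc q, hret']

section Perm

variable {H : Subgroup GQ} (hω : ∀ h ∈ H, ExtCitation.cycloChar p h = 1)
  (hp2 : p ≠ 2) (hH : IsOpenSub (MonoidHom.id GQ) H)

/-- the constant function `1` -/
def oneFn (q : Nat.Primes) : lH0 q (ind H (one p)) := ⟨fun _ => (1 : ZMod p), fun _ => rfl⟩

theorem ev02_oneFn [Finite (GQ ⧸ H)] (q : Nat.Primes) (c : lH2 q (dual' (ind H (one p)))) :
    ev02 R q (ind H (one p)) (oneFn q) c =
      R.inv q (h2push (loc q) (A := Rep.res (loc q) (ind H (mu p)))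
        (B := Rep.res (loc q) (mu p)) (indSum H (mu p)) (fun g a => indSum_eqv (mu p) (loc q g) a)
        (lpush2 (permDual H) permDual_eqv q c)) := by
  classical
  letI := Fintype.ofFinite (GQ ⧸ H)
  obtain ⟨z, rfl⟩ := Submodule.mkQ_surjective _ c
  refine congrArg (R.inv q) (congrArg (Submodule.mkQ _) (Subtype.ext (funext fun g => ?_)))
  show (z.1 g) (fun _ => (1 : ZMod p)) =
    ∑ x, (z.1 g) (deltaFn (p := p) H x)
  rw [← map_sum]
  congr 1
  funext y
  show (1 : ZMod p) = (∑ x, (fun w => deltaFn (p := p) H x w : (GQ ⧸ H) → ZMod p)) y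
  rw [Finset.sum_apply]
  simp [deltaFn_apply]

include hω hp2 hH in
theorem perm_ker (x : K1 (ind H (one p))) (hx : Phi1 R hp2 (isAdm_perm hH) x = 0) :
    ∃ m : ind H (one p), (∀ g, x.1.1 g = (ind H (one p)).ρ g m - m) ∧ ∀ q, x.1.2 q = m := by
  classical
  haveI := hH.finite_quotient
  have hP : IsAdm (MonoidHom.id GQ) (ind H (one p)) := isAdm_perm hH
  have hcls : h1mk (MonoidHom.id GQ) (ind H (one p)) ⟨x.1.1, x.2.1⟩ ∈ sha1g (ind H (one p)) :=
    mem_sha1g_iff.2 fun q => (h1mk_eq_zero_iff (loc q) _).2 ⟨x.1.2 q, fun g => x.2.2 q g⟩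
  rw [sha1g_eq_bot_of_equiv (permEquiv hω) (permEquiv_eqv hω) (sha1g_perm hH hω),
    Submodule.mem_bot] at hcls
  obtain ⟨m₀, hm₀⟩ := (h1mk_eq_zero_iff _ _).1 hcls
  set n : ∀ q, lH0 q (ind H (one p)) := fun q => ⟨x.1.2 q - m₀, fun g => by
    show (ind H (one p)).ρ (loc q g) (x.1.2 q - m₀) = x.1.2 q - m₀
    rw [map_sub]
    linear_combination (norm := abel) x.2.2 q g - hm₀ (loc q g)⟩
  have hsplit : zeroK1 n = x - constK1 hP m₀ := by
    refine Subtype.ext (Prod.ext (funext fun g => ?_) rfl)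
    show 0 = x.1.1 g - (d₀₁ (ind H (one p))).hom m₀ g
    rw [d₀₁_hom_apply]
    exact (sub_eq_zero.2 (hm₀ g).symm).symm
  have hn : ∀ c, ∑ᶠ q, ev02 R q _ (n q) (res2 q _ c) = 0 := fun c => by
    rw [← Phi1_zeroK1 R hp2 hP, hsplit, map_sub, hx, Phi1_constK1, sub_zero, LinearMap.zero_apply]
  obtain ⟨α, hkey⟩ := exists_multiple_of_total R (D := dual' (ind H (one p))) hω hp2 hH
    (permDualEquiv H) permDualEquiv_eqv (fun q => ev02 R q _ (n q))
    (fun q => ev02 R q _ (oneFn q)) (fun q b => ev02_oneFn R q b) hn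
  refine ⟨m₀ + α • (fun _ => (1 : ZMod p)), fun g => ?_, fun q => ?_⟩
  · refine (hm₀ g).symm.trans ?_
    rw [map_add, map_smul]
    show _ = (ind H (one p)).ρ g m₀ + α • (fun _ => (1 : ZMod p)) - (m₀ + α • fun _ => (1 : ZMod p))
    abel
  · have : n q = α • oneFn q := ev02_injective R q hP (LinearMap.ext fun b => by
      rw [map_smul, LinearMap.smul_apply, smul_eq_mul]
      exact hkey q b)
    have h' := congrArg Subtype.val this
    change x.1.2 q - m₀ = α • fun _ => (1 : ZMod p) at h'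
    linear_combination (norm := abel) h'

end Perm

/-- the kernel of `Φ₁` consists of the constant pairs -/
theorem Phi1_ker (hp2 : p ≠ 2) (hM : IsAdm (MonoidHom.id GQ) M) (x : K1 M)
    (hx : Phi1 R hp2 hM x = 0) :
    ∃ m : M, (∀ g, x.1.1 g = M.ρ g m - m) ∧ ∀ q, x.1.2 q = m := by
  obtain ⟨F₁, hF₁, h₁⟩ := hM.level
  obtain ⟨F₂, hF₂, h₂⟩ := (isAdm_mu p).level
  haveI := hF₁; haveI := hF₂
  set K := (F₁ ⊔ F₂).fixingSubgroup
  have hK : IsOpenSub (MonoidHom.id GQ) K :=
    ⟨F₁ ⊔ F₂, inferInstance, le_of_eq (Subgroup.comap_id _)⟩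
  have hρ : ∀ k ∈ K, M.ρ k = 1 := fun k hk =>
    h₁ k (IntermediateField.fixingSubgroup_antitone le_sup_left hk)
  have hω : ∀ k ∈ K, ExtCitation.cycloChar p k = 1 := fun k hk => Units.ext (by
    simpa [Representation.twist_apply] using
      LinearMap.congr_fun (h₂ k (IntermediateField.fixingSubgroup_antitone le_sup_right hk)) 1)
  haveI := hK.finite_quotient
  have hwd : ∀ (a : GQ) (v : M), M.ρ (Quotient.out ((a : GQ) : GQ ⧸ K))⁻¹ v = M.ρ a⁻¹ v :=
    fun a v => by
      have hk := QuotientGroup.eq.1 (QuotientGroup.out_eq' ((a : GQ) : GQ ⧸ K))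
      rw [show (Quotient.out ((a : GQ) : GQ ⧸ K))⁻¹ =
        ((Quotient.out ((a : GQ) : GQ ⧸ K))⁻¹ * a) * a⁻¹ by group, map_mul, hρ _ hk, one_mul]
  let ψ : Module.Dual (ZMod p) M → (M →ₗ[ZMod p] ind K (one p)) := fun f =>
    LinearMap.pi fun y => f ∘ₗ M.ρ (Quotient.out y)⁻¹
  have hψ : ∀ f g m, ψ f (M.ρ g m) = (ind K (one p)).ρ g (ψ f m) := fun f g m => by
    funext y
    induction y using QuotientGroup.induction_on with
    | H a =>
      show f (M.ρ _ (M.ρ g m)) = f (M.ρ (Quotient.out ((g⁻¹ * a : GQ) : GQ ⧸ K))⁻¹ m)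
      rw [hwd a, hwd (g⁻¹ * a), mul_inv_rev, inv_inv, map_mul, Module.End.mul_apply]
  have hψ1 : ∀ f (v : M), ψ f v ((1 : GQ) : GQ ⧸ K) = f v := fun f v => by
    show f (M.ρ (Quotient.out ((1 : GQ) : GQ ⧸ K))⁻¹ v) = _
    rw [hwd, inv_one, map_one]
    rfl
  have hker : ∀ f, ∃ m : ind K (one p),
      (∀ g, ψ f (x.1.1 g) = (ind K (one p)).ρ g m - m) ∧ ∀ q, ψ f (x.1.2 q) = m := fun f =>
    perm_ker R hω hp2 hK (K1map (ψ f) (hψ f) x) (LinearMap.ext fun c => by
      rw [Phi1_map R hp2 hM, hx, LinearMap.zero_apply, LinearMap.zero_apply])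
  haveI := hM.finite
  have heq : ∀ v w : M, (∀ f, ψ f v = ψ f w) → v = w := fun v w h => sub_eq_zero.1
    ((Module.forall_dual_apply_eq_zero_iff (ZMod p) _).1 fun f => by
      rw [map_sub, sub_eq_zero, ← hψ1 f v, ← hψ1 f w, h f])
  have hconst : ∀ q, x.1.2 q = x.1.2 ⟨2, Nat.prime_two⟩ := fun q => heq _ _ fun f => by
    obtain ⟨m, -, hm⟩ := hker f
    exact (hm q).trans (hm ⟨2, Nat.prime_two⟩).symm
  refine ⟨x.1.2 ⟨2, Nat.prime_two⟩, fun g => heq _ _ fun f => ?_, hconst⟩
  obtain ⟨m, hm1, hm⟩ := hker f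
  rw [map_sub, hψ]
  exact (hm1 g).trans (congrArg (fun v => (ind K (one p)).ρ g v - v) (hm _).symm)

end FLTAgent.PT
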