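import Fermat.Agent.PT.Dual.Pair2
import Fermat.Prelude.Def_GaloisRep_ComplexConjugation

/-!
Parcel E: linear algebra and auxiliary facts for the duality theorems.
-/

set_option autoImplicit false
set_option linter.style.haveILetI false

noncomputable section

open CategoryTheory groupCohomology

namespace FLTAgent.PT

variable {p : ℕ} [Fact p.Prime]

section LinAlg

variable {V W : Type} [AddCommGroup V] [Module (ZMod p) V] [AddCommGroup W] [Module (ZMod p) W]

/-- a functional vanishing on the kernel factors through the map -/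
theorem exists_comp_eq (f : V →ₗ[ZMod p] W) (l : V →ₗ[ZMod p] ZMod p)
    (h : ∀ v, f v = 0 → l v = 0) : ∃ μ : W →ₗ[ZMod p] ZMod p, μ ∘ₗ f = l := by
  have hl : l ∈ LinearMap.range f.dualMap := by
    rw [LinearMap.range_dualMap_eq_dualAnnihilator_ker, Submodule.mem_dualAnnihilator]
    exact h
  obtain ⟨μ, hμ⟩ := hl
  exact ⟨μ, hμ⟩

/-- a functional vanishing on the common kernel is a sum of local functionals -/
theorem exists_factor {ι : Type} {X : ι → Type} [∀ i, AddCommGroup (X i)]
    [∀ i, Module (ZMod p) (X i)] (ρ : ∀ i, V →ₗ[ZMod p] X i)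
    (hfin : ∀ v, {i | ρ i v ≠ 0}.Finite) (f : V →ₗ[ZMod p] ZMod p)
    (hf : ∀ v, (∀ i, ρ i v = 0) → f v = 0) :
    ∃ l : ∀ i, X i →ₗ[ZMod p] ZMod p, ∀ v, ∑ᶠ i, l i (ρ i v) = f v := by
  classical
  obtain ⟨L, hL⟩ := exists_comp_eq (LinearMap.pi ρ) f fun v hv => hf v fun i => congrFun hv i
  refine ⟨fun i => L ∘ₗ LinearMap.single (ZMod p) X i, fun v => ?_⟩
  rw [finsum_eq_sum_of_support_subset _ (s := (hfin v).toFinset) fun i hi => by
    rw [Set.Finite.coe_toFinset]
    intro h0
    exact hi (show L _ = 0 by rw [h0, map_zero, map_zero])]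
  simp only [LinearMap.comp_apply]
  rw [← map_sum, ← hL, LinearMap.comp_apply]
  congr 1
  funext j
  rw [Finset.sum_apply, LinearMap.pi_apply]
  simp only [LinearMap.single_apply]
  by_cases hj : ρ j v = 0
  · rw [hj]
    refine Finset.sum_eq_zero fun i _ => ?_
    rcases eq_or_ne i j with rfl | h
    · rw [Pi.single_eq_same, hj]
    · rw [Pi.single_eq_of_ne h.symm]
  · rw [Finset.sum_eq_single_of_mem j ((hfin v).mem_toFinset.2 hj)
      fun i _ h => Pi.single_eq_of_ne h.symm _, Pi.single_eq_same]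

/-- two isotropic subspaces of complementary dimensions are each other's annihilators -/
theorem eq_of_isotropic {X X' A B : Type} [AddCommGroup X] [Module (ZMod p) X] [AddCommGroup X']
    [Module (ZMod p) X'] [AddCommGroup A] [Module (ZMod p) A] [AddCommGroup B]
    [Module (ZMod p) B] [Module.Finite (ZMod p) X] [Module.Finite (ZMod p) B]
    (β : X →ₗ[ZMod p] X' →ₗ[ZMod p] ZMod p) (hβ : Function.Surjective β)
    (a : A →ₗ[ZMod p] X) (b : B →ₗ[ZMod p] X') (ha : Function.Injective a)
    (hb : Function.Injective b) (hiso : ∀ u v, β (a u) (b v) = 0)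
    (hdim : Module.finrank (ZMod p) X = Module.finrank (ZMod p) A + Module.finrank (ZMod p) B)
    (z : X) (hz : ∀ v, β z (b v) = 0) : ∃ u, a u = z := by
  set Ψ : X →ₗ[ZMod p] Module.Dual (ZMod p) B := b.dualMap ∘ₗ β with hΨ
  have hs : Function.Surjective Ψ := (LinearMap.dualMap_surjective_of_injective hb).comp hβ
  have h1 := LinearMap.finrank_range_add_finrank_ker Ψ
  rw [LinearMap.range_eq_top.2 hs, finrank_top, Subspace.dual_finrank_eq] at h1
  have h2 : LinearMap.range a ≤ LinearMap.ker Ψ := by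
    rintro x ⟨u, rfl⟩
    exact LinearMap.mem_ker.2 (LinearMap.ext fun v => hiso u v)
  have h3 : LinearMap.range a = LinearMap.ker Ψ := by
    refine Submodule.eq_of_le_of_finrank_eq h2 ?_
    rw [LinearMap.finrank_range_of_inj ha]
    omega
  have h4 : z ∈ LinearMap.range a := by
    rw [h3]
    exact LinearMap.mem_ker.2 (LinearMap.ext fun v => hz v)
  exact h4

end LinAlg

variable {M N : Rep.{0} (ZMod p) GQ}

omit [Fact p.Prime] in
theorem finite_above_p : {q : Nat.Primes | (q : ℕ) = p}.Finite :=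
  Set.Subsingleton.finite fun _ h _ h' => Subtype.ext (h.trans h'.symm)

theorem eqv_symm {G : Type} [Group G] {A B : Rep.{0} (ZMod p) G} (e : A ≃ₗ[ZMod p] B)
    (h : ∀ g a, e (A.ρ g a) = B.ρ g (e a)) (g : G) (b : B) :
    e.symm (B.ρ g b) = A.ρ g (e.symm b) :=
  e.injective (by rw [e.apply_symm_apply, h, e.apply_symm_apply])

theorem mem_H1T_iff {T : Finset Nat.Primes} {x : cH1 (MonoidHom.id GQ) M} :
    x ∈ H1T T M ↔ ∀ q ∉ T, res1 q M x ∈ unr1 q M := by
  simp only [H1T, Submodule.mem_iInf, Submodule.mem_comap]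

theorem mem_sha1g_iff {x : cH1 (MonoidHom.id GQ) M} :
    x ∈ sha1g M ↔ ∀ q, res1 q M x = 0 := by
  simp only [sha1g, Submodule.mem_iInf, LinearMap.mem_ker]

theorem mem_sha2g_iff {x : cH2 (MonoidHom.id GQ) M} :
    x ∈ sha2g M ↔ ∀ q, res2 q M x = 0 := by
  simp only [sha2g, Submodule.mem_iInf, LinearMap.mem_ker]

theorem H1T_mono {T T' : Finset Nat.Primes} (h : T ⊆ T') : H1T T M ≤ H1T T' M := fun x hx =>
  mem_H1T_iff.2 fun q hq => mem_H1T_iff.1 hx q fun hq' => hq (h hq')

theorem sha1g_le_H1T (T : Finset Nat.Primes) : sha1g M ≤ H1T T M := fun x hx =>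
  mem_H1T_iff.2 fun q _ => by rw [mem_sha1g_iff.1 hx q]; exact zero_mem _

/-- in a finite space of classes, finitely many primes detect the locally trivial classes -/
theorem exists_detect (T : Finset Nat.Primes) [Module.Finite (ZMod p) (H1T T M)] :
    ∃ T₁ : Finset Nat.Primes, ∀ x ∈ H1T T M, (∀ q ∈ T₁, res1 q M x = 0) → x ∈ sha1g M := by
  classical
  let K : Finset Nat.Primes → Submodule (ZMod p) (H1T T M) := fun U =>
    ⨅ q ∈ U, LinearMap.ker (res1 q M ∘ₗ (H1T T M).subtype)
  obtain ⟨_, ⟨T₁, rfl⟩, hmin⟩ := IsArtinian.set_has_minimal (Set.range K) (Set.range_nonempty _)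
  refine ⟨T₁, fun x hx h => mem_sha1g_iff.2 fun q => ?_⟩
  have hle : K (insert q T₁) ≤ K T₁ :=
    biInf_mono fun r hr => Finset.mem_insert_of_mem hr
  have heq : K (insert q T₁) = K T₁ := by
    by_contra hne
    exact hmin _ ⟨_, rfl⟩ (lt_of_le_of_ne hle hne)
  have hxK : (⟨x, hx⟩ : H1T T M) ∈ K T₁ := by
    simp only [K, Submodule.mem_iInf, LinearMap.mem_ker]
    exact fun r hr => h r hr
  rw [← heq] at hxK
  simp only [K, Submodule.mem_iInf, LinearMap.mem_ker] at hxK
  exact hxK q (Finset.mem_insert_self _ _)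

/-- complex conjugation inverts the roots of unity -/
theorem cycloChar_conj (hp2 : p ≠ 2) :
    ExtCitation.cycloChar p complexConjugation = -1 := by
  have hp : p.Prime := Fact.out
  haveI : NeZero p := ⟨hp.ne_zero⟩
  haveI := Fact.mk (show 2 < p by have := hp.two_le; omega)
  apply Units.ext
  refine ((modularCyclotomicCharacter.unique (AlgebraicClosure ℚ)
      (g := (complexConjugation : AlgebraicClosure ℚ ≃+* AlgebraicClosure ℚ))
      (ExtCitation.card_rootsOfUnity_eq_self p) (c := -1) fun t ht => ?_)).symm.trans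
    (by simp)
  have hz : (t : AlgebraicClosure ℚ) ^ p = 1 := (mem_rootsOfUnity' p t).1 ht
  have h1 : complexConjugation (t : AlgebraicClosure ℚ) = (t : AlgebraicClosure ℚ)⁻¹ := by
    refine complexEmbedding.injective ?_
    show complexEmbedding (complexConjugation (t : AlgebraicClosure ℚ)) =
      complexEmbedding (t : AlgebraicClosure ℚ)⁻¹
    rw [complexEmbedding_complexConjugation, map_inv₀]
    have hn : ‖complexEmbedding (t : AlgebraicClosure ℚ)‖ = 1 :=
      Complex.norm_eq_one_of_pow_eq_one (by rw [← map_pow, hz, map_one]) hp.ne_zero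
    rw [Complex.inv_def, Complex.normSq_eq_norm_sq, hn]
    simp
  show complexConjugation (t : AlgebraicClosure ℚ) = _
  rw [h1]
  refine inv_eq_of_mul_eq_one_right ?_
  rw [← pow_succ', ZMod.neg_val, if_neg one_ne_zero, ZMod.val_one, Nat.sub_add_cancel hp.one_le, hz]

/-- a subgroup of finite index inside `ker ω` has even index -/
theorem even_index (hp2 : p ≠ 2) {H : Subgroup GQ}
    (hω : ∀ h ∈ H, ExtCitation.cycloChar p h = 1) : 2 ∣ H.index := by
  set χ := ExtCitation.cycloChar p
  have hle : H ≤ χ.ker := fun h hh => MonoidHom.mem_ker.2 (hω h hh)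
  refine dvd_trans ?_ (Subgroup.index_dvd_of_le hle)
  rw [Subgroup.index_ker]
  have hord : orderOf (⟨χ complexConjugation, ⟨_, rfl⟩⟩ : χ.range) = 2 := by
    rw [← Subgroup.orderOf_coe]
    show orderOf (χ complexConjugation) = 2
    rw [cycloChar_conj hp2, ← orderOf_units, Units.val_neg, Units.val_one, orderOf_neg_one,
      if_neg (by rw [ZMod.ringChar_zmod_n]; exact hp2)]
  rw [← hord]
  exact orderOf_dvd_natCard _

end FLTAgent.PT
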