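import Fermat.Agent.PT.Dual.Kernel

/-!
Parcel E: the global duality theorems.
-/

set_option autoImplicit false
set_option linter.style.haveILetI false

noncomputable section

open CategoryTheory groupCohomology

namespace FLTAgent.PT

variable {p : ℕ} [Fact p.Prime] {M : Rep.{0} (ZMod p) GQ}

/-- an orthogonal family of local classes is global -/
theorem exists_global_of_isOrth (R : Recip p) (hp2 : p ≠ 2) (hM : IsAdm (MonoidHom.id GQ) M)
    (z : ∀ q, lH1 q M) (hz : IsFam z) (ho : IsOrth R hM z) :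
    ∃ x : cH1 (MonoidHom.id GQ) M, ∀ q, res1 q M x = z q := by
  obtain ⟨x, hx, hcls⟩ := exists_K2_of_fam hM hz
  obtain ⟨v, hv, hdv, hm⟩ := (phi_main R hp2 hM).2 x (LinearMap.ext fun b => by
    rw [Phi2_cls2 R hp2 hM x hx b, LinearMap.zero_apply]
    exact (finsum_congr fun q => by rw [hcls q]).trans (ho b))
  have hvZ : v ∈ Z1 (MonoidHom.id GQ) M := ⟨LinearMap.mem_ker.2 (hdv.trans hx), hv⟩
  refine ⟨h1mk _ _ ⟨v, hvZ⟩, fun q => ?_⟩
  rw [← hcls q, ← sub_eq_zero]
  obtain ⟨m, hm⟩ := hm q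
  refine (map_sub (h1mk (loc q) (Rep.res (loc q) M))
    ⟨_, pullPush_mem_Z1 (MonoidHom.id GQ) (r' := loc q) (loc q) (fun _ => rfl)
      (B := Rep.res (loc q) M) (LinearMap.id : M →ₗ[ZMod p] M) (fun _ _ => rfl) hvZ⟩ _).symm.trans
    ((h1mk_eq_zero_iff _ _).2 ⟨-m, fun g => ?_⟩)
  show (Rep.res (loc q) M).ρ g (-m) - -m = v (loc q g) - x.1.2 q g
  rw [hm, Pi.add_apply, d₀₁_hom_apply, map_neg, Function.comp_apply]
  abel

theorem sha1_duality (R : Recip p) (hp2 : p ≠ 2) (hM : IsAdm (MonoidHom.id GQ) M) :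
    Nonempty (sha1g M ≃ₗ[ZMod p] Module.Dual (ZMod p) (sha2g (dual' M))) := by
  let L : K1 M →ₗ[ZMod p] Module.Dual (ZMod p) (sha2g (dual' M)) :=
    (sha2g (dual' M)).subtype.dualMap ∘ₗ Phi1 R hp2 hM
  let P : K1 M →ₗ[ZMod p] sha1g M :=
    LinearMap.codRestrict (sha1g M)
      { toFun := fun x => h1mk (MonoidHom.id GQ) M ⟨x.1.1, x.2.1⟩
        map_add' := fun x y => rfl
        map_smul' := fun c x => rfl }
      fun x => mem_sha1g_iff.2 fun q =>
        (h1mk_eq_zero_iff (loc q) _).2 ⟨x.1.2 q, fun g => x.2.2 q g⟩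
  have hP : Function.Surjective P := by
    rintro ⟨c, hc⟩
    obtain ⟨z, rfl⟩ := Submodule.mkQ_surjective _ c
    choose n hn using fun q => (h1mk_eq_zero_iff (loc q) _).1 (mem_sha1g_iff.1 hc q)
    exact ⟨⟨(z.1, n), z.2, fun q g => hn q g⟩, Subtype.ext rfl⟩
  have hL : Function.Surjective L := fun l => by
    obtain ⟨l', hl'⟩ := LinearMap.dualMap_surjective_of_injective
      (sha2g (dual' M)).injective_subtype l
    obtain ⟨x, hx⟩ := (phi_main R hp2 hM).1 l'
    exact ⟨x, by rw [← hl', ← hx]; rfl⟩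
  have hzero : ∀ n : ∀ q, lH0 q M, ∀ c ∈ sha2g (dual' M), Phi1 R hp2 hM (zeroK1 n) c = 0 :=
    fun n c hc => by
      rw [Phi1_zeroK1]
      exact finsum_eq_zero_of_forall_eq_zero fun q => by rw [mem_sha2g_iff.1 hc q, map_zero]
  have hker : LinearMap.ker P = LinearMap.ker L := by
    ext x
    constructor
    · intro hx
      obtain ⟨m, hm⟩ := (h1mk_eq_zero_iff (MonoidHom.id GQ) _).1
        (congrArg Subtype.val (LinearMap.mem_ker.1 hx))
      have hsplit : zeroK1 (fun q => (⟨x.1.2 q - m, fun g => by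
          show M.ρ (loc q g) (x.1.2 q - m) = x.1.2 q - m
          rw [map_sub]
          linear_combination (norm := abel) x.2.2 q g - hm (loc q g)⟩ : lH0 q M)) =
          x - constK1 hM m := by
        refine Subtype.ext (Prod.ext (funext fun g => ?_) rfl)
        show 0 = x.1.1 g - (d₀₁ M).hom m g
        rw [d₀₁_hom_apply]
        exact (sub_eq_zero.2 (hm g).symm).symm
      refine LinearMap.mem_ker.2 (LinearMap.ext fun c => ?_)
      have key := fun n => hzero n c.1 c.2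
      have h0 : Phi1 R hp2 hM (x - constK1 hM m) c.1 = 0 := by rw [← hsplit]; exact key _
      rw [map_sub, Phi1_constK1, sub_zero] at h0
      exact h0
    · intro hx
      obtain ⟨n, hn⟩ := exists_zeroK1 R hp2 hM (Phi1 R hp2 hM x) fun c hc =>
        LinearMap.congr_fun (LinearMap.mem_ker.1 hx) ⟨c, hc⟩
      obtain ⟨m, hm, -⟩ := Phi1_ker R hp2 hM (x - zeroK1 n) (by rw [map_sub, hn, sub_self])
      refine LinearMap.mem_ker.2 (Subtype.ext ((h1mk_eq_zero_iff _ _).2 ⟨m, fun g => ?_⟩))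
      rw [← hm g]
      exact sub_zero _
  exact ⟨((LinearMap.quotKerEquivOfSurjective P hP).symm ≪≫ₗ Submodule.quotEquivOfEq _ _ hker) ≪≫ₗ
    LinearMap.quotKerEquivOfSurjective L hL⟩

/-- a functional killing the classes in the given subspaces is a sum of local functionals -/
theorem exists_factor_mod {ι V : Type} [AddCommGroup V] [Module (ZMod p) V] {X : ι → Type}
    [∀ i, AddCommGroup (X i)] [∀ i, Module (ZMod p) (X i)] (ρ : ∀ i, V →ₗ[ZMod p] X i)
    (N : ∀ i, Submodule (ZMod p) (X i)) (hN : ∀ v, {i | ρ i v ∉ N i}.Finite)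
    (f : V →ₗ[ZMod p] ZMod p) (hf : ∀ v, (∀ i, ρ i v ∈ N i) → f v = 0) :
    ∃ l : ∀ i, X i →ₗ[ZMod p] ZMod p, (∀ i, ∀ n ∈ N i, l i n = 0) ∧
      ∀ v, ∑ᶠ i, l i (ρ i v) = f v := by
  obtain ⟨l, hl⟩ := exists_factor (X := fun i => X i ⧸ N i) (fun i => (N i).mkQ ∘ₗ ρ i)
    (fun v => (hN v).subset fun i hi h => hi ((Submodule.Quotient.mk_eq_zero _).2 h)) f
    fun v hv => hf v fun i => (Submodule.Quotient.mk_eq_zero _).1 (hv i)
  refine ⟨fun i => l i ∘ₗ (N i).mkQ, fun i n hn => ?_, hl⟩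
  rw [LinearMap.comp_apply, Submodule.mkQ_apply, (Submodule.Quotient.mk_eq_zero _).2 hn, map_zero]

/-- a family of local classes correcting a given functional -/
theorem exists_correction {P D : Rep.{0} (ZMod p) GQ}
    (e : ∀ q, lH1 q P →ₗ[ZMod p] lH1 q D →ₗ[ZMod p] ZMod p) (he : ∀ q, Function.Surjective (e q))
    (N : ∀ q, Submodule (ZMod p) (lH1 q D))
    (hN : ∀ b, {q | res1 q D b ∉ N q}.Finite) (f : cH1 (MonoidHom.id GQ) D →ₗ[ZMod p] ZMod p)
    (hf : ∀ b, (∀ q, res1 q D b ∈ N q) → f b = 0) :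
    ∃ w : ∀ q, lH1 q P, (∀ q, ∀ n ∈ N q, e q (w q) n = 0) ∧
      ∀ b, ∑ᶠ q, e q (w q) (res1 q D b) = f b := by
  obtain ⟨l, hlN, hl⟩ := exists_factor_mod (X := fun q => lH1 q D) (fun q => res1 q D) N hN f hf
  choose w hw using fun q => he q (l q)
  exact ⟨w, fun q n hn => (LinearMap.congr_fun (hw q) n).trans (hlN q n hn),
    fun b => (finsum_congr fun q => LinearMap.congr_fun (hw q) _).trans (hl b)⟩

theorem mem_unr1_of_ev11 (R : Recip p) {q : Nat.Primes} (hq : (q : ℕ) ≠ p)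
    (hM : IsAdm (MonoidHom.id GQ) M) (hu : IsUnrAt q M) {w : lH1 q M}
    (h : ∀ n ∈ unr1 q (dual' M), ev11 R q hM w n = 0) : w ∈ unr1 q M :=
  (unr1_orthogonal q hq hM hu w).2 fun y hy => (R.inv q).injective
    ((h y hy).trans (map_zero _).symm)

/-- the functional of a finite family -/
def famFun (R : Recip p) (hM : IsAdm (MonoidHom.id GQ) M) (U : Finset Nat.Primes)
    (z : ∀ q, lH1 q M) : cH1 (MonoidHom.id GQ) (dual' M) →ₗ[ZMod p] ZMod p :=
  -∑ q ∈ U, ev11 R q hM (z q) ∘ₗ res1 q (dual' M)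

theorem famFun_apply (R : Recip p) (hM : IsAdm (MonoidHom.id GQ) M) (U : Finset Nat.Primes)
    (z : ∀ q, lH1 q M) (b : cH1 (MonoidHom.id GQ) (dual' M)) :
    famFun R hM U z b = -∑ q ∈ U, ev11 R q hM (z q) (res1 q (dual' M) b) := by
  simp [famFun, LinearMap.sum_apply]

/-- an orthogonal family from a correction -/
theorem exists_global_of_correction (R : Recip p) (hp2 : p ≠ 2)
    (hM : IsAdm (MonoidHom.id GQ) M) (T U : Finset Nat.Primes) (z w : ∀ q, lH1 q M)
    (hw : ∀ q ∉ T, w q ∈ unr1 q M)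
    (hsum : ∀ b, ∑ᶠ q, ev11 R q hM (w q) (res1 q (dual' M) b) = famFun R hM U z b) :
    ∃ x : cH1 (MonoidHom.id GQ) M, ∀ q, res1 q M x = (if q ∈ U then z q else 0) + w q := by
  classical
  set Z : ∀ q, lH1 q M := fun q => (if q ∈ U then z q else 0) + w q
  have hwf : IsFam w := T.finite_toSet.subset fun q hq => by
    by_contra h
    exact hq (hw q fun h' => h (Finset.mem_coe.2 h'))
  have hZ : IsFam Z := (T ∪ U).finite_toSet.subset fun q hq => by
    by_contra h
    simp only [Finset.coe_union, Set.mem_union, Finset.mem_coe, not_or] at h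
    exact hq (by simp only [Z, if_neg h.2, zero_add]; exact hw q h.1)
  refine exists_global_of_isOrth R hp2 hM Z hZ fun b => ?_
  have h1 : ∀ q, ev11 R q hM (Z q) (res1 q (dual' M) b) =
      (if q ∈ U then ev11 R q hM (z q) (res1 q (dual' M) b) else 0) +
        ev11 R q hM (w q) (res1 q (dual' M) b) := fun q => by
    simp only [Z, map_add, LinearMap.add_apply]
    split_ifs
    · rfl
    · rw [map_zero, LinearMap.zero_apply]
  have hfin : (Function.support fun q =>
      if q ∈ U then ev11 R q hM (z q) (res1 q (dual' M) b) else 0).Finite :=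
    U.finite_toSet.subset fun q hq => by
      by_contra h
      exact hq (if_neg fun h' => h (Finset.mem_coe.2 h'))
  rw [finsum_congr h1, finsum_add_distrib hfin (finite_ev11 R hM hwf b), hsum, famFun_apply,
    finsum_eq_sum_of_support_subset _ (s := U) fun q hq => by
      by_contra h
      exact hq (if_neg fun h' => h (Finset.mem_coe.2 h')),
    Finset.sum_congr rfl fun q hq => if_pos hq, add_neg_cancel]

theorem finite_ram1_outside (hM : IsAdm (MonoidHom.id GQ) M) (T : Finset Nat.Primes)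
    (N : ∀ q, Submodule (ZMod p) (lH1 q M)) (hN : ∀ q ∉ T, N q = unr1 q M)
    (b : cH1 (MonoidHom.id GQ) M) : {q | res1 q M b ∉ N q}.Finite :=
  ((finite_ram1 hM b).union T.finite_toSet).subset fun q hq => by
    by_contra h
    simp only [Set.mem_union, Set.mem_ofPred_eq, Finset.mem_coe, not_or, not_not] at h
    exact hq (by rw [hN q h.2]; exact h.1)

end FLTAgent.PT
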