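import Fermat.Agent.PT.Dual.Surj

/-!
Parcel E: classes with compact support and their pairings with global classes.
-/

set_option autoImplicit false
set_option linter.style.haveILetI false

noncomputable section

open CategoryTheory groupCohomology

namespace FLTAgent.PT

variable {p : ℕ} [Fact p.Prime] (R : Recip p)

/-- global primitives -/
def IsPrim (e : GQ × GQ × GQ → mu p) (θ : GQ × GQ → mu p) : Prop :=
  IsLevelConstant₂ (MonoidHom.id GQ) θ ∧ (d₂₃ (mu p)).hom θ = e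

theorem IsPrim.add {e e' : GQ × GQ × GQ → mu p} {θ θ' : GQ × GQ → mu p} (h : IsPrim e θ)
    (h' : IsPrim e' θ') : IsPrim (e + e') (θ + θ') :=
  ⟨h.1.add h'.1, by rw [map_add, h.2, h'.2]⟩

theorem IsPrim.smul {e : GQ × GQ × GQ → mu p} {θ : GQ × GQ → mu p} (h : IsPrim e θ) (c : ZMod p) :
    IsPrim (c • e) (c • θ) :=
  ⟨h.1.comp (c • ·), by rw [map_smul, h.2]⟩

theorem level2_loc {X : Type*} {f : GQ × GQ → X} (hf : IsLevelConstant₂ (MonoidHom.id GQ) f)
    (q : Nat.Primes) : IsLevelConstant₂ (loc q) (f ∘ Prod.map (loc q) (loc q)) :=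
  IsLevelConstant₂.precomp (loc q) (fun _ => rfl) hf

theorem level1_loc {X : Type*} {f : GQ → X} (hf : IsLevelConstant₁ (MonoidHom.id GQ) f)
    (q : Nat.Primes) : IsLevelConstant₁ (loc q) (f ∘ loc q) :=
  IsLevelConstant₁.precomp (loc q) (fun _ => rfl) hf

theorem loc2_mem {M : Rep.{0} (ZMod p) GQ} {z : GQ × GQ → M}
    (hz : z ∈ levelCocycles₂ (MonoidHom.id GQ) M) (q : Nat.Primes) :
    z ∘ Prod.map (loc q) (loc q) ∈ levelCocycles₂ (loc q) (Rep.res (loc q) M) :=
  cochainsPullPush₂_mem_levelCocycles₂ (rH := MonoidHom.id GQ) (rG := loc q) (loc q)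
    (fun _ => rfl) (B := Rep.res (loc q) M) (LinearMap.id : M →ₗ[ZMod p] M) (fun _ _ => rfl) hz

/-- the class of a cochain, zero if it is not a cocycle -/
def lclass (q : Nat.Primes) (u : Gam q × Gam q → mu p) : ZMod p := by
  classical
  exact if h : u ∈ levelCocycles₂ (loc q) (Rep.res (loc q) (mu p))
    then R.inv q (h2mk (loc q) (Rep.res (loc q) (mu p)) ⟨u, h⟩) else 0

theorem lclass_eq {q : Nat.Primes} {u : Gam q × Gam q → mu p}
    (h : u ∈ levelCocycles₂ (loc q) (Rep.res (loc q) (mu p))) :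
    lclass R q u = R.inv q (h2mk (loc q) (Rep.res (loc q) (mu p)) ⟨u, h⟩) := dif_pos h

theorem lclass_add {q : Nat.Primes} {u v : Gam q × Gam q → mu p}
    (hu : u ∈ levelCocycles₂ (loc q) (Rep.res (loc q) (mu p)))
    (hv : v ∈ levelCocycles₂ (loc q) (Rep.res (loc q) (mu p))) :
    lclass R q (u + v) = lclass R q u + lclass R q v := by
  rw [lclass_eq R hu, lclass_eq R hv, lclass_eq R (add_mem hu hv), ← map_add, ← map_add]
  rfl

theorem lclass_smul {q : Nat.Primes} {u : Gam q × Gam q → mu p} (c : ZMod p)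
    (hu : u ∈ levelCocycles₂ (loc q) (Rep.res (loc q) (mu p))) :
    lclass R q (c • u) = c * lclass R q u := by
  rw [lclass_eq R hu, lclass_eq R (Submodule.smul_mem _ c hu), ← smul_eq_mul, ← map_smul,
    ← map_smul]
  rfl

theorem lclass_coboundary {q : Nat.Primes} {u : Gam q × Gam q → mu p} {x : Gam q → mu p}
    (hx : IsLevelConstant₁ (loc q) x) (h : (d₁₂ (Rep.res (loc q) (mu p))).hom x = u) :
    lclass R q u = 0 := by
  have hmem : u ∈ levelCoboundaries₂ (loc q) (Rep.res (loc q) (mu p)) :=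
    (mem_levelCoboundaries₂_iff _ _ _).2 ⟨x, hx, h⟩
  have hu : u ∈ levelCocycles₂ (loc q) (Rep.res (loc q) (mu p)) :=
    ⟨levelCoboundaries₂_le_cocycles₂ _ _ hmem,
      h ▸ ((isAdm_mu p).res (loc q)).level_d1 hx⟩
  rw [lclass_eq R hu, (continuousH2π_eq_zero_iff (loc q) (Rep.res (loc q) (mu p)) ⟨u, hu⟩).2 hmem,
    map_zero]

theorem lclass_unr {q : Nat.Primes} (hμ : IsUnrAt q (mu p)) {u : Gam q × Gam q → mu p}
    (hu : u ∈ levelCocycles₂ (loc q) (Rep.res (loc q) (mu p)))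
    (h : ∀ g g' s s', s ∈ inert q → s' ∈ inert q → u (g * s, g' * s') = u (g, g')) :
    lclass R q u = 0 := by
  obtain ⟨y, hy, -, hd⟩ := exists_unr_trivialisation (isAdm_mu p) hμ ⟨u, hu⟩ h
  exact lclass_coboundary R hy hd

/-- the sum of the local classes of a global cocycle vanishes -/
theorem finite_lclass_global {θ : GQ × GQ → mu p}
    (hθ : θ ∈ levelCocycles₂ (MonoidHom.id GQ) (mu p)) :
    {q | lclass R q (θ ∘ Prod.map (loc q) (loc q)) ≠ 0}.Finite ∧
      ∑ᶠ q, lclass R q (θ ∘ Prod.map (loc q) (loc q)) = 0 := by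
  have h : ∀ q, lclass R q (θ ∘ Prod.map (loc q) (loc q)) =
      R.inv q (res2 q (mu p) (h2mk _ _ ⟨θ, hθ⟩)) := fun q =>
    lclass_eq R (loc2_mem hθ q)
  refine ⟨(R.finite_support (h2mk _ _ ⟨θ, hθ⟩)).subset fun q hq h0 => hq ?_, ?_⟩
  · rw [h, h0, map_zero]
  · rw [finsum_congr h, R.sum_zero]

section One

variable {M N : Rep.{0} (ZMod p) GQ}

/-- classes with compact support in degree 1 -/
def K1 (M : Rep.{0} (ZMod p) GQ) : Submodule (ZMod p) ((GQ → M) × (Nat.Primes → M)) where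
  carrier := {x | x.1 ∈ Z1 (MonoidHom.id GQ) M ∧
    ∀ (q : Nat.Primes) (g : Gam q), M.ρ (loc q g) (x.2 q) - x.2 q = x.1 (loc q g)}
  add_mem' hx hy := ⟨add_mem hx.1 hy.1, fun q g => by
    simp only [Prod.snd_add, Prod.fst_add, Pi.add_apply, map_add, ← hx.2 q g, ← hy.2 q g]; abel⟩
  zero_mem' := ⟨zero_mem _, fun q g => by simp⟩
  smul_mem' c x hx := ⟨Submodule.smul_mem _ c hx.1, fun q g => by
    simp only [Prod.smul_snd, Prod.smul_fst, Pi.smul_apply, map_smul, ← smul_sub, hx.2 q g]⟩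

/-- the local cochains of the first pairing -/
def u1 (q : Nat.Primes) (x : K1 M) (c : levelCocycles₂ (MonoidHom.id GQ) (dual' M))
    (θ : GQ × GQ → mu p) : Gam q × Gam q → mu p :=
  cup02 (A := Rep.res (loc q) M) (B := Rep.res (loc q) (dual' M)) (C := Rep.res (loc q) (mu p))
      (evM M) (x.1.2 q) (c.1 ∘ Prod.map (loc q) (loc q)) -
    θ ∘ Prod.map (loc q) (loc q)

theorem d0_snd (q : Nat.Primes) (x : K1 M) :
    (d₀₁ (Rep.res (loc q) M)).hom (x.1.2 q) = x.1.1 ∘ loc q :=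
  funext fun g => by rw [d₀₁_hom_apply]; exact x.2.2 q g

theorem u1_mem (hM : IsAdm (MonoidHom.id GQ) M) (q : Nat.Primes) (x : K1 M)
    (c : levelCocycles₂ (MonoidHom.id GQ) (dual' M)) {θ : GQ × GQ → mu p}
    (hθ : IsPrim (cup12 (evM M) x.1.1 c.1) θ) :
    u1 q x c θ ∈ levelCocycles₂ (loc q) (Rep.res (loc q) (mu p)) := by
  refine ⟨?_, isLevel2_sub (cup02_level _ (level2_loc c.2.2 q)) (level2_loc hθ.1 q)⟩
  have hc := (loc2_mem c.2 q).1
  have hd := d_cup02 (A := Rep.res (loc q) M) (B := Rep.res (loc q) (dual' M))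
    (C := Rep.res (loc q) (mu p)) (φ := evM M) (fun g => evM_eqv M (loc q g)) (x.1.2 q) hc
  rw [d0_snd] at hd
  refine LinearMap.mem_ker.2 (funext fun g => ?_)
  rw [u1, map_sub, Pi.sub_apply]
  refine sub_eq_zero.2 ((congrFun hd g).trans ?_)
  have h2 := congrFun hθ.2 (loc q g.1, loc q g.2.1, loc q g.2.2)
  rw [d₂₃_hom_apply] at h2
  rw [d₂₃_hom_apply]
  simp only [Function.comp_apply, Prod.map_apply, map_mul]
  exact h2.symm

/-- the first pairing, with a chosen primitive -/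
def v1 (x : K1 M) (c : levelCocycles₂ (MonoidHom.id GQ) (dual' M)) (θ : GQ × GQ → mu p) : ZMod p :=
  ∑ᶠ q, lclass R q (u1 q x c θ)

theorem finite_u1 (hM : IsAdm (MonoidHom.id GQ) M) (x : K1 M)
    (c : levelCocycles₂ (MonoidHom.id GQ) (dual' M)) {θ : GQ × GQ → mu p}
    (hθ : IsPrim (cup12 (evM M) x.1.1 c.1) θ) :
    {q | lclass R q (u1 q x c θ) ≠ 0}.Finite := by
  obtain ⟨F₁, hF₁, h₁⟩ := c.2.2
  obtain ⟨F₂, hF₂, h₂⟩ := hθ.1
  haveI := hF₁; haveI := hF₂
  refine ((finite_not_unr (isAdm_mu p)).union (finite_ramified (F₁ ⊔ F₂))).subset fun q hq => ?_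
  by_contra hcon
  simp only [Set.mem_union, Set.mem_setOf_eq, not_or, not_not, not_exists, not_and] at hcon
  refine hq (lclass_unr R hcon.1 (u1_mem hM q x c hθ) fun g g' s s' hs hs' => ?_)
  have e1 := IntermediateField.fixingSubgroup_antitone (le_sup_left : F₁ ≤ F₁ ⊔ F₂)
  have e2 := IntermediateField.fixingSubgroup_antitone (le_sup_right : F₂ ≤ F₁ ⊔ F₂)
  simp only [u1, Pi.sub_apply, cup02, Function.comp_apply, Prod.map_apply, map_mul]
  rw [h₁ (loc q g) (loc q g') (loc q s) (loc q s') (e1 (hcon.2 s hs)) (e1 (hcon.2 s' hs')),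
    h₂ (loc q g) (loc q g') (loc q s) (loc q s') (e2 (hcon.2 s hs)) (e2 (hcon.2 s' hs'))]

theorem v1_indep (hM : IsAdm (MonoidHom.id GQ) M) (x : K1 M)
    (c : levelCocycles₂ (MonoidHom.id GQ) (dual' M)) {θ θ' : GQ × GQ → mu p}
    (hθ : IsPrim (cup12 (evM M) x.1.1 c.1) θ) (hθ' : IsPrim (cup12 (evM M) x.1.1 c.1) θ') :
    v1 R x c θ = v1 R x c θ' := by
  have hd : θ - θ' ∈ levelCocycles₂ (MonoidHom.id GQ) (mu p) :=
    ⟨LinearMap.mem_ker.2 (by rw [map_sub, hθ.2, hθ'.2, sub_self]), isLevel2_sub hθ.1 hθ'.1⟩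
  obtain ⟨hfin, hsum⟩ := finite_lclass_global R hd
  have key : ∀ q, lclass R q (u1 q x c θ') =
      lclass R q (u1 q x c θ) + lclass R q ((θ - θ') ∘ Prod.map (loc q) (loc q)) := fun q => by
    rw [← lclass_add R (u1_mem hM q x c hθ) (loc2_mem hd q)]
    congr 1
    funext g
    simp only [u1, Pi.add_apply, Pi.sub_apply, Function.comp_apply]
    abel
  rw [v1, v1, finsum_congr key, finsum_add_distrib (finite_u1 R hM x c hθ) hfin, hsum, add_zero]

theorem exists_prim1 (hp2 : p ≠ 2) (hM : IsAdm (MonoidHom.id GQ) M) (x : K1 M)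
    (c : levelCocycles₂ (MonoidHom.id GQ) (dual' M)) :
    ∃ θ, IsPrim (cup12 (evM M) x.1.1 c.1) θ :=
  exists_primitive3 hp2 (cup12_level (isAdm_dual hM) x.2.1.2 c.2.2)
    (cup12_cocycle (evM_eqv M) x.2.1.1 c.2.1)

/-- the first pairing on cocycles -/
def P1 (hp2 : p ≠ 2) (hM : IsAdm (MonoidHom.id GQ) M) :
    K1 M →ₗ[ZMod p] levelCocycles₂ (MonoidHom.id GQ) (dual' M) →ₗ[ZMod p] ZMod p :=
  LinearMap.mk₂ (ZMod p) (fun x c => v1 R x c (exists_prim1 hp2 hM x c).choose)
    (fun x x' c => by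
      have h := (exists_prim1 hp2 hM x c).choose_spec
      have h' := (exists_prim1 hp2 hM x' c).choose_spec
      set θ := (exists_prim1 hp2 hM x c).choose
      set θ' := (exists_prim1 hp2 hM x' c).choose
      have hs : IsPrim (cup12 (evM M) (x + x').1.1 c.1) (θ + θ') := by
        convert h.add h' using 1
        funext g; simp [cup12]
      rw [v1_indep R hM (x + x') c (exists_prim1 hp2 hM (x + x') c).choose_spec hs, v1, v1, v1,
        ← finsum_add_distrib (finite_u1 R hM x c h) (finite_u1 R hM x' c h')]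
      refine finsum_congr fun q => ?_
      rw [← lclass_add R (u1_mem hM q x c h) (u1_mem hM q x' c h')]
      congr 1
      funext g; simp [u1, cup02]; abel)
    (fun a x c => by
      have h := (exists_prim1 hp2 hM x c).choose_spec
      set θ := (exists_prim1 hp2 hM x c).choose
      have hs : IsPrim (cup12 (evM M) (a • x).1.1 c.1) (a • θ) := by
        convert h.smul a using 1
        funext g; simp [cup12]
      rw [v1_indep R hM (a • x) c (exists_prim1 hp2 hM (a • x) c).choose_spec hs, v1, v1,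
        smul_eq_mul, mul_finsum' _ _ (finite_u1 R hM x c h)]
      refine finsum_congr fun q => ?_
      rw [← lclass_smul R a (u1_mem hM q x c h)]
      congr 1
      funext g; simp [u1, cup02, mul_sub])
    (fun x c c' => by
      have h := (exists_prim1 hp2 hM x c).choose_spec
      have h' := (exists_prim1 hp2 hM x c').choose_spec
      set θ := (exists_prim1 hp2 hM x c).choose
      set θ' := (exists_prim1 hp2 hM x c').choose
      have hs : IsPrim (cup12 (evM M) x.1.1 (c + c').1) (θ + θ') := by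
        convert h.add h' using 1
        funext g; simp [cup12]
      rw [v1_indep R hM x (c + c') (exists_prim1 hp2 hM x (c + c')).choose_spec hs, v1, v1, v1,
        ← finsum_add_distrib (finite_u1 R hM x c h) (finite_u1 R hM x c' h')]
      refine finsum_congr fun q => ?_
      rw [← lclass_add R (u1_mem hM q x c h) (u1_mem hM q x c' h')]
      congr 1
      funext g; simp [u1, cup02]; abel)
    (fun a x c => by
      have h := (exists_prim1 hp2 hM x c).choose_spec
      set θ := (exists_prim1 hp2 hM x c).choose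
      have hs : IsPrim (cup12 (evM M) x.1.1 (a • c).1) (a • θ) := by
        convert h.smul a using 1
        funext g; simp [cup12]
      rw [v1_indep R hM x (a • c) (exists_prim1 hp2 hM x (a • c)).choose_spec hs, v1, v1,
        smul_eq_mul, mul_finsum' _ _ (finite_u1 R hM x c h)]
      refine finsum_congr fun q => ?_
      rw [← lclass_smul R a (u1_mem hM q x c h)]
      congr 1
      funext g; simp [u1, cup02, mul_sub])

theorem P1_eq (hp2 : p ≠ 2) (hM : IsAdm (MonoidHom.id GQ) M) (x : K1 M)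
    (c : levelCocycles₂ (MonoidHom.id GQ) (dual' M)) {θ : GQ × GQ → mu p}
    (hθ : IsPrim (cup12 (evM M) x.1.1 c.1) θ) : P1 R hp2 hM x c = v1 R x c θ :=
  v1_indep R hM x c (exists_prim1 hp2 hM x c).choose_spec hθ

theorem P1_coboundary (hp2 : p ≠ 2) (hM : IsAdm (MonoidHom.id GQ) M) (x : K1 M)
    (c : levelCocycles₂ (MonoidHom.id GQ) (dual' M))
    (hc : c.1 ∈ levelCoboundaries₂ (MonoidHom.id GQ) (dual' M)) : P1 R hp2 hM x c = 0 := by
  obtain ⟨y, hy, hyc⟩ := (mem_levelCoboundaries₂_iff _ _ _).1 hc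
  have hθ : IsPrim (cup12 (evM M) x.1.1 c.1) (-cup11 (evM M) x.1.1 y) := by
    refine ⟨isLevel2_neg (cup11_level _ (isAdm_dual hM) x.2.1.2 hy), ?_⟩
    rw [map_neg, d_cup11 (evM_eqv M), show (d₁₂ M).hom x.1.1 = 0 from x.2.1.1, hyc]
    funext g
    simp only [Pi.neg_apply, Pi.sub_apply, cup21]
    show -(evM M (0 : M) _ - _) = _
    rw [map_zero (evM M), LinearMap.zero_apply, zero_sub, neg_neg]
  rw [P1_eq R hp2 hM x c hθ, v1]
  refine finsum_eq_zero_of_forall_eq_zero fun q => lclass_coboundary R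
    (cup01_level (A := Rep.res (loc q) M) (B := Rep.res (loc q) (dual' M))
      (C := Rep.res (loc q) (mu p)) (φ := evM M) (x.1.2 q) (level1_loc hy q)) ?_
  rw [d_cup01 (A := Rep.res (loc q) M) (B := Rep.res (loc q) (dual' M))
    (C := Rep.res (loc q) (mu p)) (φ := evM M) (fun g => evM_eqv M (loc q g)), d0_snd]
  funext ⟨g, h⟩
  have h1 := congrFun hyc (loc q g, loc q h)
  rw [d₁₂_hom_apply] at h1
  simp only [u1, Pi.add_apply, Pi.sub_apply, cup02, cup11, Function.comp_apply, Prod.map_apply,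
    Pi.neg_apply, sub_neg_eq_add]
  rw [add_comm, ← h1, d₁₂_hom_apply]
  simp only [Function.comp_apply, map_mul]
  rfl

/-- the first pairing `Φ₁` -/
def Phi1 (hp2 : p ≠ 2) (hM : IsAdm (MonoidHom.id GQ) M) :
    K1 M →ₗ[ZMod p] Module.Dual (ZMod p) (cH2 (MonoidHom.id GQ) (dual' M)) where
  toFun x := Submodule.liftQ _ (P1 R hp2 hM x) fun c hc =>
    LinearMap.mem_ker.2 (P1_coboundary R hp2 hM x c hc)
  map_add' x y := Submodule.linearMap_qext _ (LinearMap.ext fun c => by simp)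
  map_smul' a x := Submodule.linearMap_qext _ (LinearMap.ext fun c => by simp)

theorem Phi1_mk (hp2 : p ≠ 2) (hM : IsAdm (MonoidHom.id GQ) M) (x : K1 M)
    (c : levelCocycles₂ (MonoidHom.id GQ) (dual' M)) {θ : GQ × GQ → mu p}
    (hθ : IsPrim (cup12 (evM M) x.1.1 c.1) θ) :
    Phi1 R hp2 hM x (h2mk _ _ c) = v1 R x c θ := P1_eq R hp2 hM x c hθ

/-- pairs `(0, n)` -/
theorem Phi1_zero_left (hp2 : p ≠ 2) (hM : IsAdm (MonoidHom.id GQ) M) (x : K1 M) (hx : x.1.1 = 0)
    (c : cH2 (MonoidHom.id GQ) (dual' M)) :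
    Phi1 R hp2 hM x c = ∑ᶠ q, R.inv q (cupH02 (loc q) (A := Rep.res (loc q) M)
      (B := Rep.res (loc q) (dual' M)) (C := Rep.res (loc q) (mu p)) (evM M)
      (fun g => evM_eqv M (loc q g)) ⟨x.1.2 q, fun g => by
        have := x.2.2 q g
        rw [hx, Pi.zero_apply, sub_eq_zero] at this
        exact this⟩ (res2 q (dual' M) c)) := by
  obtain ⟨z, rfl⟩ := Submodule.mkQ_surjective _ c
  have hθ : IsPrim (cup12 (evM M) x.1.1 z.1) 0 := by
    refine ⟨isLevelConstant₂_const _ 0, ?_⟩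
    rw [map_zero, hx]
    funext g
    simp only [cup12, Pi.zero_apply]
    rw [map_zero (evM M), LinearMap.zero_apply]
    rfl
  refine (Phi1_mk R hp2 hM x z hθ).trans (finsum_congr fun q => ?_)
  rw [lclass_eq R (u1_mem hM q x z hθ)]
  refine congrArg (R.inv q) (congrArg (Submodule.mkQ _) (Subtype.ext (funext fun g => ?_)))
  obtain ⟨g, h⟩ := g
  simp [u1, cup02]

/-- functoriality of `K1` -/
def K1map (φ : M →ₗ[ZMod p] N) (hφ : ∀ g m, φ (M.ρ g m) = N.ρ g (φ m)) :
    K1 M →ₗ[ZMod p] K1 N where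
  toFun x := ⟨(fun g => φ (x.1.1 g), fun q => φ (x.1.2 q)),
    pullPush_mem_Z1 (MonoidHom.id GQ) (MonoidHom.id GQ) (fun _ => rfl) φ hφ x.2.1, fun q g => by
      show N.ρ (loc q g) (φ (x.1.2 q)) - φ (x.1.2 q) = φ (x.1.1 (loc q g))
      rw [← x.2.2 q g, map_sub, hφ]⟩
  map_add' x y := by ext <;> simp
  map_smul' c x := by ext <;> simp

theorem Phi1_map (hp2 : p ≠ 2) (hM : IsAdm (MonoidHom.id GQ) M) (hN : IsAdm (MonoidHom.id GQ) N)
    (φ : M →ₗ[ZMod p] N) (hφ : ∀ g m, φ (M.ρ g m) = N.ρ g (φ m)) (x : K1 M)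
    (c : cH2 (MonoidHom.id GQ) (dual' N)) :
    Phi1 R hp2 hN (K1map φ hφ x) c =
      Phi1 R hp2 hM x (h2push (MonoidHom.id GQ) (dmap φ) (dmap_eqv φ hφ) c) := by
  obtain ⟨z, rfl⟩ := Submodule.mkQ_surjective _ c
  obtain ⟨θ, hθ⟩ := exists_prim1 hp2 hN (K1map φ hφ x) z
  set z' := levelCocycles₂Map (MonoidHom.id GQ) (rH := MonoidHom.id GQ) (rG := MonoidHom.id GQ)
    (fun _ => rfl) (dmap φ) (dmap_eqv φ hφ) z
  have hθ' : IsPrim (cup12 (evM M) x.1.1 z'.1) θ := by
    convert hθ using 1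
    exact (cup12_adjoint (φ := evM M) (φ' := evM N) φ (dmap φ) (dmap_eqv φ hφ) (fun _ _ => rfl)
      x.1.1 z.1).symm
  exact ((Phi1_mk R hp2 hN (K1map φ hφ x) z hθ).trans (finsum_congr fun q => rfl)).trans
    (Phi1_mk R hp2 hM x z' hθ').symm

end One

end FLTAgent.PT
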