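import Fermat.Agent.PT.Dual.Pair

/-!
Parcel E: the pairing of compactly supported classes of degree 2 with classes of degree 1.
-/

set_option autoImplicit false
set_option linter.style.haveILetI false

noncomputable section

open CategoryTheory groupCohomology

namespace FLTAgent.PT

variable {p : ℕ} [Fact p.Prime] (R : Recip p) {M N : Rep.{0} (ZMod p) GQ}

/-- a cochain at `q` is constant on the cosets of inertia -/
def UnrCst {X : Type} (q : Nat.Primes) (y : Gam q → X) : Prop :=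
  ∀ g s, s ∈ inert q → y (g * s) = y g

theorem UnrCst.add {X : Type} [Add X] {q : Nat.Primes} {y y' : Gam q → X} (h : UnrCst q y)
    (h' : UnrCst q y') : UnrCst q (y + y') :=
  fun g s hs => by rw [Pi.add_apply, Pi.add_apply, h g s hs, h' g s hs]

theorem unrCst_d0 {q : Nat.Primes} (hu : IsUnrAt q M) (m : M) :
    UnrCst q ((d₀₁ (Rep.res (loc q) M)).hom m) := fun g s hs => by
  rw [d₀₁_hom_apply, d₀₁_hom_apply, map_mul]
  show (Rep.res (loc q) M).ρ g (M.ρ (loc q s) m) - m = _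
  rw [hu s hs]
  rfl

/-- almost all localisations of a level-constant cochain are unramified -/
theorem finite_not_unrCst {X : Type} {v : GQ → X} (hv : IsLevelConstant₁ (MonoidHom.id GQ) v) :
    {q : Nat.Primes | ¬UnrCst q (v ∘ loc q)}.Finite := by
  obtain ⟨F, hF, h⟩ := hv
  haveI := hF
  refine (finite_ramified F).subset fun q hq => ?_
  by_contra hcon
  refine hq fun g s hs => ?_
  show v (loc q (g * s)) = v (loc q g)
  rw [map_mul]
  exact h _ _ (by by_contra h'; exact hcon ⟨s, hs, h'⟩)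

/-- classes with compact support in degree 2 -/
def K2 (M : Rep.{0} (ZMod p) GQ) :
    Submodule (ZMod p) ((GQ × GQ → M) × ((q : Nat.Primes) → Gam q → M)) where
  carrier := {x | x.1 ∈ levelCocycles₂ (MonoidHom.id GQ) M ∧
    (∀ q, IsLevelConstant₁ (loc q) (x.2 q) ∧
      (d₁₂ (Rep.res (loc q) M)).hom (x.2 q) = x.1 ∘ Prod.map (loc q) (loc q)) ∧
    {q | ¬UnrCst q (x.2 q)}.Finite}
  add_mem' {x y} hx hy := ⟨add_mem hx.1 hy.1, fun q => ⟨(hx.2.1 q).1.add (hy.2.1 q).1, by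
      rw [Prod.snd_add, Pi.add_apply]
      exact (map_add _ _ _).trans (congrArg₂ (· + ·) (hx.2.1 q).2 (hy.2.1 q).2)⟩,
    (hx.2.2.union hy.2.2).subset fun q hq => by
      by_contra hcon
      rw [Set.mem_union, not_or] at hcon
      exact hq ((not_not.1 hcon.1).add (not_not.1 hcon.2))⟩
  zero_mem' := ⟨zero_mem _, fun q => ⟨isLevelConstant₁_const _ 0, (map_zero _).trans (funext fun _ => rfl)⟩,
    Set.finite_empty.subset fun q hq => hq fun _ _ _ => rfl⟩
  smul_mem' c x hx := ⟨Submodule.smul_mem _ c hx.1, fun q => ⟨(hx.2.1 q).1.comp (c • ·), by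
      rw [Prod.smul_snd, Pi.smul_apply]
      exact (map_smul _ _ _).trans (congrArg (c • ·) (hx.2.1 q).2)⟩,
    hx.2.2.subset fun q hq h => hq fun g s hs => by
      show c • x.2 q (g * s) = c • x.2 q g
      rw [h g s hs]⟩

/-- trivial compactly supported classes -/
def IsTriv2 (x : K2 M) : Prop :=
  ∃ v : GQ → M, IsLevelConstant₁ (MonoidHom.id GQ) v ∧ (d₁₂ M).hom v = x.1.1 ∧
    ∀ q, ∃ m : M, x.1.2 q = v ∘ loc q + (d₀₁ (Rep.res (loc q) M)).hom m

/-- the local cochains of the second pairing -/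
def u2 (q : Nat.Primes) (x : K2 M) (b : Z1 (MonoidHom.id GQ) (dual' M))
    (θ : GQ × GQ → mu p) : Gam q × Gam q → mu p :=
  cup11 (A := Rep.res (loc q) M) (B := Rep.res (loc q) (dual' M)) (C := Rep.res (loc q) (mu p))
      (evM M) (x.1.2 q) (b.1 ∘ loc q) -
    θ ∘ Prod.map (loc q) (loc q)

theorem d_locb (q : Nat.Primes) (b : Z1 (MonoidHom.id GQ) M) :
    (d₁₂ (Rep.res (loc q) M)).hom (b.1 ∘ loc q) = 0 := by
  have h := (pullPush_mem_Z1 (MonoidHom.id GQ) (r' := loc q) (loc q) (fun _ => rfl)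
    (B := Rep.res (loc q) M) (LinearMap.id : M →ₗ[ZMod p] M) (fun _ _ => rfl) b.2).1
  exact h

theorem u2_mem (hM : IsAdm (MonoidHom.id GQ) M) (q : Nat.Primes) (x : K2 M)
    (b : Z1 (MonoidHom.id GQ) (dual' M)) {θ : GQ × GQ → mu p}
    (hθ : IsPrim (cup21 (evM M) x.1.1 b.1) θ) :
    u2 q x b θ ∈ levelCocycles₂ (loc q) (Rep.res (loc q) (mu p)) := by
  refine ⟨?_, isLevel2_sub (cup11_level _ ((isAdm_dual hM).res _) (x.2.2.1 q).1
    (level1_loc b.2.2 q)) (level2_loc hθ.1 q)⟩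
  have hd := d_cup11 (A := Rep.res (loc q) M) (B := Rep.res (loc q) (dual' M))
    (C := Rep.res (loc q) (mu p)) (φ := evM M) (fun g => evM_eqv M (loc q g)) (x.1.2 q)
    (b.1 ∘ loc q)
  rw [(x.2.2.1 q).2, d_locb] at hd
  refine LinearMap.mem_ker.2 (funext fun g => ?_)
  obtain ⟨g, h, k⟩ := g
  rw [u2, map_sub, Pi.sub_apply]
  refine sub_eq_zero.2 ((congrFun hd (g, h, k)).trans ?_)
  have h2 := congrFun hθ.2 (loc q g, loc q h, loc q k)
  rw [d₂₃_hom_apply] at h2
  rw [d₂₃_hom_apply, Pi.sub_apply]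
  simp only [Function.comp_apply, Prod.map_apply, map_mul]
  refine Eq.trans ?_ h2.symm
  simp only [cup21, cup12, Function.comp_apply, Prod.map_apply, map_mul]
  exact (sub_eq_self.2 ((congrArg _ (map_zero _)).trans (map_zero _))).trans rfl

theorem finite_u2 (hM : IsAdm (MonoidHom.id GQ) M) (x : K2 M)
    (b : Z1 (MonoidHom.id GQ) (dual' M)) {θ : GQ × GQ → mu p}
    (hθ : IsPrim (cup21 (evM M) x.1.1 b.1) θ) :
    {q | lclass R q (u2 q x b θ) ≠ 0}.Finite := by
  obtain ⟨F₁, hF₁, h₁⟩ := b.2.2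
  obtain ⟨F₂, hF₂, h₂⟩ := hθ.1
  haveI := hF₁; haveI := hF₂
  refine (((finite_not_unr (isAdm_mu p)).union (finite_ramified (F₁ ⊔ F₂))).union
    ((finite_not_unr (isAdm_dual hM)).union x.2.2.2)).subset fun q hq => ?_
  by_contra hcon
  simp only [Set.mem_union, not_or] at hcon
  have hμ : IsUnrAt q (mu p) := not_not.1 hcon.1.1
  have hM' : IsUnrAt q (dual' M) := not_not.1 hcon.2.1
  have hy : UnrCst q (x.1.2 q) := not_not.1 hcon.2.2
  have hr : ∀ s, s ∈ inert q → loc q s ∈ (F₁ ⊔ F₂).fixingSubgroup := fun s hs => by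
    by_contra h'; exact hcon.1.2 ⟨s, hs, h'⟩
  refine hq (lclass_unr R hμ (u2_mem hM q x b hθ) fun g g' s s' hs hs' => ?_)
  have e1 := IntermediateField.fixingSubgroup_antitone (le_sup_left : F₁ ≤ F₁ ⊔ F₂)
  have e2 := IntermediateField.fixingSubgroup_antitone (le_sup_right : F₂ ≤ F₁ ⊔ F₂)
  simp only [u2, Pi.sub_apply, cup11, Function.comp_apply, Prod.map_apply, map_mul]
  rw [hy g s hs, h₁ (loc q g') (loc q s') (e1 (hr s' hs')),
    h₂ (loc q g) (loc q g') (loc q s) (loc q s') (e2 (hr s hs)) (e2 (hr s' hs'))]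
  have hs1 : (Rep.res (loc q) (dual' M)).ρ s = 1 := hM' s hs
  rw [hs1, mul_one]

/-- the second pairing, with a chosen primitive -/
def v2 (x : K2 M) (b : Z1 (MonoidHom.id GQ) (dual' M)) (θ : GQ × GQ → mu p) : ZMod p :=
  ∑ᶠ q, lclass R q (u2 q x b θ)

theorem v2_indep (hM : IsAdm (MonoidHom.id GQ) M) (x : K2 M)
    (b : Z1 (MonoidHom.id GQ) (dual' M)) {θ θ' : GQ × GQ → mu p}
    (hθ : IsPrim (cup21 (evM M) x.1.1 b.1) θ) (hθ' : IsPrim (cup21 (evM M) x.1.1 b.1) θ') :
    v2 R x b θ = v2 R x b θ' := by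
  have hd : θ - θ' ∈ levelCocycles₂ (MonoidHom.id GQ) (mu p) :=
    ⟨LinearMap.mem_ker.2 (by rw [map_sub, hθ.2, hθ'.2, sub_self]), isLevel2_sub hθ.1 hθ'.1⟩
  obtain ⟨hfin, hsum⟩ := finite_lclass_global R hd
  have key : ∀ q, lclass R q (u2 q x b θ') =
      lclass R q (u2 q x b θ) + lclass R q ((θ - θ') ∘ Prod.map (loc q) (loc q)) := fun q => by
    rw [← lclass_add R (u2_mem hM q x b hθ) (loc2_mem hd q)]
    congr 1
    funext g
    simp only [u2, Pi.add_apply, Pi.sub_apply, Function.comp_apply]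
    abel
  rw [v2, v2, finsum_congr key, finsum_add_distrib (finite_u2 R hM x b hθ) hfin, hsum, add_zero]

theorem exists_prim2 (hp2 : p ≠ 2) (hM : IsAdm (MonoidHom.id GQ) M) (x : K2 M)
    (b : Z1 (MonoidHom.id GQ) (dual' M)) :
    ∃ θ, IsPrim (cup21 (evM M) x.1.1 b.1) θ :=
  exists_primitive3 hp2 (cup21_level (isAdm_dual hM) x.2.1.2 b.2.2)
    (cup21_cocycle (evM_eqv M) x.2.1.1 b.2.1)

/-- the second pairing on cocycles -/
def P2 (hp2 : p ≠ 2) (hM : IsAdm (MonoidHom.id GQ) M) :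
    K2 M →ₗ[ZMod p] Z1 (MonoidHom.id GQ) (dual' M) →ₗ[ZMod p] ZMod p :=
  LinearMap.mk₂ (ZMod p) (fun x c => v2 R x c (exists_prim2 hp2 hM x c).choose)
    (fun x x' c => by
      have h := (exists_prim2 hp2 hM x c).choose_spec
      have h' := (exists_prim2 hp2 hM x' c).choose_spec
      set θ := (exists_prim2 hp2 hM x c).choose
      set θ' := (exists_prim2 hp2 hM x' c).choose
      have hs : IsPrim (cup21 (evM M) (x + x').1.1 c.1) (θ + θ') := by
        convert h.add h' using 1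
        funext g; simp [cup21]
      rw [v2_indep R hM (x + x') c (exists_prim2 hp2 hM (x + x') c).choose_spec hs, v2, v2, v2,
        ← finsum_add_distrib (finite_u2 R hM x c h) (finite_u2 R hM x' c h')]
      refine finsum_congr fun q => ?_
      rw [← lclass_add R (u2_mem hM q x c h) (u2_mem hM q x' c h')]
      congr 1
      funext g; simp [u2, cup11]; abel)
    (fun a x c => by
      have h := (exists_prim2 hp2 hM x c).choose_spec
      set θ := (exists_prim2 hp2 hM x c).choose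
      have hs : IsPrim (cup21 (evM M) (a • x).1.1 c.1) (a • θ) := by
        convert h.smul a using 1
        funext g; simp [cup21]
      rw [v2_indep R hM (a • x) c (exists_prim2 hp2 hM (a • x) c).choose_spec hs, v2, v2,
        smul_eq_mul, mul_finsum' _ _ (finite_u2 R hM x c h)]
      refine finsum_congr fun q => ?_
      rw [← lclass_smul R a (u2_mem hM q x c h)]
      congr 1
      funext g; simp [u2, cup11, mul_sub])
    (fun x c c' => by
      have h := (exists_prim2 hp2 hM x c).choose_spec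
      have h' := (exists_prim2 hp2 hM x c').choose_spec
      set θ := (exists_prim2 hp2 hM x c).choose
      set θ' := (exists_prim2 hp2 hM x c').choose
      have hs : IsPrim (cup21 (evM M) x.1.1 (c + c').1) (θ + θ') := by
        convert h.add h' using 1
        funext g; simp [cup21]
      rw [v2_indep R hM x (c + c') (exists_prim2 hp2 hM x (c + c')).choose_spec hs, v2, v2, v2,
        ← finsum_add_distrib (finite_u2 R hM x c h) (finite_u2 R hM x c' h')]
      refine finsum_congr fun q => ?_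
      rw [← lclass_add R (u2_mem hM q x c h) (u2_mem hM q x c' h')]
      congr 1
      funext g; simp [u2, cup11]; abel)
    (fun a x c => by
      have h := (exists_prim2 hp2 hM x c).choose_spec
      set θ := (exists_prim2 hp2 hM x c).choose
      have hs : IsPrim (cup21 (evM M) x.1.1 (a • c).1) (a • θ) := by
        convert h.smul a using 1
        funext g; simp [cup21]
      rw [v2_indep R hM x (a • c) (exists_prim2 hp2 hM x (a • c)).choose_spec hs, v2, v2,
        smul_eq_mul, mul_finsum' _ _ (finite_u2 R hM x c h)]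
      refine finsum_congr fun q => ?_
      rw [← lclass_smul R a (u2_mem hM q x c h)]
      congr 1
      funext g; simp [u2, cup11, mul_sub])

theorem P2_eq (hp2 : p ≠ 2) (hM : IsAdm (MonoidHom.id GQ) M) (x : K2 M)
    (b : Z1 (MonoidHom.id GQ) (dual' M)) {θ : GQ × GQ → mu p}
    (hθ : IsPrim (cup21 (evM M) x.1.1 b.1) θ) : P2 R hp2 hM x b = v2 R x b θ :=
  v2_indep R hM x b (exists_prim2 hp2 hM x b).choose_spec hθ

theorem P2_coboundary (hp2 : p ≠ 2) (hM : IsAdm (MonoidHom.id GQ) M) (x : K2 M)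
    (b : Z1 (MonoidHom.id GQ) (dual' M)) (hb : b.1 ∈ B1 (dual' M)) :
    P2 R hp2 hM x b = 0 := by
  obtain ⟨m, hm⟩ := mem_B1_iff.1 hb
  have hb' : (d₀₁ (dual' M)).hom m = b.1 := funext fun g => by rw [d₀₁_hom_apply]; exact hm g
  have hθ : IsPrim (cup21 (evM M) x.1.1 b.1) (cup20 (evM M) x.1.1 m) := by
    refine ⟨cup20_level (isAdm_dual hM) x.2.1.2 m, ?_⟩
    rw [d_cup20 (evM_eqv M) x.2.1.1, hb']
  rw [P2_eq R hp2 hM x b hθ, v2]
  refine finsum_eq_zero_of_forall_eq_zero fun q => lclass_coboundary R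
    (isLevel1_neg (cup10_level (A := Rep.res (loc q) M) (B := Rep.res (loc q) (dual' M))
      (C := Rep.res (loc q) (mu p)) (φ := evM M) ((isAdm_dual hM).res _) (x.2.2.1 q).1 m)) ?_
  rw [map_neg, d_cup10 (A := Rep.res (loc q) M) (B := Rep.res (loc q) (dual' M))
    (C := Rep.res (loc q) (mu p)) (φ := evM M) (fun g => evM_eqv M (loc q g)), (x.2.2.1 q).2]
  funext ⟨g, h⟩
  simp only [u2, Pi.sub_apply, Pi.neg_apply, cup20, cup11, Function.comp_apply, Prod.map_apply,
    d₀₁_hom_apply, neg_sub, ← hm, map_mul]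
  rfl

/-- the second pairing `Φ₂` -/
def Phi2 (hp2 : p ≠ 2) (hM : IsAdm (MonoidHom.id GQ) M) :
    K2 M →ₗ[ZMod p] Module.Dual (ZMod p) (cH1 (MonoidHom.id GQ) (dual' M)) where
  toFun x := Submodule.liftQ _ (P2 R hp2 hM x) fun c hc =>
    LinearMap.mem_ker.2 (P2_coboundary R hp2 hM x c hc)
  map_add' x y := Submodule.linearMap_qext _ (LinearMap.ext fun c => by simp)
  map_smul' a x := Submodule.linearMap_qext _ (LinearMap.ext fun c => by simp)

theorem Phi2_mk (hp2 : p ≠ 2) (hM : IsAdm (MonoidHom.id GQ) M) (x : K2 M)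
    (b : Z1 (MonoidHom.id GQ) (dual' M)) {θ : GQ × GQ → mu p}
    (hθ : IsPrim (cup21 (evM M) x.1.1 b.1) θ) :
    Phi2 R hp2 hM x (h1mk _ _ b) = v2 R x b θ := P2_eq R hp2 hM x b hθ

theorem Phi2_triv (hp2 : p ≠ 2) (hM : IsAdm (MonoidHom.id GQ) M) {x : K2 M} (hx : IsTriv2 x) :
    Phi2 R hp2 hM x = 0 := by
  obtain ⟨v, hv, hdv, hy⟩ := hx
  refine Submodule.linearMap_qext _ (LinearMap.ext fun b => ?_)
  have hθ : IsPrim (cup21 (evM M) x.1.1 b.1) (cup11 (evM M) v b.1) := by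
    refine ⟨cup11_level _ (isAdm_dual hM) hv b.2.2, ?_⟩
    rw [d_cup11 (evM_eqv M), hdv, show (d₁₂ (dual' M)).hom b.1 = 0 from b.2.1]
    funext g
    simp only [Pi.sub_apply, cup12]
    rw [sub_eq_self]
    exact (congrArg _ (map_zero _)).trans (map_zero _)
  refine (Phi2_mk R hp2 hM x b hθ).trans (finsum_eq_zero_of_forall_eq_zero fun q => ?_)
  obtain ⟨m, hm⟩ := hy q
  refine lclass_coboundary R (cup01_level (A := Rep.res (loc q) M)
    (B := Rep.res (loc q) (dual' M)) (C := Rep.res (loc q) (mu p)) (φ := evM M) m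
    (level1_loc b.2.2 q)) ?_
  rw [d_cup01 (A := Rep.res (loc q) M) (B := Rep.res (loc q) (dual' M))
    (C := Rep.res (loc q) (mu p)) (φ := evM M) (fun g => evM_eqv M (loc q g)), d_locb]
  funext ⟨g, h⟩
  simp only [u2, hm, Pi.sub_apply, Pi.add_apply, cup02, cup11, Function.comp_apply,
    Prod.map_apply, map_add, LinearMap.add_apply]
  show _ + evM M m (0 : dual' M) = _
  rw [map_zero (evM M m)]
  exact (add_zero _).trans (eq_sub_of_add_eq (add_comm _ _))

/-- pairs `(0, z)` -/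
theorem Phi2_zero_left (hp2 : p ≠ 2) (hM : IsAdm (MonoidHom.id GQ) M) (x : K2 M) (hx : x.1.1 = 0)
    (b : cH1 (MonoidHom.id GQ) (dual' M)) :
    Phi2 R hp2 hM x b = ∑ᶠ q, R.inv q (pair11 q hM (h1mk (loc q) (Rep.res (loc q) M)
      ⟨x.1.2 q, LinearMap.mem_ker.2 (((x.2.2.1 q).2).trans (by rw [hx]; rfl)),
        (x.2.2.1 q).1⟩) (res1 q (dual' M) b)) := by
  obtain ⟨z, rfl⟩ := Submodule.mkQ_surjective _ b
  have hθ : IsPrim (cup21 (evM M) x.1.1 z.1) 0 := by
    refine ⟨isLevelConstant₂_const _ 0, ?_⟩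
    rw [map_zero, hx]
    funext g
    simp only [cup21, Pi.zero_apply]
    rw [map_zero (evM M), LinearMap.zero_apply]
    rfl
  refine (Phi2_mk R hp2 hM x z hθ).trans (finsum_congr fun q => ?_)
  rw [lclass_eq R (u2_mem hM q x z hθ)]
  refine congrArg (R.inv q) (congrArg (Submodule.mkQ _) (Subtype.ext (funext fun g => ?_)))
  obtain ⟨g, h⟩ := g
  simp [u2, cup11]

/-- functoriality of `K2` -/
def K2map (φ : M →ₗ[ZMod p] N) (hφ : ∀ g m, φ (M.ρ g m) = N.ρ g (φ m)) :
    K2 M →ₗ[ZMod p] K2 N where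
  toFun x := ⟨(fun g => φ (x.1.1 g), fun q g => φ (x.1.2 q g)),
    cochainsPullPush₂_mem_levelCocycles₂ (MonoidHom.id GQ) (fun _ => rfl) φ hφ x.2.1,
    fun q => ⟨(x.2.2.1 q).1.comp φ, by
      funext ⟨g, h⟩
      have h1 := congrArg φ (congrFun (x.2.2.1 q).2 (g, h))
      rw [d₁₂_hom_apply, map_add φ, map_sub φ] at h1
      rw [d₁₂_hom_apply]
      show N.ρ (loc q g) (φ _) - _ + _ = _
      rw [← hφ]
      exact h1⟩,
    x.2.2.2.subset fun q hq hu => hq fun g s hs => congrArg φ (hu g s hs)⟩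
  map_add' x y := by ext <;> simp
  map_smul' c x := by ext <;> simp

theorem Phi2_map (hp2 : p ≠ 2) (hM : IsAdm (MonoidHom.id GQ) M) (hN : IsAdm (MonoidHom.id GQ) N)
    (φ : M →ₗ[ZMod p] N) (hφ : ∀ g m, φ (M.ρ g m) = N.ρ g (φ m)) (x : K2 M)
    (b : cH1 (MonoidHom.id GQ) (dual' N)) :
    Phi2 R hp2 hN (K2map φ hφ x) b =
      Phi2 R hp2 hM x (h1push (MonoidHom.id GQ) (dmap φ) (dmap_eqv φ hφ) b) := by
  obtain ⟨z, rfl⟩ := Submodule.mkQ_surjective _ b
  obtain ⟨θ, hθ⟩ := exists_prim2 hp2 hN (K2map φ hφ x) z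
  set z' : Z1 (MonoidHom.id GQ) (dual' M) := ⟨_, pullPush_mem_Z1 (MonoidHom.id GQ)
    (MonoidHom.id GQ) (fun _ => rfl) (dmap φ) (dmap_eqv φ hφ) z.2⟩
  have hθ' : IsPrim (cup21 (evM M) x.1.1 z'.1) θ := by
    convert hθ using 1
    exact (cup21_adjoint (φ := evM M) (φ' := evM N) φ (dmap φ) (dmap_eqv φ hφ) (fun _ _ => rfl)
      x.1.1 z.1).symm
  refine ((Phi2_mk R hp2 hN (K2map φ hφ x) z hθ).trans (finsum_congr fun q => ?_)).trans
    (Phi2_mk R hp2 hM x z' hθ').symm
  congr 1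
  funext ⟨g, h⟩
  simp only [u2, Pi.sub_apply, cup11, Function.comp_apply]
  congr 1
  show evM M (x.1.2 q g) (dmap φ ((dual' N).ρ (loc q g) (z.1 (loc q h)))) = _
  rw [dmap_eqv φ hφ]
  rfl

end FLTAgent.PT
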