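import Fermat.Agent.PT.Dual.Basic

/-!
Parcel E (base, free of the global interface): permutation modules below `ker ω`, transport along isomorphisms, adjointness of the
pairings.
-/

set_option autoImplicit false
set_option linter.style.haveILetI false

noncomputable section

open CategoryTheory groupCohomology

namespace FLTAgent.PT

variable {p : ℕ} [Fact p.Prime]

section General

variable {G : Type} [Group G] {r : G →* GQ} {A B C : Rep.{0} (ZMod p) G}

theorem h1push_id (x : cH1 r A) : h1push r (LinearMap.id : A →ₗ[ZMod p] A) (fun _ _ => rfl) x = x := by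
  obtain ⟨z, rfl⟩ := Submodule.mkQ_surjective _ x
  rfl

theorem h1push_comp (f : A →ₗ[ZMod p] B) (g : B →ₗ[ZMod p] C)
    (hf : ∀ x a, f (A.ρ x a) = B.ρ x (f a)) (hg : ∀ x b, g (B.ρ x b) = C.ρ x (g b)) (x : cH1 r A) :
    h1push r g hg (h1push r f hf x) =
      h1push r (g ∘ₗ f) (fun y a => by simp [hf, hg]) x := by
  obtain ⟨z, rfl⟩ := Submodule.mkQ_surjective _ x
  rfl

theorem h2push_comp (f : A →ₗ[ZMod p] B) (g : B →ₗ[ZMod p] C)
    (hf : ∀ x a, f (A.ρ x a) = B.ρ x (f a)) (hg : ∀ x b, g (B.ρ x b) = C.ρ x (g b)) (x : cH2 r A) :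
    h2push r g hg (h2push r f hf x) =
      h2push r (g ∘ₗ f) (fun y a => by simp [hf, hg]) x := by
  obtain ⟨z, rfl⟩ := Submodule.mkQ_surjective _ x
  rfl

theorem h1push_congr {f g : A →ₗ[ZMod p] B} (h : f = g)
    (hf : ∀ x a, f (A.ρ x a) = B.ρ x (f a)) (hg : ∀ x a, g (A.ρ x a) = B.ρ x (g a)) (x : cH1 r A) :
    h1push r f hf x = h1push r g hg x := by subst h; rfl

theorem h2push_congr {f g : A →ₗ[ZMod p] B} (h : f = g)
    (hf : ∀ x a, f (A.ρ x a) = B.ρ x (f a)) (hg : ∀ x a, g (A.ρ x a) = B.ρ x (g a)) (x : cH2 r A) :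
    h2push r f hf x = h2push r g hg x := by subst h; rfl

theorem h2push_retract (f : A →ₗ[ZMod p] B) (g : B →ₗ[ZMod p] A)
    (hf : ∀ x a, f (A.ρ x a) = B.ρ x (f a)) (hg : ∀ x b, g (B.ρ x b) = A.ρ x (g b))
    (hgf : ∀ a, g (f a) = a) (x : cH2 r A) : h2push r g hg (h2push r f hf x) = x := by
  obtain ⟨z, rfl⟩ := Submodule.mkQ_surjective _ x
  refine congrArg (Submodule.mkQ _) (Subtype.ext (funext fun y => ?_))
  exact hgf _

theorem h1push_retract (f : A →ₗ[ZMod p] B) (g : B →ₗ[ZMod p] A)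
    (hf : ∀ x a, f (A.ρ x a) = B.ρ x (f a)) (hg : ∀ x b, g (B.ρ x b) = A.ρ x (g b))
    (hgf : ∀ a, g (f a) = a) (x : cH1 r A) : h1push r g hg (h1push r f hf x) = x := by
  obtain ⟨z, rfl⟩ := Submodule.mkQ_surjective _ x
  refine congrArg (Submodule.mkQ _) (Subtype.ext (funext fun y => ?_))
  exact hgf _

theorem cupH02_adjoint {A' B' : Rep.{0} (ZMod p) G} {φ : A →ₗ[ZMod p] B →ₗ[ZMod p] C}
    {φ' : A' →ₗ[ZMod p] B' →ₗ[ZMod p] C} (hφ : IsEqv φ) (hφ' : IsEqv φ')
    (f : A →ₗ[ZMod p] A') (f' : B' →ₗ[ZMod p] B)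
    (hf : ∀ g x, f (A.ρ g x) = A'.ρ g (f x)) (hf' : ∀ g x, f' (B'.ρ g x) = B.ρ g (f' x))
    (h : ∀ x y, φ' (f x) y = φ x (f' y)) (n : cH0 A) (c : cH2 r B') :
    cupH02 r φ' hφ' ⟨f n.1, fun g => by rw [← hf, n.2 g]⟩ c =
      cupH02 r φ hφ n (h2push r f' hf' c) := by
  obtain ⟨z, rfl⟩ := Submodule.mkQ_surjective _ c
  refine congrArg (Submodule.mkQ _) (Subtype.ext (funext fun y => ?_))
  exact h n.1 (z.1 y)

end General

section Loc

variable {M N : Rep.{0} (ZMod p) GQ} (φ : M →ₗ[ZMod p] N)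
  (hφ : ∀ g m, φ (M.ρ g m) = N.ρ g (φ m)) (q : Nat.Primes)

/-- `φ_*` on local classes of degree 1 -/
abbrev lpush1 : lH1 q M →ₗ[ZMod p] lH1 q N :=
  h1push (loc q) (A := Rep.res (loc q) M) (B := Rep.res (loc q) N) φ fun g m => hφ (loc q g) m

/-- `φ_*` on local classes of degree 2 -/
abbrev lpush2 : lH2 q M →ₗ[ZMod p] lH2 q N :=
  h2push (loc q) (A := Rep.res (loc q) M) (B := Rep.res (loc q) N) φ fun g m => hφ (loc q g) m

theorem res1_push (x : cH1 (MonoidHom.id GQ) M) :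
    res1 q N (h1push (MonoidHom.id GQ) φ hφ x) = lpush1 φ hφ q (res1 q M x) := by
  obtain ⟨z, rfl⟩ := Submodule.mkQ_surjective _ x
  rfl

theorem res2_push (x : cH2 (MonoidHom.id GQ) M) :
    res2 q N (h2push (MonoidHom.id GQ) φ hφ x) = lpush2 φ hφ q (res2 q M x) := by
  obtain ⟨z, rfl⟩ := Submodule.mkQ_surjective _ x
  rfl

include hφ in
theorem unr1_push {x : lH1 q M} (hx : x ∈ unr1 q M) : lpush1 φ hφ q x ∈ unr1 q N := by
  obtain ⟨z, hz, rfl⟩ := hx
  exact ⟨⟨_, pullPush_mem_Z1 (loc q) (MonoidHom.id _) (fun _ => rfl) φ (fun g m => hφ (loc q g) m)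
    z.2⟩, fun s hs => by
      show φ (z.1 s) = 0
      rw [hz s hs, map_zero], rfl⟩

include hφ in
theorem H1T_push (T : Finset Nat.Primes) {x : cH1 (MonoidHom.id GQ) M} (hx : x ∈ H1T T M) :
    h1push (MonoidHom.id GQ) φ hφ x ∈ H1T T N := by
  simp only [H1T, Submodule.mem_iInf, Submodule.mem_comap] at hx ⊢
  intro q hq
  rw [res1_push]
  exact unr1_push φ hφ q (hx q hq)

end Loc

section Perm

variable (H : Subgroup GQ)

/-- the character on the cosets -/
def chiQ (hω : ∀ h ∈ H, ExtCitation.cycloChar p h = 1) (x : GQ ⧸ H) : ZMod p :=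
  Quotient.liftOn' x (fun g => (ExtCitation.cycloChar p g : ZMod p)) fun a b hab => by
    rw [QuotientGroup.leftRel_apply] at hab
    have h := hω _ hab
    rw [map_mul, map_inv, inv_mul_eq_one] at h
    simp only [h]

variable {H} (hω : ∀ h ∈ H, ExtCitation.cycloChar p h = 1)

theorem chiQ_mk (g : GQ) : chiQ H hω (g : GQ ⧸ H) = (ExtCitation.cycloChar p g : ZMod p) := rfl

theorem chiQ_smul (g : GQ) (x : GQ ⧸ H) :
    chiQ H hω (g • x) = (ExtCitation.cycloChar p g : ZMod p) * chiQ H hω x := by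
  induction x using QuotientGroup.induction_on with
  | H a =>
    show (ExtCitation.cycloChar p (g * a) : ZMod p) = _
    rw [map_mul, Units.val_mul]
    rfl

theorem chiQ_ne_zero (x : GQ ⧸ H) : chiQ H hω x ≠ 0 := by
  induction x using QuotientGroup.induction_on with
  | H a => exact Units.ne_zero _

/-- `Map(G/H, 𝔽_p) ≅ Map(G/H, μ_p)` -/
def twistMu : ind H (one p) →ₗ[ZMod p] ind H (mu p) where
  toFun f x := chiQ H hω x * f x
  map_add' f f' := funext fun x => mul_add _ _ _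
  map_smul' c f := funext fun x => mul_left_comm _ _ _

/-- its inverse -/
def untwistMu : ind H (mu p) →ₗ[ZMod p] ind H (one p) where
  toFun f x := (chiQ H hω x)⁻¹ * f x
  map_add' f f' := funext fun x => mul_add _ _ _
  map_smul' c f := funext fun x => mul_left_comm _ _ _

theorem twistMu_eqv (g : GQ) (f : ind H (one p)) :
    twistMu hω ((ind H (one p)).ρ g f) = (ind H (mu p)).ρ g (twistMu hω f) := by
  funext x
  show chiQ H hω x * f (g⁻¹ • x) =
    (ExtCitation.cycloChar p g : ZMod p) • (chiQ H hω (g⁻¹ • x) * f (g⁻¹ • x))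
  rw [smul_eq_mul, ← mul_assoc, ← chiQ_smul, smul_inv_smul]

theorem untwist_twist (f : ind H (one p)) : untwistMu hω (twistMu hω f) = f := by
  funext x
  show (chiQ H hω x)⁻¹ * (chiQ H hω x * f x) = f x
  rw [← mul_assoc, inv_mul_cancel₀ (chiQ_ne_zero hω x), one_mul]

theorem twist_untwist (f : ind H (mu p)) : twistMu hω (untwistMu hω f) = f := by
  funext x
  show chiQ H hω x * ((chiQ H hω x)⁻¹ * f x) = f x
  rw [← mul_assoc, mul_inv_cancel₀ (chiQ_ne_zero hω x), one_mul]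

theorem untwistMu_eqv (g : GQ) (f : ind H (mu p)) :
    untwistMu hω ((ind H (mu p)).ρ g f) = (ind H (one p)).ρ g (untwistMu hω f) := by
  conv_lhs => rw [← twist_untwist hω f, ← twistMu_eqv, untwist_twist]

theorem indSum_eqv [Finite (GQ ⧸ H)] (N : Rep.{0} (ZMod p) GQ) (g : GQ) (f : ind H N) :
    indSum H N ((ind H N).ρ g f) = N.ρ g (indSum H N f) := by
  letI := Fintype.ofFinite (GQ ⧸ H)
  show ∑ x, N.ρ g (f (g⁻¹ • x)) = N.ρ g (∑ x, f x)
  rw [map_sum]
  exact Fintype.sum_equiv (MulAction.toPerm g⁻¹) _ _ fun x => rfl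

variable (H) in
open scoped Classical in
/-- the delta function at a coset -/
def deltaFn (x : GQ ⧸ H) : ind H (one p) := fun y => if y = x then (1 : ZMod p) else 0

open scoped Classical in
theorem deltaFn_apply (x y : GQ ⧸ H) :
    deltaFn (p := p) H x y = if y = x then (1 : ZMod p) else 0 := rfl

theorem sum_smul_deltaFn [Fintype (GQ ⧸ H)] (v : ind H (one p)) :
    v = ∑ x, v x • deltaFn H x := by
  classical
  funext y
  show v y = (∑ x, (fun z => v x • deltaFn (p := p) H x z : (GQ ⧸ H) → ZMod p)) y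
  rw [Finset.sum_apply]
  simp [deltaFn_apply]

theorem smul_deltaFn (g : GQ) (x : GQ ⧸ H) :
    (ind H (one p)).ρ g (deltaFn H x) = deltaFn H (g • x) := by
  classical
  funext y
  show deltaFn (p := p) H x (g⁻¹ • y) = deltaFn (p := p) H (g • x) y
  rw [deltaFn_apply, deltaFn_apply]
  simp only [inv_smul_eq_iff]

variable (H) in
/-- `Map(G/H, 𝔽_p)' → Map(G/H, μ_p)` -/
def permDual : dual' (ind H (one p)) →ₗ[ZMod p] ind H (mu p) where
  toFun f x := f (deltaFn H x)
  map_add' f f' := rfl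
  map_smul' c f := rfl

theorem permDual_eqv (g : GQ) (f : dual' (ind H (one p))) :
    permDual H ((dual' (ind H (one p))).ρ g f) = (ind H (mu p)).ρ g (permDual H f) := by
  funext x
  show (ExtCitation.cycloChar p g : ZMod p) • f ((ind H (one p)).ρ g⁻¹ (deltaFn H x)) =
    (ExtCitation.cycloChar p g : ZMod p) • f (deltaFn H (g⁻¹ • x))
  rw [smul_deltaFn]

theorem permDual_bijective [Finite (GQ ⧸ H)] : Function.Bijective (permDual (p := p) H) := by
  classical
  letI := Fintype.ofFinite (GQ ⧸ H)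
  refine ⟨fun f f' h => LinearMap.ext fun v => ?_,
    fun w => ⟨∑ x, w x • LinearMap.proj x, funext fun x => ?_⟩⟩
  · rw [sum_smul_deltaFn v, map_sum f, map_sum f']
    refine Finset.sum_congr rfl fun x _ => ?_
    rw [map_smul f, map_smul f']
    exact congrArg _ (congrFun h x)
  · show (∑ y, w y • (LinearMap.proj y : ((GQ ⧸ H) → ZMod p) →ₗ[ZMod p] ZMod p))
      (deltaFn (p := p) H x) = w x
    simp [deltaFn_apply]

end Perm

section Push

variable {K H : Subgroup GQ}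

/-- `Map(G/K, 𝔽_p) → M`, `δ_x ↦ x v`, for `v` fixed by `K` -/
def fromPerm [Finite (GQ ⧸ K)] (M : Rep.{0} (ZMod p) GQ) (v : M) (hv : ∀ k ∈ K, M.ρ k v = v) :
    ind K (one p) →ₗ[ZMod p] M :=
  letI := Fintype.ofFinite (GQ ⧸ K)
  ∑ x : GQ ⧸ K, (LinearMap.proj x : ((GQ ⧸ K) → ZMod p) →ₗ[ZMod p] ZMod p).smulRight
    (Quotient.liftOn' x (fun g => M.ρ g v) fun a b hab => by
      rw [QuotientGroup.leftRel_apply] at hab
      have h := congrArg (M.ρ a) (hv _ hab)
      rw [← Module.End.mul_apply, ← map_mul, mul_inv_cancel_left] at h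
      exact h.symm)

theorem fromPerm_apply [Fintype (GQ ⧸ K)] (M : Rep.{0} (ZMod p) GQ) (v : M)
    (hv : ∀ k ∈ K, M.ρ k v = v) (f : ind K (one p)) :
    fromPerm M v hv f = ∑ x : GQ ⧸ K, f x • M.ρ (Quotient.out x) v := by
  show (fromPerm M v hv) f = _
  rw [fromPerm]
  convert rfl using 2
  · rw [LinearMap.sum_apply]
    refine Finset.sum_congr (by congr 1; exact Subsingleton.elim _ _) fun x _ => ?_
    rw [LinearMap.smulRight_apply]
    exact congrArg (f x • ·) (congrArg (fun y => Quotient.liftOn' y (fun g => M.ρ g v) _)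
      (Quotient.out_eq' x))

theorem fromPerm_eqv [Finite (GQ ⧸ K)] (M : Rep.{0} (ZMod p) GQ) (v : M)
    (hv : ∀ k ∈ K, M.ρ k v = v) (g : GQ) (f : ind K (one p)) :
    fromPerm M v hv ((ind K (one p)).ρ g f) = M.ρ g (fromPerm M v hv f) := by
  letI := Fintype.ofFinite (GQ ⧸ K)
  rw [fromPerm_apply, fromPerm_apply, map_sum]
  refine Fintype.sum_equiv (MulAction.toPerm g⁻¹) _ _ fun x => ?_
  show f (g⁻¹ • x) • M.ρ (Quotient.out x) v =
    M.ρ g (f (g⁻¹ • x) • M.ρ (Quotient.out (g⁻¹ • x)) v)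
  rw [map_smul, ← Module.End.mul_apply, ← map_mul]
  congr 1
  have h1 : ((Quotient.out x : GQ) : GQ ⧸ K) = ((g * Quotient.out (g⁻¹ • x) : GQ) : GQ ⧸ K) := by
    rw [QuotientGroup.out_eq']
    show x = g • ((Quotient.out (g⁻¹ • x) : GQ) : GQ ⧸ K)
    rw [QuotientGroup.out_eq', smul_inv_smul]
  have h2 := hv _ (QuotientGroup.eq.1 h1)
  conv_rhs => rw [show g * Quotient.out (g⁻¹ • x) =
    Quotient.out x * ((Quotient.out x)⁻¹ * (g * Quotient.out (g⁻¹ • x))) by group, map_mul,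
    Module.End.mul_apply, h2]

theorem fromPerm_deltaFn [Finite (GQ ⧸ K)] (M : Rep.{0} (ZMod p) GQ) (v : M)
    (hv : ∀ k ∈ K, M.ρ k v = v) (g : GQ) :
    fromPerm M v hv (deltaFn K (g : GQ ⧸ K)) = M.ρ g v := by
  classical
  letI := Fintype.ofFinite (GQ ⧸ K)
  rw [fromPerm_apply, Finset.sum_eq_single (g : GQ ⧸ K)]
  · have h1 : deltaFn (p := p) K (g : GQ ⧸ K) (g : GQ ⧸ K) = (1 : ZMod p) := by
      simp [deltaFn_apply]
    rw [h1, one_smul]
    have h2 := hv _ (QuotientGroup.eq.1 (QuotientGroup.out_eq' (g : GQ ⧸ K)).symm)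
    conv_lhs => rw [show (Quotient.out (g : GQ ⧸ K) : GQ) =
      g * (g⁻¹ * Quotient.out (g : GQ ⧸ K)) by group, map_mul, Module.End.mul_apply, h2]
  · intro x _ hx
    have h1 : deltaFn (p := p) K (g : GQ ⧸ K) x = (0 : ZMod p) := by
      simp [deltaFn_apply, hx]
    rw [h1, zero_smul]
  · intro h
    exact absurd (Finset.mem_univ _) h

theorem linearMap_perm_ext [Finite (GQ ⧸ K)] {V : Type} [AddCommGroup V] [Module (ZMod p) V]
    {f f' : ind K (one p) →ₗ[ZMod p] V}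
    (h : ∀ g : GQ, f (deltaFn K (g : GQ ⧸ K)) = f' (deltaFn K (g : GQ ⧸ K))) : f = f' := by
  classical
  letI := Fintype.ofFinite (GQ ⧸ K)
  refine LinearMap.ext fun v => ?_
  rw [sum_smul_deltaFn v, map_sum, map_sum]
  refine Finset.sum_congr rfl fun x _ => ?_
  induction x using QuotientGroup.induction_on with
  | H g => rw [map_smul f, map_smul f', h g]

end Push

end FLTAgent.PT
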