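import Fermat.Agent.PT.GlobalAPI
import Fermat.Agent.PT.Dual.PermBase

/-!
Parcel E: permutation modules below `ker ω`; the content lives in `Dual/PermBase.lean`, which does
not depend on the global interface and is used by the local parcels too.
-/
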