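import Fermat.Agent.PT.Dual.LinAlg
import Fermat.Agent.PT.Global.Units

/-!
Parcel E: the values of the Kummer classes on inertia away from `p`.
-/

set_option autoImplicit false
set_option linter.style.haveILetI false
set_option linter.unusedSectionVars false

noncomputable section

open CategoryTheory groupCohomology IntermediateField

namespace FLTAgent.PT

/-- the algebraic closure of `ℚ` -/
local notation "Qb" => AlgebraicClosure ℚ

variable {p : ℕ} [Fact p.Prime] {H : Subgroup GQ}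

theorem zeta_zpow (n : ℤ) : zeta p ^ n = zeta p ^ ((n : ZMod p)).val := by
  haveI : NeZero p := ⟨(Fact.out : p.Prime).ne_zero⟩
  rw [← zpow_natCast (zeta p) ((n : ZMod p)).val, ← div_eq_one_iff_eq (zpow_ne_zero _ zeta_ne_zero),
    ← zpow_sub₀ zeta_ne_zero, zeta_spec.zpow_eq_one_iff_dvd, ← ZMod.intCast_zmod_eq_zero_iff_dvd,
    Int.cast_sub, Int.cast_natCast, ZMod.natCast_zmod_val, sub_self]

theorem exists_tauRam (p : ℕ) [Fact p.Prime] (q : Nat.Primes) :
    ∃ r : Qb, r ^ p = ((q : ℕ) : Qb) ∧ ∀ σ : GQ, ∃ i : ZMod p, σ r = zeta p ^ i.val * r := by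
  haveI : NeZero p := ⟨(Fact.out : p.Prime).ne_zero⟩
  obtain ⟨r, hr⟩ := IsAlgClosed.exists_pow_nat_eq ((q : ℕ) : Qb) (Fact.out : p.Prime).pos
  refine ⟨r, hr, fun σ => ?_⟩
  have hr0 : r ≠ 0 := fun h => Nat.cast_ne_zero.mpr q.2.ne_zero (by
    rw [← hr, h, zero_pow (NeZero.ne p)])
  obtain ⟨i, hi, he⟩ := zeta_spec.eq_pow_of_pow_eq_one (ξ := σ r / r) (k := p)
    (by rw [div_pow, ← map_pow, hr, map_natCast, div_self (Nat.cast_ne_zero.mpr q.2.ne_zero)])
  exact ⟨(i : ZMod p), by rw [ZMod.val_natCast_of_lt hi, he, div_mul_cancel₀ _ hr0]⟩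

/-- a fixed `p`-th root of `q` -/
def qRoot (p : ℕ) [Fact p.Prime] (q : Nat.Primes) : Qb := (exists_tauRam p q).choose

/-- the exponent by which `σ` moves the root of `q` -/
def tauRam (p : ℕ) [Fact p.Prime] (q : Nat.Primes) (σ : GQ) : ZMod p :=
  ((exists_tauRam p q).choose_spec.2 σ).choose

theorem qRoot_pow (q : Nat.Primes) : qRoot p q ^ p = ((q : ℕ) : Qb) :=
  (exists_tauRam p q).choose_spec.1

theorem gal_qRoot (q : Nat.Primes) (σ : GQ) :
    σ (qRoot p q) = zeta p ^ (tauRam p q σ).val * qRoot p q :=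
  ((exists_tauRam p q).choose_spec.2 σ).choose_spec

theorem qRoot_ne_zero (q : Nat.Primes) : qRoot p q ≠ 0 := fun h =>
  Nat.cast_ne_zero.mpr q.2.ne_zero (by
    rw [← qRoot_pow (p := p) q, h, zero_pow (Fact.out : p.Prime).ne_zero])

/-- roots of unity of `p`-power order are distinct modulo a place away from `p` -/
theorem root_residue {q : Nat.Primes} (hq : (q : ℕ) ≠ p) {ξ : Qb} {k : ℕ}
    (h1 : ξ ^ p ^ k = 1) (h : (plc q).valuation (ξ - 1) < 1) : ξ = 1 := by
  haveI : NeZero p := ⟨(Fact.out : p.Prime).ne_zero⟩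
  induction k with
  | zero => simpa using h1
  | succ k ih =>
    have hle : (plc q).valuation ξ ≤ 1 := le_of_eq ((pow_eq_one_iff_left
      (pow_ne_zero _ (Fact.out : p.Prime).ne_zero)).mp (by rw [← map_pow, h1, map_one]))
    have hlt : ∀ j : ℕ, (plc q).valuation (ξ ^ j - 1) < 1 := fun j => by
      induction j with
      | zero => simp
      | succ j ihj =>
        rw [show ξ ^ (j + 1) - 1 = ξ * (ξ ^ j - 1) + (ξ - 1) by ring]
        refine lt_of_le_of_lt (Valuation.map_add _ _ _) (max_lt ?_ h)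
        rw [map_mul]
        exact lt_of_le_of_lt (mul_le_of_le_one_left' hle) ihj
    refine ih ?_
    obtain ⟨i, -, hi⟩ := zeta_spec.eq_pow_of_pow_eq_one (ξ := ξ ^ p ^ k) (k := p)
      (by rw [← pow_mul, ← pow_succ, h1])
    rw [← hi]
    exact zeta_residue hq (by rw [hi]; exact hlt _)

/-- inertia fixes the roots of units -/
theorem inert_fix_root {q : Nat.Primes} (hq : (q : ℕ) ≠ p) {s : Gam q} (hs : s ∈ inert q) {u ξ : Qb}
    {k : ℕ} (hu : (plc q).valuation u = 1) (hξ : ξ ^ p ^ k = 1) (hsu : loc q s u = ξ * u) :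
    ξ = 1 := by
  refine root_residue hq hξ ?_
  have h' := FLTAgent.Common.inertia_apply_sub_mem (V := plc q) (σ := loc q s) hs
    (c := u) (((plc q).valuation_le_one_iff u).mp hu.le)
  rwa [hsu, ValuationSubring.mem_nonunits_iff, ← sub_one_mul, map_mul, hu, mul_one] at h'

/-- away from `p` inertia fixes the roots of unity of order `p` -/
theorem cycloChar_inert {q : Nat.Primes} (hq : (q : ℕ) ≠ p) {s : Gam q} (hs : s ∈ inert q) :
    ExtCitation.cycloChar p (loc q s) = 1 := by
  haveI : NeZero p := ⟨(Fact.out : p.Prime).ne_zero⟩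
  haveI : Fact (1 < p) := ⟨(Fact.out : p.Prime).one_lt⟩
  have h := inert_fix_root (p := p) hq hs (u := zeta p)
    (ξ := zeta p ^ ((ExtCitation.cycloChar p (loc q s) : ZMod p).val) / zeta p) (k := 1)
    ((pow_eq_one_iff_left (Fact.out : p.Prime).ne_zero).mp
      (by rw [← map_pow, zeta_spec.pow_eq_one, map_one]))
    (by rw [pow_one, div_pow, zeta_spec.pow_eq_one, ← pow_mul, mul_comm, pow_mul,
      zeta_spec.pow_eq_one, one_pow, div_one])
    (by rw [div_mul_cancel₀ _ zeta_ne_zero]; exact gal_zeta _)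
  rw [div_eq_one_iff_eq zeta_ne_zero] at h
  refine Units.ext (zeta_pow_injective (p := p) ?_)
  show zeta p ^ _ = zeta p ^ ((1 : (ZMod p)ˣ) : ZMod p).val
  rw [h, Units.val_one, ZMod.val_one, pow_one]

theorem isUnrAt_mu {q : Nat.Primes} (hq : (q : ℕ) ≠ p) : IsUnrAt q (mu p) := fun s hs =>
  LinearMap.ext fun x => by simp [Representation.twist_apply, cycloChar_inert hq hs]

section Kummer

variable [NumberField ↥(Fld H)]

/-- the values of a Kummer class on inertia -/
theorem ev1_kappa_inert (hG : OpenMu p H) {q : Nat.Primes} (hu : UnrFld q H) (hq : (q : ℕ) ≠ p)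
    (x : GQ ⧸ H) (y : (Fld H)ˣ) {s : Gam q} (hs : s ∈ inert q) :
    ev1 hG q x (res1 q _ (kappa hG (Additive.ofMul y))) ⟨s, hu.stq_mem hs x⟩ =
      (ordAt q x y : ZMod p) * tauRam p q (loc q s) := by
  induction x using QuotientGroup.induction_on with
  | H g =>
    obtain ⟨r, hr, hr0, hk⟩ := kappa_spec hG y
    set k : H := ⟨g⁻¹ * loc q s * g, conj_mem rfl (hu s hs _)⟩
    rw [ev1_res1 hG q _ g ⟨s, hu.stq_mem hs _⟩]
    set m : ℤ := ordAt q ((g : GQ) : GQ ⧸ H) y
    set i : ZMod p := (ExtCitation.cycloChar p g : ZMod p) *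
      base hG (kappa hG (Additive.ofMul y)) k with hi
    have hz : loc q s (g r) = zeta p ^ i.val * g r := by
      have e : loc q s (g r) = g ((k : GQ) r) := by
        rw [← AlgEquiv.mul_apply, ← AlgEquiv.mul_apply]
        congr 1
        simp [k, mul_assoc]
      rw [e, hk k, map_mul, map_pow, gal_zeta, ← pow_mul, ← zpow_natCast, zeta_zpow,
        Nat.cast_mul]
      simp only [Int.cast_mul, Int.cast_natCast, ZMod.natCast_zmod_val, hi]
    have hval : (plc q).valuation (g r / qRoot p q ^ m) = 1 := by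
      refine (pow_eq_one_iff_left (Fact.out : p.Prime).ne_zero).mp ?_
      rw [← map_pow, div_pow, ← map_pow g, hr, ← zpow_natCast (qRoot p q ^ m), ← zpow_mul,
        mul_comm, zpow_mul, zpow_natCast, qRoot_pow, map_div₀, map_zpow₀,
        ← hu.valuation_emb hG.opn ((g : GQ) : GQ ⧸ H) y, emb_mk, div_self]
      exact (map_ne_zero _).mpr ((map_ne_zero g).mpr fun e => y.ne_zero (Subtype.ext e))
    have hfix := inert_fix_root (p := p) hq hs (u := g r / qRoot p q ^ m)
      (ξ := zeta p ^ (i.val : ℤ) / zeta p ^ ((tauRam p q (loc q s)).val * m)) (k := 1) hval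
      (by
        rw [pow_one, ← zpow_sub₀ zeta_ne_zero, ← zpow_natCast, ← zpow_mul, mul_comm, zpow_mul,
          zpow_natCast, zeta_spec.pow_eq_one, one_zpow])
      (by
        rw [map_div₀, map_zpow₀, hz, gal_qRoot, mul_zpow, ← zpow_natCast, ← zpow_natCast,
          ← zpow_mul]
        field_simp)
    rw [← zpow_sub₀ zeta_ne_zero, zeta_spec.zpow_eq_one_iff_dvd,
      ← ZMod.intCast_zmod_eq_zero_iff_dvd, Int.cast_sub, Int.cast_mul, Int.cast_natCast,
      Int.cast_natCast, ZMod.natCast_zmod_val, ZMod.natCast_zmod_val, sub_eq_zero] at hfix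
    rw [hfix, mul_comm]

/-- a ramified class on each inertia group -/
theorem exists_tauRam_ne_zero (hG : OpenMu p H) {q : Nat.Primes} (hu : UnrFld q H)
    (hq : (q : ℕ) ≠ p) : ∃ s ∈ inert q, tauRam p q (loc q s) ≠ 0 := by
  by_contra! hcon
  obtain ⟨π, hπ⟩ := exists_ord_one (primeAt q ((1 : GQ) : GQ ⧸ H))
  have h := (ev1_inert_iff hG hu hq ((1 : GQ) : GQ ⧸ H) π).1 fun s hs => by
    rw [ev1_kappa_inert hG hu hq _ π hs, hcon s hs, mul_zero]
  rw [ordAt, hπ] at h
  exact (Fact.out : p.Prime).one_lt.ne' (Nat.dvd_one.1 (Int.natCast_dvd_natCast.1 h))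

/-- the local classes modulo the unramified ones -/
theorem exists_ram_coeff (hG : OpenMu p H) {q : Nat.Primes} (hu : UnrFld q H) (hq : (q : ℕ) ≠ p)
    (z : Z1 (loc q) (Rep.res (loc q) (ind H (mu p)))) :
    ∃ n : Orb q H → ZMod p, ∀ s ∈ inert q, ∀ x : GQ ⧸ H,
      (z.1 s x : ZMod p) = n (orb q x) * tauRam p q (loc q s) := by
  classical
  haveI := hG.finite
  haveI : Fintype (Orb q H) := Fintype.ofFinite _
  haveI := finite_lH1 q hG.adm
  let Λ : lH1 q (ind H (mu p)) →ₗ[ZMod p] ((GQ ⧸ H) × inert q → ZMod p) :=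
    LinearMap.pi fun xs =>
      LinearMap.proj (R := ZMod p) (φ := fun _ : stq q xs.1 => ZMod p)
        (⟨xs.2.1, hu.stq_mem xs.2.2 xs.1⟩ : stq q xs.1) ∘ₗ ev1 hG q xs.1
  let μ : (Orb q H → ZMod p) →ₗ[ZMod p] ((GQ ⧸ H) × inert q → ZMod p) :=
    LinearMap.pi fun xs => tauRam p q (loc q xs.2.1) • LinearMap.proj (orb q xs.1)
  have hμ : Function.Injective μ := by
    obtain ⟨s, hs, hne⟩ := exists_tauRam_ne_zero hG hu hq
    intro n n' h
    funext O
    have e := congrFun h (O.out, (⟨s, hs⟩ : inert q))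
    simp only [μ, LinearMap.pi_apply, LinearMap.smul_apply, LinearMap.proj_apply, smul_eq_mul,
      show orb q O.out = O from O.out_eq'] at e
    exact mul_left_cancel₀ hne e
  have hker : LinearMap.ker Λ = unr1 q (ind H (mu p)) := by
    ext a
    obtain ⟨w, rfl⟩ := Submodule.mkQ_surjective _ a
    change _ ↔ h1mk _ _ w ∈ unr1 q (ind H (mu p))
    rw [mem_unr1_iff (hu.isUnrAt hG), LinearMap.mem_ker]
    exact ⟨fun h s hs => funext fun x => congrFun h (x, ⟨s, hs⟩),
      fun h => funext fun xs => congrFun (h xs.2.1 xs.2.2) xs.1⟩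
  have hle : LinearMap.range μ ≤ LinearMap.range Λ := by
    rintro _ ⟨n, rfl⟩
    rw [pi_eq_sum_univ n, map_sum]
    refine Submodule.sum_mem _ fun O _ => ?_
    rw [map_smul]
    refine Submodule.smul_mem _ _ ?_
    obtain ⟨π, hπ⟩ := exists_ord_one (primeAt q O.out)
    refine ⟨proj1 O (res1 q _ (kappa hG (Additive.ofMul π))), funext fun xs => ?_⟩
    show ev1 hG q xs.1 (proj1 O _) ⟨xs.2.1, hu.stq_mem xs.2.2 xs.1⟩ = _
    rw [ev1_proj1, Pi.smul_apply, ev1_kappa_inert hG hu hq xs.1 π xs.2.2]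
    simp only [μ, LinearMap.pi_apply, LinearMap.smul_apply, LinearMap.proj_apply, smul_eq_mul]
    by_cases h : orb q xs.1 = O
    · have e : ordAt q xs.1 π = 1 := by
        rw [ordAt_eq_ord, h, ord, pr]
        exact hπ
      rw [indO_pos h, e, if_pos h.symm, Int.cast_one, one_mul, one_mul, mul_one]
    · rw [indO_neg h, if_neg (Ne.symm h), zero_mul, mul_zero]
  have hdim : Module.finrank (ZMod p) (LinearMap.range Λ) =
      Module.finrank (ZMod p) (LinearMap.range μ) := by
    have h1 := LinearMap.finrank_range_add_finrank_ker Λ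
    let e : lH1 q (ind H (one p)) ≃ₗ[ZMod p] lH1 q (ind H (mu p)) :=
      LinearEquiv.ofLinearMap (lpush1 (twistMu hG.triv) (twistMu_eqv hG.triv) q)
        (lpush1 (untwistMu hG.triv) (untwistMu_eqv hG.triv) q)
        (LinearMap.ext fun a => h1push_retract (r := loc q) (A := Rep.res (loc q) (ind H (mu p)))
          (B := Rep.res (loc q) (ind H (one p))) _ _ (fun g f => untwistMu_eqv hG.triv (loc q g) f)
          (fun g f => twistMu_eqv hG.triv (loc q g) f) (twist_untwist hG.triv) a)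
        (LinearMap.ext fun a => h1push_retract (r := loc q) (A := Rep.res (loc q) (ind H (one p)))
          (B := Rep.res (loc q) (ind H (mu p))) _ _ (fun g f => twistMu_eqv hG.triv (loc q g) f)
          (fun g f => untwistMu_eqv hG.triv (loc q g) f) (untwist_twist hG.triv) a)
    rw [hker, finrank_unr1 q hG.adm, finrank_lH0_perm hG q, ← e.finrank_eq,
      finrank_lH1_perm q hG.opn hG.triv, if_neg hq] at h1
    rw [LinearMap.finrank_range_of_inj hμ, Module.finrank_pi, ← Nat.card_eq_fintype_card]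
    change Module.finrank (ZMod p) (LinearMap.range Λ) = orbitCount q H
    omega
  obtain ⟨n, hn⟩ := (Submodule.eq_of_le_of_finrank_eq hle hdim.symm).ge
    (⟨h1mk _ _ z, rfl⟩ : Λ (h1mk _ _ z) ∈ LinearMap.range Λ)
  exact ⟨n, fun s hs x => ((congrFun hn (x, ⟨s, hs⟩)).symm).trans (mul_comm _ _)⟩

end Kummer

end FLTAgent.PT
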