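import Fermat.Agent.PT.DualityAPI
import Fermat.Agent.PT.Dual.Infl

/-!
Parcel E: the duality between the locally trivial classes of degree 1 and 2 unramified outside `S`.
-/

set_option autoImplicit false
set_option linter.style.haveILetI false
set_option linter.unusedSectionVars false

noncomputable section

open CategoryTheory groupCohomology ExtCitation

namespace FLTAgent.PT

variable {p : ℕ} [Fact p.Prime]

section Finite

variable {G : Type} [Group G] [Finite G] (r : G →* GQ) (N : Rep.{0} (ZMod p) G)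

/-- the degree 1 cohomology of a group of order prime to `p` vanishes -/
theorem exists_d0_of_card (hn : (Nat.card G : ZMod p) ≠ 0) (z : cocycles₁ N) :
    ∃ m : N, ∀ g, N.ρ g m - m = z g := by
  cases nonempty_fintype G
  refine ⟨-((Nat.card G : ZMod p)⁻¹ • ∑ h, z h), fun g => ?_⟩
  have key : ∑ h, z h = N.ρ g (∑ h, z h) + (Nat.card G : ZMod p) • z g := by
    conv_lhs => rw [← Equiv.sum_comp (Equiv.mulLeft g) (fun h => z h)]
    rw [map_sum, Nat.card_eq_fintype_card, Nat.cast_smul_eq_nsmul, ← Finset.card_univ,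
      ← Finset.sum_const, ← Finset.sum_add_distrib]
    exact Finset.sum_congr rfl fun h _ => (mem_cocycles₁_iff _).1 z.2 g h
  have hz : z g = (Nat.card G : ZMod p)⁻¹ • ((∑ h, z h) - N.ρ g (∑ h, z h)) := by
    rw [← eq_sub_of_add_eq' key.symm, inv_smul_smul₀ hn]
  rw [hz, map_neg, map_smul, smul_sub]
  abel

/-- the degree 2 cohomology of a group of order prime to `p` vanishes -/
theorem cH2_eq_zero_of_card (hn : (Nat.card G : ZMod p) ≠ 0) (x : cH2 r N) : x = 0 := by
  cases nonempty_fintype G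
  obtain ⟨⟨c, hc, F, hF, hl⟩, rfl⟩ := Submodule.mkQ_surjective _ x
  refine (continuousH2π_eq_zero_iff r N _).2 ((mem_levelCoboundaries₂_iff r N _).2
    ⟨fun g => (Nat.card G : ZMod p)⁻¹ • ∑ k, c (g, k), ⟨F, hF, fun g s hs => ?_⟩, ?_⟩)
  · refine congrArg (fun y => (Nat.card G : ZMod p)⁻¹ • y) (Finset.sum_congr rfl fun k _ => ?_)
    have h := hl g k s 1 hs (by rw [map_one]; exact one_mem _)
    rwa [mul_one] at h
  funext ⟨g, h⟩
  rw [d₁₂_hom_apply, map_smul, ← smul_sub, ← smul_add, map_sum]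
  have e : ∑ k, c (g, k) = ∑ k, c (g, h * k) :=
    (Equiv.sum_comp (Equiv.mulLeft h) fun k => c (g, k)).symm
  have hsum : (∑ k, N.ρ g (c (h, k))) - (∑ k, c (g * h, k)) + ∑ k, c (g, k) =
      (Nat.card G : ZMod p) • c (g, h) := by
    conv_lhs => rw [e]
    rw [← Finset.sum_sub_distrib, ← Finset.sum_add_distrib, Nat.card_eq_fintype_card,
      Nat.cast_smul_eq_nsmul, ← Finset.card_univ, ← Finset.sum_const]
    refine Finset.sum_congr rfl fun k _ => ?_
    linear_combination (norm := abel) (mem_cocycles₂_def _).1 hc g h k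
  rw [hsum, inv_smul_smul₀ hn]

end Finite

theorem finite_archimedean : Finite ExtCitation.archimedeanDecomposition :=
  Nat.finite_of_card_ne_zero (by
    rw [ExtCitation.archimedeanDecomposition, Nat.card_zpowers]
    exact (Nat.pos_of_dvd_of_pos (orderOf_dvd_of_pow_eq_one complexConjugation_sq) two_pos).ne')

theorem card_archimedean (hp2 : p ≠ 2) :
    (Nat.card ExtCitation.archimedeanDecomposition : ZMod p) ≠ 0 := by
  rw [ExtCitation.archimedeanDecomposition, Nat.card_zpowers, Ne, ZMod.natCast_eq_zero_iff]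
  exact fun h => hp2 ((Nat.prime_dvd_prime_iff_eq Fact.out Nat.prime_two).1
    (h.trans (orderOf_dvd_of_pow_eq_one complexConjugation_sq)))

variable {M : Rep.{0} (ZMod p) GQ}

theorem isAdm_of_smooth [Module.Finite (ZMod p) M]
    (hsm : ∀ m : M, ∃ F : IntermediateField ℚ (AlgebraicClosure ℚ), FiniteDimensional ℚ F ∧
      ∀ s ∈ F.fixingSubgroup, M.ρ s m = m) : IsAdm (MonoidHom.id GQ) M := by
  choose F hF h using hsm
  let B := Module.finBasis (ZMod p) M
  haveI := fun i => hF (B i)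
  exact ⟨inferInstance, ⨆ i, F (B i), inferInstance, fun g hg => B.ext fun i =>
    h _ g (IntermediateField.fixingSubgroup_antitone (le_iSup (fun i => F (B i)) i) hg)⟩

variable (S : Finset Nat.Primes)

theorem ne_p_of_notMem (hpS : pP p ∈ S) {q : Nat.Primes} (hq : q ∉ S) : (q : ℕ) ≠ p :=
  fun e => hq (by
    have : q = pP p := Subtype.ext e
    exact this ▸ hpS)

theorem isUnrAt_dual {q : Nat.Primes} (hqp : (q : ℕ) ≠ p) (hu : IsUnrAt q M) :
    IsUnrAt q (dual' M) := fun s hs => LinearMap.ext fun f => by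
  have h := Rep.dualTwist_ρ_apply M (ExtCitation.cycloChar p) (loc q s) f
  rw [cycloChar_inert hqp hs, Units.val_one, one_smul,
    show M.ρ (loc q s)⁻¹ = 1 by rw [← map_inv]; exact hu s⁻¹ (inv_mem hs)] at h
  exact h.trans (LinearMap.ext fun _ => rfl)

/-- classes unramified outside `S` and trivial at `S` -/
def WS (D : Rep.{0} (ZMod p) GQ) : Submodule (ZMod p) (cH1 (MonoidHom.id GQ) D) :=
  H1T S D ⊓ ⨅ q ∈ S, LinearMap.ker (res1 q D)

theorem mem_WS_iff {D : Rep.{0} (ZMod p) GQ} {b : cH1 (MonoidHom.id GQ) D} :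
    b ∈ WS S D ↔ (∀ q ∉ S, res1 q D b ∈ unr1 q D) ∧ ∀ q ∈ S, res1 q D b = 0 := by
  simp only [WS, Submodule.mem_inf, mem_H1T_iff, Submodule.mem_iInf, LinearMap.mem_ker]

theorem sha1g_le_WS (D : Rep.{0} (ZMod p) GQ) : sha1g D ≤ WS S D := fun b hb =>
  (mem_WS_iff S).2 ⟨fun q _ => by rw [mem_sha1g_iff.1 hb q]; exact zero_mem _,
    fun q _ => mem_sha1g_iff.1 hb q⟩

/-- compactly supported classes of level `S` -/
def K2S (M : Rep.{0} (ZMod p) GQ) : Submodule (ZMod p) (K2 M) where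
  carrier := {x | IsLevelConstantS₂ S x.1.1 ∧ ∀ q ∉ S, UnrCst q (x.1.2 q)}
  add_mem' hx hy := ⟨hx.1.add hy.1, fun q hq => (hx.2 q hq).add (hy.2 q hq)⟩
  zero_mem' := ⟨isLevelConstantS₂_const S 0, fun _ _ _ _ _ => rfl⟩
  smul_mem' c _ hx := ⟨hx.1.comp (c • ·), fun q hq g s hs => congrArg (c • ·) (hx.2 q hq g s hs)⟩

theorem res2_mk_eq_zero (x : K2 M) (q : Nat.Primes) :
    res2 q M (h2mk (MonoidHom.id GQ) M ⟨_, x.2.1⟩) = 0 :=
  (continuousH2π_eq_zero_iff (loc q) _ _).2
    ((mem_levelCoboundaries₂_iff _ _ _).2 ⟨x.1.2 q, (x.2.2.1 q).1, (x.2.2.1 q).2⟩)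

/-- the class of an element of `K2S` -/
def piS (hp2 : p ≠ 2) (M : Rep.{0} (ZMod p) GQ) : K2S S M →ₗ[ZMod p] sha₂ S M :=
  LinearMap.codRestrict (sha₂ S M)
    { toFun := fun x => continuousH2Sπ S M ⟨x.1.1.1, x.1.2.1.1, x.2.1⟩
      map_add' := fun _ _ => rfl
      map_smul' := fun _ _ => rfl }
    fun x => LinearMap.mem_ker.2 (funext fun v => by
      rcases v with u | q
      · haveI := finite_archimedean
        exact cH2_eq_zero_of_card (G := ExtCitation.archimedeanDecomposition)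
          ExtCitation.archimedeanLoc _ (card_archimedean hp2) _
      · exact res2_mk_eq_zero x.1 q.1)

theorem piS_surjective (hp2 : p ≠ 2) (hM : IsAdm (MonoidHom.id GQ) M)
    (hMu : ∀ q ∉ S, IsUnrAt q M) : Function.Surjective (piS S hp2 M) := by
  rintro ⟨x, hx⟩
  obtain ⟨⟨c, hc, hlS⟩, rfl⟩ := Submodule.mkQ_surjective _ x
  have hc2 : c ∈ levelCocycles₂ (MonoidHom.id GQ) M := ⟨hc, hlS.isLevelConstant₂⟩
  have hy : ∀ q, ∃ y : Gam q → M, IsLevelConstant₁ (loc q) y ∧
      (q ∉ S → UnrCst q y) ∧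
      (d₁₂ (Rep.res (loc q) M)).hom y = c ∘ Prod.map (loc q) (loc q) := fun q => by
    by_cases hq : q ∈ S
    · have h : res2 q M (h2mk (MonoidHom.id GQ) M ⟨c, hc2⟩) = 0 :=
        congrFun (LinearMap.mem_ker.1 hx) (Sum.inr ⟨q, hq⟩)
      obtain ⟨y, hy, hd⟩ :=
        (mem_levelCoboundaries₂_iff _ _ _).1 ((continuousH2π_eq_zero_iff (loc q) _ _).1 h)
      exact ⟨y, hy, fun h => absurd hq h, hd⟩
    · obtain ⟨F, hF, hl⟩ := hlS
      obtain ⟨y, hy, hu, hd⟩ := exists_unr_trivialisation hM (hMu q hq)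
        ⟨_, loc2_mem hc2 q⟩ fun g g' s s' hs hs' => by
          simp only [Function.comp_apply, Prod.map_apply, map_mul]
          exact hl _ _ _ _ (hF.2 q hq (plc q) (lies_plc q) hs)
            (hF.2 q hq (plc q) (lies_plc q) hs')
      exact ⟨y, hy, fun _ => hu, hd⟩
  choose y hy hyu hyd using hy
  exact ⟨⟨⟨(c, y), hc2, fun q => ⟨hy q, hyd q⟩, S.finite_toSet.subset fun q hq => by
    by_contra h
    exact hq (hyu q fun h' => h (Finset.mem_coe.2 h'))⟩, hlS, hyu⟩, rfl⟩

theorem cls2_mem_unr1 (x : K2 M) (hx : x.1.1 = 0) {q : Nat.Primes} (hu : UnrCst q (x.1.2 q)) :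
    cls2 x hx q ∈ unr1 q M :=
  ⟨_, fun s hs => by
    show x.1.2 q s = 0
    have h := hu 1 s hs
    rw [one_mul] at h
    rw [h]
    exact cocycles₁_map_one (A := Rep.res (loc q) M)
      (⟨x.1.2 q, LinearMap.mem_ker.2 (((x.2.2.1 q).2).trans (by rw [hx]; rfl))⟩ :
        cocycles₁ (Rep.res (loc q) M)), rfl⟩

theorem unrCst_of_cls2 {q : Nat.Primes} (hu : IsUnrAt q M) (x : K2 M) (hx : x.1.1 = 0)
    (h : cls2 x hx q ∈ unr1 q M) : UnrCst q (x.1.2 q) := fun g s hs => by
  have hz : x.1.2 q s = 0 := (mem_unr1_iff hu _).1 h s hs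
  have hd : x.1.2 q ∈ cocycles₁ (Rep.res (loc q) M) :=
    LinearMap.mem_ker.2 (((x.2.2.1 q).2).trans (by rw [hx]; rfl))
  rw [(mem_cocycles₁_iff _).1 hd g s, hz, map_zero, zero_add]

/-- a cochain with coboundary of level `S`, unramified outside `S`, is of level `S` -/
theorem levelS_of_d (hM : IsAdm (MonoidHom.id GQ) M) (hMu : ∀ q ∉ S, IsUnrAt q M) {v : GQ → M}
    (hv : IsLevelConstant₁ (MonoidHom.id GQ) v)
    (hd : IsLevelConstantS₂ S ((d₁₂ M).hom v)) (hu : ∀ q ∉ S, UnrCst q (v ∘ loc q)) :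
    IsLevelConstantS₁ S v := by
  obtain ⟨Fv, hFv, hFvn, hρ, hvl⟩ := hM.exists_level (MonoidHom.id GQ) hv
  obtain ⟨F, hF, hl⟩ := hd
  let N₀ : Subgroup GQ :=
    { carrier := {s | M.ρ s = 1 ∧ ∀ g, v (g * s) = v g}
      one_mem' := ⟨map_one _, fun g => by rw [mul_one]⟩
      mul_mem' := fun {a b} ha hb => ⟨by rw [map_mul, ha.1, hb.1, mul_one],
        fun g => by rw [← mul_assoc, hb.2, ha.2]⟩
      inv_mem' := fun {a} ha => ⟨by
        have h : M.ρ a⁻¹ * M.ρ a = 1 := by rw [← map_mul, inv_mul_cancel, map_one]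
        rwa [ha.1, mul_one] at h, fun g => by rw [← ha.2 (g * a⁻¹), inv_mul_cancel_right]⟩ }
  have ho : IsOpenSub (MonoidHom.id GQ) N₀.normalCore :=
    ⟨Fv, hFv, fun t ht => (Subgroup.normal_le_normalCore (hN := hFvn)).2
      (show Fv.fixingSubgroup ≤ N₀ from fun s hs => ⟨hρ s hs, fun g => hvl g s hs⟩) ht⟩
  have hin : ∀ q ∉ S, ∀ s ∈ inert q, loc q s ∈ N₀.normalCore := fun q hq s hs a => by
    have hσ : loc q s ∈ F.fixingSubgroup := hF.2 q hq (plc q) (lies_plc q) hs
    have hρσ : M.ρ (loc q s) = 1 := hMu q hq s hs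
    have hdv : ∀ x y, M.ρ x (v y) - v (x * y) + v x = (d₁₂ M).hom v (x, y) := fun x y =>
      (d₁₂_hom_apply M v (x, y)).symm
    have h1 : ∀ x, v (x * loc q s) = v x := fun x => by
      have e1 := hdv x (loc q s)
      have e2 := hdv x 1
      have e3 := hl x 1 1 (loc q s) (one_mem _) hσ
      rw [mul_one, one_mul] at e3
      have e4 : v (loc q s) = v 1 := by
        have := hu q hq 1 s hs
        simpa only [Function.comp_apply, one_mul, map_one] using this
      rw [e3, ← e2, mul_one, e4] at e1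
      linear_combination (norm := abel) -e1
    refine ⟨?_, fun g => ?_⟩
    · rw [map_mul, map_mul, hρσ, mul_one, ← map_mul, mul_inv_cancel, map_one]
    · have e1 := hdv (g * a * loc q s) a⁻¹
      have e2 := hdv (g * a) a⁻¹
      have e3 := hl (g * a) a⁻¹ (loc q s) 1 hσ (one_mem _)
      rw [mul_one] at e3
      rw [mul_inv_cancel_right] at e2
      rw [e3, ← e2, h1, map_mul, hρσ, mul_one] at e1
      rw [show g * (a * loc q s * a⁻¹) = g * a * loc q s * a⁻¹ by group]
      linear_combination (norm := abel) -e1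
  obtain ⟨F', hF', hFN⟩ := exists_unrOutside_field N₀.normalCore_normal ho hin
  exact ⟨F', hF', fun g s hs => (Subgroup.normalCore_le N₀ (hFN ▸ hs)).2 g⟩

variable (R : Recip p) (hp2 : p ≠ 2) (hM : IsAdm (MonoidHom.id GQ) M)

/-- the restriction of the second pairing -/
def LamS : K2S S M →ₗ[ZMod p] Module.Dual (ZMod p) (WS S (dual' M)) :=
  (WS S (dual' M)).subtype.dualMap ∘ₗ Phi2 R hp2 hM ∘ₗ (K2S S M).subtype

theorem LamS_apply (x : K2S S M) (b : WS S (dual' M)) :
    LamS S R hp2 hM x b = Phi2 R hp2 hM x.1 b.1 := rfl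

/-- two classes with difference `(0, w)` have the same pairing up to the local pairings of `w` -/
theorem exists_triv_of_correction (x : K2 M) (w : ∀ q, lH1 q M) (hw : IsFam w)
    (hsum : ∀ b, ∑ᶠ q, ev11 R q hM (w q) (res1 q (dual' M) b) = Phi2 R hp2 hM x b) :
    ∃ (y : K2 M) (hy : y.1.1 = 0), (∀ q, cls2 y hy q = w q) ∧ IsTriv2 (x - y) := by
  obtain ⟨y, hy, hcls⟩ := exists_K2_of_fam hM hw
  refine ⟨y, hy, hcls, (phi_main R hp2 hM).2 _ (LinearMap.ext fun b => ?_)⟩
  rw [map_sub, LinearMap.sub_apply, Phi2_cls2 R hp2 hM y hy, ← hsum b, LinearMap.zero_apply,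
    sub_eq_zero]
  exact finsum_congr fun q => by rw [hcls q]

theorem ker_piS (hpS : pP p ∈ S) (hMu : ∀ q ∉ S, IsUnrAt q M) :
    LinearMap.ker (piS S hp2 M) = LinearMap.ker (LamS S R hp2 hM) := by
  classical
  ext x
  constructor
  · intro hx
    obtain ⟨v, hv, hdv⟩ := (mem_levelCoboundariesS₂_iff S M _).1
      ((continuousH2Sπ_eq_zero_iff S M _).1 (congrArg Subtype.val (LinearMap.mem_ker.1 hx)))
    refine LinearMap.mem_ker.2 (LinearMap.ext fun b => ?_)
    set t := trivK2 hM v hv.isLevelConstant₁ 0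
    have h0 : (x.1 - t).1.1 = 0 := sub_eq_zero.2 hdv.symm
    have hb := (mem_WS_iff S).1 b.2
    have key : Phi2 R hp2 hM (x.1 - t) b.1 = 0 := by
      rw [Phi2_cls2 R hp2 hM _ h0]
      refine finsum_eq_zero_of_forall_eq_zero fun q => ?_
      by_cases hq : q ∈ S
      · rw [hb.2 q hq, map_zero]
      · refine ev11_unr R (ne_p_of_notMem S hpS hq) hM (hMu q hq)
          (cls2_mem_unr1 _ h0 ((x.2.2 q hq).sub ?_)) (hb.1 q hq)
        obtain ⟨F, hF, hl⟩ := hv
        show UnrCst q (v ∘ loc q + (d₀₁ (Rep.res (loc q) M)).hom ((0 : Nat.Primes → M) q))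
        rw [Pi.zero_apply, map_zero, add_zero]
        intro g s hs
        simp only [Function.comp_apply, map_mul]
        exact hl _ _ (hF.2 q hq (plc q) (lies_plc q) hs)
    rw [map_sub, LinearMap.sub_apply, Phi2_triv R hp2 hM (isTriv2_trivK2 hM v _ 0),
      LinearMap.zero_apply, sub_zero] at key
    exact key
  · intro hx
    let N : ∀ q, Submodule (ZMod p) (lH1 q (dual' M)) := fun q =>
      if q ∈ S then ⊥ else unr1 q (dual' M)
    obtain ⟨w, hwN, hw⟩ := exists_correction (fun q => ev11 R q hM)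
      (fun q => ev11_surjective R q hM) N
      (finite_ram1_outside (isAdm_dual hM) S N fun q hq => if_neg hq) (Phi2 R hp2 hM x.1)
      fun b hb => LinearMap.congr_fun (LinearMap.mem_ker.1 hx) ⟨b, (mem_WS_iff S).2
        ⟨fun q hq => by simpa only [N, if_neg hq] using hb q,
          fun q hq => by simpa only [N, if_pos hq, Submodule.mem_bot] using hb q⟩⟩
    have hwu : ∀ q ∉ S, w q ∈ unr1 q M := fun q hq =>
      mem_unr1_of_ev11 R (ne_p_of_notMem S hpS hq) hM (hMu q hq) fun n hn =>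
        hwN q n (by simp only [N, if_neg hq]; exact hn)
    have hwf : IsFam w := S.finite_toSet.subset fun q hq => by
      by_contra h
      exact hq (hwu q fun h' => h (Finset.mem_coe.2 h'))
    obtain ⟨y, hy, hcls, v, hv, hdv, hm⟩ := exists_triv_of_correction R hp2 hM x.1 w hwf hw
    have hdv' : (d₁₂ M).hom v = x.1.1.1 := hdv.trans (by
      show x.1.1.1 - y.1.1 = x.1.1.1
      rw [hy, sub_zero])
    have hvS : IsLevelConstantS₁ S v := levelS_of_d S hM hMu hv (hdv'.symm ▸ x.2.1) fun q hq => by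
      obtain ⟨m, hm⟩ := hm q
      have e : v ∘ loc q = x.1.1.2 q - y.1.2 q - (d₀₁ (Rep.res (loc q) M)).hom m :=
        eq_sub_of_add_eq hm.symm
      rw [e]
      exact ((x.2.2 q hq).sub (unrCst_of_cls2 (hMu q hq) y hy (hcls q ▸ hwu q hq))).sub
        (unrCst_d0 (hMu q hq) m)
    exact LinearMap.mem_ker.2 (Subtype.ext ((continuousH2Sπ_eq_zero_iff S M _).2
      ((mem_levelCoboundariesS₂_iff S M _).2 ⟨v, hvS, hdv'⟩)))

include hM hp2 in
theorem finrank_sha2g_ddual :
    Module.Finite (ZMod p) (sha2g M) ∧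
      Module.finrank (ZMod p) (sha1g (dual' M)) = Module.finrank (ZMod p) (sha2g M) := by
  obtain ⟨hf, hr⟩ := finrank_sha1g_eq_sha2g hp2 (isAdm_dual hM)
  let e : M ≃ₗ[ZMod p] dual' (dual' M) := LinearEquiv.ofBijective (ddual M) (ddual_bijective hM)
  have he : ∀ g m, e (M.ρ g m) = (dual' (dual' M)).ρ g (e m) := fun g m => ddual_eqv g m
  have hnat : ∀ {A B : Rep.{0} (ZMod p) GQ} (φ : A →ₗ[ZMod p] B)
      (hφ : ∀ g m, φ (A.ρ g m) = B.ρ g (φ m)), ∀ c ∈ sha2g A,
      h2push (MonoidHom.id GQ) φ hφ c ∈ sha2g B := fun φ hφ c hc => mem_sha2g_iff.2 fun q => by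
    have h := congrArg (h2push (loc q) (A := Rep.res (loc q) _) (B := Rep.res (loc q) _) φ
      fun g => hφ (loc q g)) (mem_sha2g_iff.1 hc q)
    rw [map_zero] at h
    rw [← h]
    obtain ⟨z, rfl⟩ := Submodule.mkQ_surjective _ c
    rfl
  let E : sha2g M ≃ₗ[ZMod p] sha2g (dual' (dual' M)) := LinearEquiv.ofLinearMap
    ((h2push (MonoidHom.id GQ) e.toLinearMap he).restrict fun c hc => hnat _ _ c hc)
    ((h2push (MonoidHom.id GQ) e.symm.toLinearMap (eqv_symm e he)).restrict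
      fun c hc => hnat _ _ c hc)
    (LinearMap.ext fun c => Subtype.ext (h2push_retract e.symm.toLinearMap e.toLinearMap
      (eqv_symm e he) he e.apply_symm_apply c.1))
    (LinearMap.ext fun c => Subtype.ext (h2push_retract e.toLinearMap e.symm.toLinearMap
      he (eqv_symm e he) e.symm_apply_apply c.1))
  haveI := hf
  exact ⟨Module.Finite.equiv E.symm, hr.trans E.finrank_eq.symm⟩

/-- the second pairing on the locally trivial classes is surjective -/
theorem exists_phi2_sha (l : Module.Dual (ZMod p) (sha1g (dual' M))) :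
    ∃ x : K2 M, ∀ b : sha1g (dual' M), Phi2 R hp2 hM x b.1 = l b := by
  classical
  let Ψ : K2 M →ₗ[ZMod p] Module.Dual (ZMod p) (sha1g (dual' M)) :=
    (sha1g (dual' M)).subtype.dualMap ∘ₗ Phi2 R hp2 hM
  let P : K2 M →ₗ[ZMod p] sha2g M := LinearMap.codRestrict (sha2g M)
    { toFun := fun x => h2mk (MonoidHom.id GQ) M ⟨_, x.2.1⟩
      map_add' := fun _ _ => rfl
      map_smul' := fun _ _ => rfl }
    fun x => mem_sha2g_iff.2 (res2_mk_eq_zero x)
  have hP : Function.Surjective P := by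
    rintro ⟨c, hc⟩
    obtain ⟨z, rfl⟩ := Submodule.mkQ_surjective _ c
    obtain ⟨F, hF, hl⟩ := z.2.2
    haveI := hF
    have hy : ∀ q, ∃ y : Gam q → M, IsLevelConstant₁ (loc q) y ∧
        (IsUnrAt q M → (∀ s ∈ inert q, loc q s ∈ F.fixingSubgroup) → UnrCst q y) ∧
        (d₁₂ (Rep.res (loc q) M)).hom y = z.1 ∘ Prod.map (loc q) (loc q) := fun q => by
      by_cases hq : IsUnrAt q M ∧ ∀ s ∈ inert q, loc q s ∈ F.fixingSubgroup
      · obtain ⟨y, hy, hu, hd⟩ := exists_unr_trivialisation hM hq.1 ⟨_, loc2_mem z.2 q⟩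
          fun g g' s s' hs hs' => by
            simp only [Function.comp_apply, Prod.map_apply, map_mul]
            exact hl _ _ _ _ (hq.2 s hs) (hq.2 s' hs')
        exact ⟨y, hy, fun _ _ => hu, hd⟩
      · obtain ⟨y, hy, hd⟩ := (mem_levelCoboundaries₂_iff _ _ _).1
          ((continuousH2π_eq_zero_iff (loc q) _ _).1 (mem_sha2g_iff.1 hc q))
        exact ⟨y, hy, fun h h' => absurd ⟨h, h'⟩ hq, hd⟩
    choose y hy hyu hyd using hy
    exact ⟨⟨(z.1, y), z.2, fun q => ⟨hy q, hyd q⟩,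
      ((finite_not_unr hM).union (finite_ramified F)).subset fun q hq => by
        by_contra hcon
        simp only [Set.mem_union, Set.mem_ofPred_eq, not_or, not_not, not_exists, not_and] at hcon
        exact hq (hyu q hcon.1 hcon.2)⟩, Subtype.ext rfl⟩
  have hker : LinearMap.ker Ψ ≤ LinearMap.ker P := fun x hx => by
    obtain ⟨T₀, hT₀, hp₀, hbig⟩ := exists_big_set hp2 (isAdm_dual hM)
    set T := T₀ ∪ (finite_not_unr hM).toFinset
    let N : ∀ q, Submodule (ZMod p) (lH1 q (dual' M)) := fun q =>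
      if q ∈ T then ⊥ else unr1 q (dual' M)
    obtain ⟨w, hwN, hw⟩ := exists_correction (fun q => ev11 R q hM)
      (fun q => ev11_surjective R q hM) N
      (finite_ram1_outside (isAdm_dual hM) T N fun q hq => if_neg hq) (Phi2 R hp2 hM x)
      fun b hb => LinearMap.congr_fun (LinearMap.mem_ker.1 hx) ⟨b, hbig T Finset.subset_union_left b
        (mem_H1T_iff.2 fun q hq => by simpa only [N, if_neg hq] using hb q)
        fun q hq => by simpa only [N, if_pos hq, Submodule.mem_bot] using hb q⟩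
    have hwf : IsFam w := T.finite_toSet.subset fun q hq => by
      by_contra h
      have hq' : q ∉ T := fun h' => h (Finset.mem_coe.2 h')
      simp only [T, Finset.mem_union, Set.Finite.mem_toFinset, Set.mem_ofPred_eq, not_or,
        not_not] at hq'
      refine hq (mem_unr1_of_ev11 R (fun e => hq'.1 (hp₀ q e)) hM hq'.2 fun n hn => hwN q n ?_)
      simp only [N, if_neg fun h' => h (Finset.mem_coe.2 h')]
      exact hn
    obtain ⟨y, hy, -, v, hv, hdv, -⟩ := exists_triv_of_correction R hp2 hM x w hwf hw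
    exact LinearMap.mem_ker.2 (Subtype.ext ((continuousH2π_eq_zero_iff _ _ _).2
      ((mem_levelCoboundaries₂_iff _ _ _).2 ⟨v, hv, hdv.trans (by
        show x.1.1 - y.1.1 = x.1.1
        rw [hy, sub_zero])⟩)))
  obtain ⟨hf, hr⟩ := finrank_sha2g_ddual hp2 hM
  haveI := hf
  haveI : Module.Finite (ZMod p) (sha1g (dual' M)) :=
    finite_of_le (sha1g_le_H1T ∅) (finite_H1T hp2 (isAdm_dual hM) ∅)
  let f : LinearMap.range Ψ →ₗ[ZMod p] sha2g M :=
    Submodule.liftQ _ P hker ∘ₗ (LinearMap.quotKerEquivRange Ψ).symm.toLinearMap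
  have hf' : Function.Surjective f := fun c => by
    obtain ⟨x, rfl⟩ := hP c
    exact ⟨LinearMap.quotKerEquivRange Ψ (Submodule.Quotient.mk x), by
      simp only [f, LinearMap.comp_apply, LinearEquiv.coe_coe, LinearEquiv.symm_apply_apply,
        Submodule.liftQ_apply]⟩
  have htop : LinearMap.range Ψ = ⊤ := Submodule.eq_top_of_finrank_eq (le_antisymm
    (Submodule.finrank_le _) (by
      rw [Subspace.dual_finrank_eq, hr]
      have h := LinearMap.finrank_range_le f
      rw [LinearMap.range_eq_top.2 hf', finrank_top] at h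
      exact h))
  obtain ⟨x, hx⟩ := LinearMap.range_eq_top.1 htop l
  exact ⟨x, fun b => LinearMap.congr_fun hx b⟩

theorem exists_factor_on {D : Rep.{0} (ZMod p) GQ} (U : Finset Nat.Primes)
    (W : Submodule (ZMod p) (cH1 (MonoidHom.id GQ) D)) (f : W →ₗ[ZMod p] ZMod p)
    (hf : ∀ b : W, (∀ q ∈ U, res1 q D b.1 = 0) → f b = 0) :
    ∃ m : ∀ q, lH1 q D →ₗ[ZMod p] ZMod p, (∀ q ∉ U, m q = 0) ∧
      ∀ b : W, ∑ᶠ q, m q (res1 q D b.1) = f b := by
  classical
  let ρ : ∀ q, W →ₗ[ZMod p] lH1 q D := fun q => if q ∈ U then res1 q D ∘ₗ W.subtype else 0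
  obtain ⟨m, hm⟩ := exists_factor (X := fun q => lH1 q D) ρ
    (fun b => U.finite_toSet.subset fun q hq => by
      by_contra h
      exact hq (by simp only [ρ, if_neg fun h' => h (Finset.mem_coe.2 h')]; rfl)) f
    fun b hb => hf b fun q hq => by
      have h := hb q
      simp only [ρ, if_pos hq] at h
      exact h
  refine ⟨fun q => if q ∈ U then m q else 0, fun q hq => if_neg hq, fun b => ?_⟩
  rw [← hm b]
  refine finsum_congr fun q => ?_
  by_cases hq : q ∈ U
  · simp only [ρ, if_pos hq]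
    rfl
  · simp only [ρ, if_neg hq, LinearMap.zero_apply, map_zero]

theorem LamS_surjective (hpS : pP p ∈ S) (hMu : ∀ q ∉ S, IsUnrAt q M) :
    Function.Surjective (LamS S R hp2 hM) := fun l => by
  classical
  obtain ⟨x, hx⟩ := exists_phi2_sha R hp2 hM
    (l ∘ₗ Submodule.inclusion (sha1g_le_WS S (dual' M)))
  haveI := finite_H1T hp2 (isAdm_dual hM) S
  obtain ⟨U, hU⟩ := exists_detect (M := dual' M) S
  let rem : WS S (dual' M) →ₗ[ZMod p] ZMod p :=
    l - Phi2 R hp2 hM x ∘ₗ (WS S (dual' M)).subtype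
  obtain ⟨m, hm0, hm⟩ := exists_factor_on U (WS S (dual' M)) rem fun b hb => by
    have hs : b.1 ∈ sha1g (dual' M) := hU b.1 b.2.1 hb
    rw [LinearMap.sub_apply, sub_eq_zero]
    exact (hx ⟨b.1, hs⟩).symm
  choose w hw using fun q => ev11_surjective R q hM (m q)
  let w' : ∀ q, lH1 q M := fun q => if q ∈ U then w q else 0
  have hwf : IsFam w' := U.finite_toSet.subset fun q hq => by
    by_contra h
    exact hq (by simp only [w', if_neg fun h' => h (Finset.mem_coe.2 h')]; exact zero_mem _)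
  obtain ⟨y, hy, hcls⟩ := exists_K2_of_fam hM hwf
  obtain ⟨v, hv, hS, hu⟩ := exists_inflation hp2 hM S hpS hMu (x + y)
  set t := trivK2 hM v hv 0
  refine ⟨⟨x + y - t, hS, fun q hq => ?_⟩, LinearMap.ext fun b => ?_⟩
  · show UnrCst q ((x + y).1.2 q -
      (v ∘ loc q + (d₀₁ (Rep.res (loc q) M)).hom ((0 : Nat.Primes → M) q)))
    rw [Pi.zero_apply, map_zero, add_zero]
    exact hu q hq
  rw [LamS_apply]
  show Phi2 R hp2 hM (x + y - t) b.1 = l b
  rw [map_sub, map_add, Phi2_triv R hp2 hM (isTriv2_trivK2 hM v hv 0), sub_zero,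
    LinearMap.add_apply, Phi2_cls2 R hp2 hM y hy]
  refine (congrArg (_ + ·) ((finsum_congr fun q => ?_).trans (hm b))).trans
    (add_sub_cancel (Phi2 R hp2 hM x b.1) (l b))
  rw [hcls q]
  by_cases hq : q ∈ U
  · simp only [w', if_pos hq, hw]
  · simp only [w', if_neg hq, hm0 q hq, map_zero, LinearMap.zero_apply]

/-- the comparison of continuous classes with all classes -/
def kapH1 (D : Rep.{0} (ZMod p) GQ) : cH1 (MonoidHom.id GQ) D →ₗ[ZMod p] H1 D :=
  Submodule.liftQ _ ((H1π D).hom ∘ₗ Submodule.inclusion inf_le_left) fun z hz =>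
    LinearMap.mem_ker.2 ((H1π_eq_zero_iff _).2 hz)

theorem kapH1_mk (D : Rep.{0} (ZMod p) GQ) (z : Z1 (MonoidHom.id GQ) D) :
    kapH1 D (h1mk _ D z) = (H1π D).hom ⟨z.1, z.2.1⟩ := rfl

theorem kapH1_injective (D : Rep.{0} (ZMod p) GQ) : Function.Injective (kapH1 D) := by
  refine (injective_iff_map_eq_zero _).2 fun b hb => ?_
  obtain ⟨z, rfl⟩ := Submodule.mkQ_surjective _ b
  rw [Submodule.mkQ_apply, Submodule.Quotient.mk_eq_zero]
  exact (H1π_eq_zero_iff _).1 hb

theorem locRes_H1π_eq_zero_iff (D : Rep.{0} (ZMod p) GQ) (v : extArithIndex S) (c : cocycles₁ D) :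
    (locRes (extArithLoc S) D v).hom ((H1π D).hom c) = 0 ↔
      ∃ m : D, ∀ g, D.ρ (extArithLoc S v g) m - m = c (extArithLoc S v g) := by
  have h := LinearMap.congr_fun (congrArg ModuleCat.Hom.hom
    (H1π_comp_map (A := D) (f := extArithLoc S v)
      (φ := 𝟙 (Rep.res (extArithLoc S v) D)))) c
  simp only [ModuleCat.hom_comp, LinearMap.comp_apply] at h
  rw [show (locRes (extArithLoc S) D v).hom ((H1π D).hom c) = _ from h]
  refine (H1π_eq_zero_iff _).trans ?_
  rw [coe_mapCocycles₁]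
  simp only [coboundaries₁, LinearMap.mem_range, funext_iff, d₀₁_hom_apply]
  rfl

theorem mem_sha₁_iff (hp2 : p ≠ 2) {D : Rep.{0} (ZMod p) GQ} (hD : IsAdm (MonoidHom.id GQ) D)
    (hDu : ∀ q ∉ S, IsUnrAt q D) (x : H1 D) :
    x ∈ sha₁ S D ↔ ∃ b ∈ WS S D, kapH1 D b = x := by
  constructor
  · rintro ⟨h1, h2⟩
    obtain ⟨c, hc, rfl⟩ := (mem_continuousH1S_iff S D x).1 h1
    refine ⟨h1mk _ D ⟨c, c.2, hc.isLevelConstant₁⟩, (mem_WS_iff S).2 ⟨fun q hq => ?_, fun q hq => ?_⟩,
      rfl⟩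
    · refine ⟨_, fun s hs => ?_, rfl⟩
      obtain ⟨F, hF, hl⟩ := hc
      show c (loc q s) = 0
      have h := hl 1 (loc q s) (hF.2 q hq (plc q) (lies_plc q) hs)
      rw [one_mul] at h
      rw [h]
      exact cocycles₁_map_one c
    · obtain ⟨m, hm⟩ := (locRes_H1π_eq_zero_iff S D (Sum.inr ⟨q, hq⟩) c).1
        (congrFun (LinearMap.mem_ker.1 h2) _)
      exact (h1mk_eq_zero_iff (loc q) _).2 ⟨m, hm⟩
  · rintro ⟨b, hb, rfl⟩
    obtain ⟨z, rfl⟩ := Submodule.mkQ_surjective _ b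
    obtain ⟨hb1, hb2⟩ := (mem_WS_iff S).1 hb
    refine ⟨(mem_continuousH1S_iff S D _).2 ⟨⟨z.1, z.2.1⟩, ?_, rfl⟩, LinearMap.mem_ker.2
      (funext fun v => (locRes_H1π_eq_zero_iff S D v ⟨z.1, z.2.1⟩).2 ?_)⟩
    · have hcoc := (mem_cocycles₁_iff _).1 z.2.1
      have h1 : z.1 1 = 0 := cocycles₁_map_one (⟨z.1, z.2.1⟩ : cocycles₁ D)
      obtain ⟨Fv, hFv, hFvn, hρ, hzl⟩ := hD.exists_level (MonoidHom.id GQ) z.2.2
      let N₀ : Subgroup GQ :=
        { carrier := {s | D.ρ s = 1 ∧ z.1 s = 0}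
          one_mem' := ⟨map_one _, h1⟩
          mul_mem' := fun {a b} ha hb => ⟨by rw [map_mul, ha.1, hb.1, mul_one],
            by rw [hcoc, hb.2, map_zero, zero_add, ha.2]⟩
          inv_mem' := fun {a} ha => by
            have h : D.ρ a⁻¹ = 1 := by
              have h : D.ρ a⁻¹ * D.ρ a = 1 := by rw [← map_mul, inv_mul_cancel, map_one]
              rwa [ha.1, mul_one] at h
            refine ⟨h, ?_⟩
            have h2 := hcoc a⁻¹ a
            rw [inv_mul_cancel, h1, ha.2, map_zero, zero_add] at h2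
            exact h2.symm }
      have hn : N₀.Normal := ⟨fun a ha g => ⟨by
        rw [map_mul, map_mul, ha.1, mul_one, ← map_mul, mul_inv_cancel, map_one], by
        rw [mul_assoc, hcoc, hcoc a, ha.1, Module.End.one_apply, ha.2, add_zero, ← hcoc,
          mul_inv_cancel, h1]⟩⟩
      have ho : IsOpenSub (MonoidHom.id GQ) N₀ := ⟨Fv, hFv, fun t ht => ⟨hρ t ht, by
        have h := hzl 1 t ht
        rw [one_mul] at h
        exact h.trans h1⟩⟩
      obtain ⟨F, hF, hFN⟩ := exists_unrOutside_field hn ho fun q hq s hs =>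
        ⟨hDu q hq s hs, (mem_unr1_iff (hDu q hq) _).1 (hb1 q hq) s hs⟩
      refine ⟨F, hF, fun g s hs => ?_⟩
      rw [hFN] at hs
      show z.1 (g * s) = z.1 g
      rw [hcoc, hs.2, map_zero, zero_add]
    · rcases v with u | ⟨q, hq⟩
      · haveI := finite_archimedean
        refine exists_d0_of_card (G := ExtCitation.archimedeanDecomposition)
          (Rep.res ExtCitation.archimedeanLoc D) (card_archimedean hp2)
          ⟨fun g => z.1 (ExtCitation.archimedeanLoc g), (mem_cocycles₁_iff _).2 fun g h => ?_⟩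
        rw [map_mul]
        exact (mem_cocycles₁_iff _).1 z.2.1 _ _
      · exact (h1mk_eq_zero_iff (loc q) _).1 (hb2 q hq)

/-- global duality for the classes unramified outside `S` -/
theorem exists_sha_pairing (hp2 : p ≠ 2) (hpS : pP p ∈ S) (hM : IsAdm (MonoidHom.id GQ) M)
    (hMu : ∀ q ∉ S, IsUnrAt q M) :
    ∃ B : sha₁ S (dual' M) →ₗ[ZMod p] sha₂ S M →ₗ[ZMod p] ZMod p,
      (∀ y, (∀ x, B y x = 0) → y = 0) ∧ (∀ x, (∀ y, B y x = 0) → x = 0) := by
  obtain ⟨R⟩ := exists_recip hp2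
  have hDu : ∀ q ∉ S, IsUnrAt q (dual' M) := fun q hq =>
    isUnrAt_dual (ne_p_of_notMem S hpS hq) (hMu q hq)
  have hmem := mem_sha₁_iff S hp2 (isAdm_dual hM) hDu
  let κ : WS S (dual' M) ≃ₗ[ZMod p] sha₁ S (dual' M) := LinearEquiv.ofBijective
    (LinearMap.codRestrict _ (kapH1 (dual' M) ∘ₗ (WS S (dual' M)).subtype)
      fun b => (hmem _).2 ⟨b.1, b.2, rfl⟩)
    ⟨fun a b h => Subtype.ext (kapH1_injective _ (congrArg Subtype.val h)), fun x => by
      obtain ⟨b, hb, hbx⟩ := (hmem _).1 x.2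
      exact ⟨⟨b, hb⟩, Subtype.ext hbx⟩⟩
  let E : sha₂ S M ≃ₗ[ZMod p] Module.Dual (ZMod p) (WS S (dual' M)) :=
    ((LinearMap.quotKerEquivOfSurjective _ (piS_surjective S hp2 hM hMu)).symm ≪≫ₗ
      Submodule.quotEquivOfEq _ _ (ker_piS S R hp2 hM hpS hMu)) ≪≫ₗ
      LinearMap.quotKerEquivOfSurjective _ (LamS_surjective S R hp2 hM hpS hMu)
  refine ⟨(E.toLinearMap.compl₂ κ.symm.toLinearMap).flip, fun y hy => ?_, fun x hx => ?_⟩
  · have h : ∀ l : Module.Dual (ZMod p) (WS S (dual' M)), l (κ.symm y) = 0 := fun l => by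
      have := hy (E.symm l)
      simpa [LinearMap.flip_apply, LinearMap.compl₂_apply] using this
    simpa using congrArg κ ((Module.forall_dual_apply_eq_zero_iff (ZMod p) _).1 h)
  · refine E.map_eq_zero_iff.1 (LinearMap.ext fun b => ?_)
    simpa [LinearMap.flip_apply, LinearMap.compl₂_apply] using hx (κ b)

end FLTAgent.PT
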