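import Fermat.Agent.PT.Dual.Perm

/-!
Parcel E: `H²` of the absolute Galois group is right exact and `H³(μ_p) = 0`.
-/

set_option autoImplicit false
set_option linter.style.haveILetI false

noncomputable section

open CategoryTheory groupCohomology

namespace FLTAgent.PT

variable {p : ℕ} [Fact p.Prime]

theorem h2push_perm_surjective (hp2 : p ≠ 2) {K H : Subgroup GQ}
    (hK : IsOpenSub (MonoidHom.id GQ) K) (hH : IsOpenSub (MonoidHom.id GQ) H)
    (hωK : ∀ h ∈ K, ExtCitation.cycloChar p h = 1)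
    (hωH : ∀ h ∈ H, ExtCitation.cycloChar p h = 1)
    (π : ind K (one p) →ₗ[ZMod p] ind H (one p))
    (hπ : ∀ g f, π ((ind K (one p)).ρ g f) = (ind H (one p)).ρ g (π f))
    (hπ1 : ∀ g : GQ, π (deltaFn K (g : GQ ⧸ K)) = deltaFn H (g : GQ ⧸ H))
    (hπs : Function.Surjective π) :
    Function.Surjective (h2push (MonoidHom.id GQ) π hπ) := by
  classical
  obtain ⟨R⟩ := exists_recip hp2
  haveI := hK.finite_quotient
  haveI := hH.finite_quotient
  letI := Fintype.ofFinite (GQ ⧸ K)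
  letI := Fintype.ofFinite (GQ ⧸ H)
  have hIK := isAdm_ind hK (⟨inferInstance, ⊥, inferInstance, fun _ _ => rfl⟩ :
    IsAdm (MonoidHom.id GQ) (one p))
  have hIH := isAdm_ind hH (⟨inferInstance, ⊥, inferInstance, fun _ _ => rfl⟩ :
    IsAdm (MonoidHom.id GQ) (one p))
  intro b
  have hlift : ∀ q, ∃ b' : lH2 q (ind K (one p)),
      lpush2 π hπ q b' = res2 q _ b ∧ (res2 q (ind H (one p)) b = 0 → b' = 0) := fun q => by
    by_cases h : res2 q (ind H (one p)) b = 0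
    · exact ⟨0, by rw [map_zero, h], fun _ => rfl⟩
    · obtain ⟨b', hb'⟩ := lH2_surjective q hIK hIH π hπ hπs (res2 q _ b)
      exact ⟨b', hb', fun h' => absurd h' h⟩
  choose b' hb' hb0 using hlift
  set b'' : ∀ q, lH2 q (ind K (mu p)) :=
    fun q => lpush2 (twistMu hωK) (twistMu_eqv hωK) q (b' q) with hb''
  have hfin : {q | b'' q ≠ 0}.Finite := (finite_res2 hIH b).subset fun q hq h => hq (by
    simp only [hb'', hb0 q h, map_zero])
  set ψK : ind K (one p) →ₗ[ZMod p] mu p := indSum K (mu p) ∘ₗ twistMu hωK with hψK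
  set ψH : ind H (one p) →ₗ[ZMod p] mu p := indSum H (mu p) ∘ₗ twistMu hωH with hψH
  have hψ : ψK = ψH ∘ₗ π := linearMap_perm_ext fun g => by
    simp only [hψK, hψH, LinearMap.comp_apply, hπ1]
    show (∑ x, chiQ K hωK x * deltaFn (p := p) K (g : GQ ⧸ K) x) =
      (∑ x, chiQ H hωH x * deltaFn (p := p) H (g : GQ ⧸ H) x)
    simp [deltaFn_apply, chiQ_mk]
  have hψHe : ∀ g f, ψH ((ind H (one p)).ρ g f) = (mu p).ρ g (ψH f) := fun g f => by
    show indSum H (mu p) (twistMu hωH ((ind H (one p)).ρ g f)) =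
      (mu p).ρ g (indSum H (mu p) (twistMu hωH f))
    rw [twistMu_eqv, indSum_eqv]
  have hψKe : ∀ g f, ψK ((ind K (one p)).ρ g f) = (mu p).ρ g (ψK f) := fun g f => by
    simp only [hψ, LinearMap.comp_apply, hπ, hψHe]
  obtain ⟨c, hc⟩ := exists_cH2_perm hp2 R hK hωK (fun q g a => indSum_eqv (mu p) (loc q g) a) b''
    hfin (by
      rw [← R.sum_zero (h2push (MonoidHom.id GQ) ψH hψHe b)]
      refine finsum_congr fun q => congrArg (R.inv q) ?_
      rw [res2_push, ← hb', hb'', h2push_comp, h2push_comp]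
      exact h2push_congr (A := Rep.res (loc q) (ind K (one p))) (B := Rep.res (loc q) (mu p))
        hψ _ _ _)
  refine ⟨h2push (MonoidHom.id GQ) (untwistMu hωK) (untwistMu_eqv hωK) c, ?_⟩
  set d := h2push (MonoidHom.id GQ) π hπ
    (h2push (MonoidHom.id GQ) (untwistMu hωK) (untwistMu_eqv hωK) c) - b with hd
  have hloc : h2push (MonoidHom.id GQ) (twistMu hωH) (twistMu_eqv hωH) d ∈
      sha2g (ind H (mu p)) := by
    simp only [sha2g, Submodule.mem_iInf, LinearMap.mem_ker]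
    intro q
    rw [res2_push, hd, map_sub (res2 q _), res2_push, res2_push, hc q, hb'']
    rw [h2push_retract (r := loc q) _ _ (fun g m => twistMu_eqv hωK (loc q g) m)
      (fun g m => untwistMu_eqv hωK (loc q g) m) (untwist_twist hωK), hb' q, sub_self, map_zero]
  rw [sha2g_perm hp2 hH hωH, Submodule.mem_bot] at hloc
  have := congrArg (h2push (MonoidHom.id GQ) (untwistMu hωH) (untwistMu_eqv hωH)) hloc
  rw [map_zero, h2push_retract _ _ _ _ (untwist_twist hωH)] at this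
  exact sub_eq_zero.1 this

theorem subsingleton_cH2 {G : Type} [Group G] {r : G →* GQ} (M : Rep.{0} (ZMod p) G)
    [Subsingleton M] : Subsingleton (cH2 r M) := by
  refine ⟨fun x y => ?_⟩
  obtain ⟨u, rfl⟩ := Submodule.mkQ_surjective _ x
  obtain ⟨v, rfl⟩ := Submodule.mkQ_surjective _ y
  exact congrArg _ (Subtype.ext (funext fun _ => Subsingleton.elim _ _))

theorem cH2_surjective' (hp2 : p ≠ 2) {N : Rep.{0} (ZMod p) GQ}
    (hN : IsAdm (MonoidHom.id GQ) N) :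
    ∀ (M : Rep.{0} (ZMod p) GQ), IsAdm (MonoidHom.id GQ) M → ∀ (φ : M →ₗ[ZMod p] N)
      (hφ : ∀ g m, φ (M.ρ g m) = N.ρ g (φ m)), Function.Surjective φ →
      Function.Surjective (h2push (MonoidHom.id GQ) φ hφ) := by
  refine adm_induction (P := fun N => ∀ (M : Rep.{0} (ZMod p) GQ), IsAdm (MonoidHom.id GQ) M →
    ∀ (φ : M →ₗ[ZMod p] N) (hφ : ∀ g m, φ (M.ρ g m) = N.ρ g (φ m)), Function.Surjective φ →
      Function.Surjective (h2push (MonoidHom.id GQ) φ hφ)) ?_ ?_ ?_ ?_ N hN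
  · intro N _ hs M _ φ hφ _ x
    haveI := subsingleton_cH2 (r := MonoidHom.id GQ) N
    exact ⟨0, Subsingleton.elim _ _⟩
  · intro H hH hω M hM φ hφ hs
    obtain ⟨FH, hFH, hle⟩ := hH
    obtain ⟨FM, hFM, hρ⟩ := hM.level
    obtain ⟨F, hF, hle', hn⟩ := exists_normal_level (FH ⊔ FM)
    set K : Subgroup GQ := F.fixingSubgroup with hKdef
    have hK : IsOpenSub (MonoidHom.id GQ) K := ⟨F, hF, le_of_eq (Subgroup.comap_id _)⟩
    have hH' : IsOpenSub (MonoidHom.id GQ) H := ⟨FH, hFH, hle⟩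
    have hKH : K ≤ H := fun g hg =>
      hle (IntermediateField.fixingSubgroup_antitone le_sup_left (hle' hg))
    haveI := hK.finite_quotient
    obtain ⟨v, hv⟩ := hs (deltaFn H ((1 : GQ) : GQ ⧸ H))
    have hvK : ∀ k ∈ K, M.ρ k v = v := fun k hk => by
      rw [hρ k (IntermediateField.fixingSubgroup_antitone le_sup_right (hle' hk))]
      rfl
    set π : ind K (one p) →ₗ[ZMod p] ind H (one p) := φ ∘ₗ fromPerm M v hvK with hπdef
    have hπ : ∀ g f, π ((ind K (one p)).ρ g f) = (ind H (one p)).ρ g (π f) := fun g f =>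
      (congrArg φ (fromPerm_eqv M v hvK g f)).trans (hφ g _)
    have hπ1 : ∀ g : GQ, π (deltaFn K (g : GQ ⧸ K)) = deltaFn H (g : GQ ⧸ H) := fun g => by
      show φ (fromPerm M v hvK (deltaFn K (g : GQ ⧸ K))) = _
      rw [fromPerm_deltaFn, hφ, hv, smul_deltaFn]
      show deltaFn H ((g * 1 : GQ) : GQ ⧸ H) = _
      rw [mul_one]
    have hπs : Function.Surjective π := by
      haveI := hH'.finite_quotient
      letI := Fintype.ofFinite (GQ ⧸ H)
      intro f
      refine ⟨∑ x : GQ ⧸ H, f x • deltaFn K (((Quotient.out x : GQ)) : GQ ⧸ K), ?_⟩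
      rw [map_sum]
      conv_rhs => rw [sum_smul_deltaFn f]
      refine Finset.sum_congr rfl fun x _ => ?_
      rw [map_smul π, hπ1, QuotientGroup.out_eq']
    intro b
    obtain ⟨c, hc⟩ := h2push_perm_surjective hp2 hK hH' (fun k hk => hω k (hKH hk)) hω π hπ hπ1
      hπs b
    exact ⟨h2push (MonoidHom.id GQ) (fromPerm M v hvK) (fromPerm_eqv M v hvK) c,
      (h2push_comp _ _ _ _ c).trans hc⟩
  · intro A B C E _ _ hA hC M hM φ hφ hs b
    have hprφ : ∀ g m, (E.pr ∘ₗ φ) (M.ρ g m) = C.ρ g ((E.pr ∘ₗ φ) m) := fun g m => by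
      simp only [LinearMap.comp_apply, hφ, E.pr_eqv]
    obtain ⟨m, hm⟩ := hC M hM (E.pr ∘ₗ φ) hprφ (E.surj.comp hs)
      (h2push (MonoidHom.id GQ) E.pr E.pr_eqv b)
    have hker : b - h2push (MonoidHom.id GQ) φ hφ m ∈
        LinearMap.ker (h2push (MonoidHom.id GQ) E.pr E.pr_eqv) := by
      rw [LinearMap.mem_ker, map_sub, h2push_comp, hm, sub_self]
    rw [← E.exact_h2, LinearMap.mem_range] at hker
    obtain ⟨a, ha⟩ := hker
    let W : Submodule (ZMod p) M := LinearMap.ker (E.pr ∘ₗ φ)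
    have hW : ∀ g, W ≤ W.comap (M.ρ g) := fun g x hx => by
      rw [Submodule.mem_comap, LinearMap.mem_ker, hprφ, LinearMap.mem_ker.1 hx, map_zero]
    set M₁ : Rep.{0} (ZMod p) GQ := Rep.of (M.ρ.subrepresentation W hW) with hM₁
    have hM₁a : IsAdm (MonoidHom.id GQ) M₁ :=
      hM.of_injective W.subtype Subtype.val_injective fun g x => rfl
    let φ₁ : M₁ →ₗ[ZMod p] A := (LinearEquiv.ofInjective E.i E.inj).symm.toLinearMap ∘ₗ
      (φ ∘ₗ W.subtype).codRestrict (LinearMap.range E.i)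
        fun x => (E.exact _).1 (LinearMap.mem_ker.1 x.2)
    have hi : ∀ x : M₁, E.i (φ₁ x) = φ (W.subtype x) := fun x =>
      congrArg Subtype.val ((LinearEquiv.ofInjective E.i E.inj).apply_symm_apply _)
    have hφ₁ : ∀ g x, φ₁ (M₁.ρ g x) = A.ρ g (φ₁ x) := fun g x => E.inj (by
      rw [E.i_eqv, hi, hi]
      exact hφ g _)
    have hs₁ : Function.Surjective φ₁ := fun x => by
      obtain ⟨m', hm'⟩ := hs (E.i x)
      refine ⟨⟨m', LinearMap.mem_ker.2 ?_⟩, E.inj ?_⟩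
      · show E.pr (φ m') = 0
        rw [hm']
        exact (E.exact _).2 ⟨x, rfl⟩
      · rw [hi]; exact hm'
    obtain ⟨m₁, hm₁⟩ := hA M₁ hM₁a φ₁ hφ₁ hs₁ a
    refine ⟨m + h2push (MonoidHom.id GQ) W.subtype (fun g x => rfl) m₁, ?_⟩
    have hφW : ∀ g x, (φ ∘ₗ W.subtype) (M₁.ρ g x) = B.ρ g ((φ ∘ₗ W.subtype) x) :=
      fun g x => hφ g _
    have hiφ : ∀ g x, (E.i ∘ₗ φ₁) (M₁.ρ g x) = B.ρ g ((E.i ∘ₗ φ₁) x) :=
      fun g x => (congrArg E.i (hφ₁ g x)).trans (E.i_eqv g _)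
    rw [map_add, h2push_comp, h2push_congr (A := M₁) (show φ ∘ₗ W.subtype = E.i ∘ₗ φ₁ from
      LinearMap.ext fun x => (hi x).symm) hφW hiφ, ← h2push_comp (A := M₁) φ₁ E.i hφ₁ E.i_eqv,
      hm₁, ha]
    abel
  · intro A B i s _ hBa hi hs hsi hB M hM φ hφ hφs a
    let W : Submodule (ZMod p) (M × B) :=
      LinearMap.ker (φ ∘ₗ LinearMap.fst (ZMod p) M B - s ∘ₗ LinearMap.snd (ZMod p) M B)
    let ρP : Representation (ZMod p) GQ (M × B) :=
      { toFun := fun g => (M.ρ g).prodMap (B.ρ g)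
        map_one' := by rw [map_one, map_one]; exact LinearMap.ext fun _ => rfl
        map_mul' := fun g h => by rw [map_mul, map_mul]; exact LinearMap.ext fun _ => rfl }
    have hW : ∀ g, W ≤ W.comap (ρP g) := fun g x hx => by
      have hx' : φ x.1 = s x.2 := sub_eq_zero.1 hx
      show φ (M.ρ g x.1) - s (B.ρ g x.2) = 0
      rw [hφ, hs, hx', sub_self]
    set M₁ : Rep.{0} (ZMod p) GQ := Rep.of (ρP.subrepresentation W hW)
    have hM₁a : IsAdm (MonoidHom.id GQ) M₁ := by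
      haveI := hM.finite; haveI := hBa.finite
      obtain ⟨F, hF, h⟩ := hM.level
      obtain ⟨F', hF', h'⟩ := hBa.level
      haveI := hF; haveI := hF'
      refine ⟨inferInstanceAs (Module.Finite (ZMod p) W), F ⊔ F', inferInstance, fun g hg => ?_⟩
      refine LinearMap.ext fun x => Subtype.ext (Prod.ext ?_ ?_)
      · show M.ρ g x.1.1 = x.1.1
        rw [h g (IntermediateField.fixingSubgroup_antitone le_sup_left hg)]; rfl
      · show B.ρ g x.1.2 = x.1.2
        rw [h' g (IntermediateField.fixingSubgroup_antitone le_sup_right hg)]; rfl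
    let φ₁ : M₁ →ₗ[ZMod p] B := LinearMap.snd (ZMod p) M B ∘ₗ W.subtype
    let π₁ : M₁ →ₗ[ZMod p] M := LinearMap.fst (ZMod p) M B ∘ₗ W.subtype
    have hs₁ : Function.Surjective φ₁ := fun x => by
      obtain ⟨m, hm⟩ := hφs (s x)
      exact ⟨⟨(m, x), sub_eq_zero.2 hm⟩, rfl⟩
    obtain ⟨c, hc⟩ := hB M₁ hM₁a φ₁ (fun g x => rfl) hs₁ (h2push (MonoidHom.id GQ) i hi a)
    refine ⟨h2push (MonoidHom.id GQ) π₁ (fun g x => rfl) c, ?_⟩
    have h1 : ∀ g x, (φ ∘ₗ π₁) (M₁.ρ g x) = A.ρ g ((φ ∘ₗ π₁) x) := fun g x => hφ g _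
    have h2 : ∀ g x, (s ∘ₗ φ₁) (M₁.ρ g x) = A.ρ g ((s ∘ₗ φ₁) x) := fun g x => hs g _
    rw [h2push_comp, h2push_congr (A := M₁) (show φ ∘ₗ π₁ = s ∘ₗ φ₁ from
      LinearMap.ext fun x => sub_eq_zero.1 x.2) h1 h2,
      ← h2push_comp (A := M₁) φ₁ s (fun _ _ => rfl) hs, hc]
    exact h2push_retract i s hi hs hsi a

/-- every continuous 3-cocycle with values in `μ_p` is a coboundary -/
theorem exists_primitive3 (hp2 : p ≠ 2) {e : GQ × GQ × GQ → mu p}
    (hl : IsLevelConstant3 (MonoidHom.id GQ) e) (hc : IsCocycle3 (mu p) e) :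
    ∃ θ : GQ × GQ → mu p, IsLevelConstant₂ (MonoidHom.id GQ) θ ∧ (d₂₃ (mu p)).hom θ = e := by
  classical
  obtain ⟨F₁, hF₁, h₁⟩ := hl
  obtain ⟨F₂, hF₂, h₂⟩ := (isAdm_mu p).level
  obtain ⟨F, hF, hle, hn⟩ := exists_normal_level (F₁ ⊔ F₂)
  set N : Subgroup GQ := F.fixingSubgroup with hNdef
  haveI : N.Normal := hn
  have hN : IsOpenSub (MonoidHom.id GQ) N := ⟨F, hF, le_of_eq (Subgroup.comap_id _)⟩
  haveI := hN.finite_quotient
  have hle1 : ∀ {g}, g ∈ N → g ∈ F₁.fixingSubgroup := fun hg =>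
    IntermediateField.fixingSubgroup_antitone le_sup_left (hle hg)
  have hμ : ∀ {g}, g ∈ N → (mu p).ρ g = 1 := fun {g} hg =>
    h₂ g (IntermediateField.fixingSubgroup_antitone le_sup_right (hle hg))
  set I : Rep.{0} (ZMod p) GQ := ind N (mu p) with hIdef
  have hI : IsAdm (MonoidHom.id GQ) I := isAdm_ind hN (isAdm_mu p)
  have hwd : ∀ (g h a b : GQ), a⁻¹ * b ∈ N →
      (mu p).ρ a (e (a⁻¹, g, h)) = (mu p).ρ b (e (b⁻¹, g, h)) := fun g h a b hab => by
    obtain ⟨n, hn', rfl⟩ : ∃ n ∈ N, b = a * n := ⟨_, hab, (mul_inv_cancel_left a b).symm⟩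
    rw [map_mul (mu p).ρ, hμ hn', mul_one, mul_inv_rev]
    have h3 := h₁ a⁻¹ g h (a * n⁻¹ * a⁻¹) 1 1 (hle1 (hn.conj_mem _ (inv_mem hn') a)) (one_mem _)
      (one_mem _)
    rw [mul_one, mul_one, show a⁻¹ * (a * n⁻¹ * a⁻¹) = n⁻¹ * a⁻¹ by group] at h3
    rw [h3]
  let f : GQ × GQ → I := fun gh x => Quotient.liftOn' x
    (fun a => (mu p).ρ a (e (a⁻¹, gh.1, gh.2)))
    fun a b hab => hwd _ _ a b (by rwa [QuotientGroup.leftRel_apply] at hab)
  have hfl : IsLevelConstant₂ (MonoidHom.id GQ) f := ⟨F, hF, fun g g' s s' hs hs' => by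
    funext x
    induction x using QuotientGroup.induction_on with
    | H a =>
      show (mu p).ρ a (e (a⁻¹, g * s, g' * s')) = (mu p).ρ a (e (a⁻¹, g, g'))
      have h3 := h₁ a⁻¹ g g' 1 s s' (one_mem _) (hle1 hs) (hle1 hs')
      rw [mul_one] at h3
      rw [h3]⟩
  let ι : mu p →ₗ[ZMod p] I := indConst N (mu p)
  have hι : ∀ g m, ι ((mu p).ρ g m) = I.ρ g (ι m) := fun g m => rfl
  have hd : ∀ g h k : GQ, (d₂₃ I).hom f (g, h, k) = ι (e (g, h, k)) := fun g h k => by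
    rw [d₂₃_hom_apply]
    funext x
    induction x using QuotientGroup.induction_on with
    | H a =>
      show (mu p).ρ g ((mu p).ρ (g⁻¹ * a) (e ((g⁻¹ * a)⁻¹, h, k))) -
          (mu p).ρ a (e (a⁻¹, g * h, k)) + (mu p).ρ a (e (a⁻¹, g, h * k)) -
          (mu p).ρ a (e (a⁻¹, g, h)) = e (g, h, k)
      rw [← Module.End.mul_apply, ← map_mul, mul_inv_cancel_left, mul_inv_rev, inv_inv]
      have h4 := congrArg ((mu p).ρ a) (hc a⁻¹ g h k)
      rw [map_add, map_sub ((mu p).ρ a), map_add, map_sub, map_zero, ← Module.End.mul_apply,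
        ← map_mul, mul_inv_cancel, map_one, Module.End.one_apply] at h4
      linear_combination (norm := abel) -h4
  let W : Submodule (ZMod p) I := LinearMap.range ι
  have hW : ∀ g, W ≤ W.comap (I.ρ g) := fun g x ⟨m, hm⟩ =>
    ⟨(mu p).ρ g m, by rw [hι, hm]⟩
  set C : Rep.{0} (ZMod p) GQ := Rep.of (I.ρ.quotient W hW)
  let E : SES (MonoidHom.id GQ) (mu p) I C :=
    { i := ι
      pr := W.mkQ
      i_eqv := hι
      pr_eqv := fun g b => rfl
      inj := fun a b h => congrFun h ((1 : GQ) : GQ ⧸ N)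
      surj := W.mkQ_surjective
      exact := LinearMap.exact_iff.2 W.ker_mkQ
      adm := hI }
  have hb : (E.pr ∘ f) ∈ levelCocycles₂ (MonoidHom.id GQ) C := by
    refine ⟨(mem_cocycles₂_def _).2 fun g h k => ?_, hfl.comp E.pr⟩
    have h5 := congrArg E.pr (hd g h k)
    rw [d₂₃_hom_apply, map_sub E.pr, map_add, map_sub, E.pr_eqv] at h5
    exact h5.trans ((E.exact _).2 ⟨_, rfl⟩)
  obtain ⟨c, hc'⟩ := cH2_surjective' hp2 E.adm_right I hI E.pr E.pr_eqv E.surj
    (h2mk _ C ⟨_, hb⟩)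
  obtain ⟨b', rfl⟩ := Submodule.mkQ_surjective _ c
  have h6 : h2mk (MonoidHom.id GQ) C (⟨_, hb⟩ -
      levelCocycles₂Map (MonoidHom.id GQ) (fun _ => rfl) E.pr E.pr_eqv b') = 0 := by
    rw [map_sub, sub_eq_zero]
    exact hc'.symm
  obtain ⟨s, hsl, hs⟩ := (mem_levelCoboundaries₂_iff _ _ _).1
    ((continuousH2π_eq_zero_iff _ _ _).1 h6)
  set f' : GQ × GQ → I := f - b'.1 - (d₁₂ I).hom (E.sec ∘ s) with hf'
  have hi : ∀ x, E.i (E.back (f' x)) = f' x := fun x => E.i_back (by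
    have h7 := congrFun hs x
    simp only [hf', Pi.sub_apply, map_sub, d₁₂_hom_apply, map_add, E.pr_eqv, Function.comp_apply,
      E.pr_sec]
    rw [d₁₂_hom_apply] at h7
    rw [h7]
    exact sub_self _)
  have hl' : IsLevelConstant₂ (MonoidHom.id GQ) f' :=
    isLevel2_sub (isLevel2_sub hfl b'.2.2) (hI.level_d1 (hsl.comp E.sec))
  refine ⟨E.back ∘ f', hl'.comp E.back, funext fun x => E.inj ?_⟩
  obtain ⟨g, h, k⟩ := x
  rw [d₂₃_hom_apply]
  simp only [map_sub, map_add, E.i_eqv, Function.comp_apply, hi]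
  show _ = ι (e (g, h, k))
  rw [← hd g h k, d₂₃_hom_apply]
  have hb'c := (mem_cocycles₂_def _).1 b'.2.1 g h k
  simp only [hf', Pi.sub_apply, d₁₂_hom_apply, Function.comp_apply, map_sub, map_add, map_mul,
    Module.End.mul_apply, mul_assoc]
  linear_combination (norm := abel) -hb'c

end FLTAgent.PT
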